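import Fermat.Agent.FlatModel.RatLoc
import Mathlib.RingTheory.Bialgebra.Convolution
import Mathlib.LinearAlgebra.FreeModule.PID
import Mathlib.LinearAlgebra.TensorProduct.Basis
import Mathlib.RingTheory.Localization.Module
import Mathlib.RingTheory.Flat.Basic

/-!
# Hopf orders in the algebra of equivariant functions on a finite Galois module

An order closed under comultiplication gives a finite flat Hopf algebra over `ℤ_(ℓ)` whose points
are the module.
-/

set_option autoImplicit false

noncomputable section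

open TensorProduct

namespace FLTAgent.FlatModel

local notation "QQb" => AlgebraicClosure ℚ
local notation "GG" => (AlgebraicClosure ℚ ≃ₐ[ℚ] AlgebraicClosure ℚ)

/-- A `ℤ_(ℓ)`-order of equivariant functions, closed under comultiplication. -/
structure HopfOrder (ℓ : ℕ) (M : Type*) [AddCommGroup M] [DistribMulAction GG M] where
  /-- The functions. -/
  S : Subalgebra (Rl ℓ) (M → QQb)
  fg : S.toSubmodule.FG
  equivariant : ∀ f ∈ S, ∀ (σ : GG) (x : M), f (σ • x) = σ (f x)
  span_top : Submodule.span QQb (S : Set (M → QQb)) = ⊤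
  comul_mem : ∀ f ∈ S, (fun p : M × M => f (p.1 + p.2)) ∈
    Submodule.span (Rl ℓ) (Set.image2 (fun (a b : M → QQb) (p : M × M) => a p.1 * b p.2) S S)

/-- The module is the Galois module of points of a finite flat commutative group scheme. -/
def IsFlatModule (ℓ : ℕ) (M : Type*) [AddCommGroup M] [DistribMulAction GG M] : Prop :=
  ∃ (H : Type) (_ : CommRing H) (_ : HopfAlgebra (GaloisRep.ratLocalizedAt ℓ) H),
    Module.Finite (GaloisRep.ratLocalizedAt ℓ) H ∧ Module.Flat (GaloisRep.ratLocalizedAt ℓ) H ∧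
    Coalgebra.IsCocomm (GaloisRep.ratLocalizedAt ℓ) H ∧
    ∃ e : WithConv (H →ₐ[GaloisRep.ratLocalizedAt ℓ] QQb) ≃ M,
      (∀ f g, e (f * g) = e f + e g) ∧
      ∀ (σ : GG) (f g : WithConv (H →ₐ[GaloisRep.ratLocalizedAt ℓ] QQb)),
        (∀ h : H, g h = σ (f h)) → e g = σ • e f

section Functions

variable {ℓ : ℕ} [hl : Fact ℓ.Prime] {X Y ι κ : Type*}

omit hl in
theorem linearIndependent_pair {h : ι → X → QQb} {g : κ → Y → QQb} (hh : LinearIndependent QQb h)
    (hg : LinearIndependent QQb g) :
    LinearIndependent QQb fun (p : ι × κ) (q : X × Y) => h p.1 q.1 * g p.2 q.2 := by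
  classical
  rw [linearIndependent_iff']
  intro s c hc
  have hc' : ∀ x y, ∑ p ∈ s, c p * (h p.1 x * g p.2 y) = 0 := fun x y => by
    simpa [Finset.sum_apply] using congrFun hc (x, y)
  set d : ι → κ → QQb := fun i k => if (i, k) ∈ s then c (i, k) else 0 with hd
  set sI := s.image Prod.fst
  set sK := s.image Prod.snd
  have hd0 : ∀ x y, ∑ k ∈ sK, (∑ i ∈ sI, d i k * h i x) * g k y = 0 := by
    intro x y
    rw [← hc' x y]
    simp only [Finset.sum_mul]
    rw [Finset.sum_comm, ← Finset.sum_product']
    rw [← Finset.sum_subset (s₁ := s) (s₂ := sI ×ˢ sK) (fun p hp => Finset.mem_product.2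
      ⟨Finset.mem_image_of_mem _ hp, Finset.mem_image_of_mem _ hp⟩) (fun p _ hp => by simp [hd, hp])]
    exact Finset.sum_congr rfl fun p hp => by simp [hd, hp, mul_assoc]
  have h1 : ∀ x, ∀ k ∈ sK, ∑ i ∈ sI, d i k * h i x = 0 := fun x =>
    linearIndependent_iff'.1 hg sK _ (funext fun y => by simpa [Finset.sum_apply] using hd0 x y)
  intro p hp
  have h2 := linearIndependent_iff'.1 hh sI (fun i => d i p.2)
    (funext fun x => by simpa [Finset.sum_apply] using h1 x p.2 (Finset.mem_image_of_mem _ hp))
    p.1 (Finset.mem_image_of_mem _ hp)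
  simpa [hd, hp] using h2

variable (M : Type*) [AddCommGroup M] [DistribMulAction GG M]

theorem linearIndependent_of_equivariant {h : ι → M → QQb}
    (heq : ∀ i (σ : GG) x, h i (σ • x) = σ (h i x)) (hR : LinearIndependent (Rl ℓ) h) :
    LinearIndependent QQb h := by
  classical
  have hQ : LinearIndependent ℚ h := (LinearIndependent.iff_fractionRing (Rl ℓ) ℚ).1 hR
  rw [linearIndependent_iff']
  intro s
  induction s using Finset.induction with
  | empty => simp
  | insert a s ha ih =>
    intro c hc
    have hzero : c a = 0 := by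
      by_contra hca
      set c' : ι → QQb := fun i => (c a)⁻¹ * c i
      have hc' : ∀ x, ∑ i ∈ insert a s, c' i * h i x = 0 := fun x => by
        have := congrFun hc x
        simp only [Finset.sum_apply, Pi.smul_apply, smul_eq_mul, Pi.zero_apply] at this
        simp only [c', mul_assoc, ← Finset.mul_sum, this, mul_zero]
      have hrat : ∀ i ∈ s, ∀ σ : GG, σ (c' i) = c' i := by
        intro i hi σ
        refine sub_eq_zero.1 (ih (fun i => σ (c' i) - c' i) (funext fun y => ?_) i hi)
        simp only [Finset.sum_apply, Pi.smul_apply, smul_eq_mul, Pi.zero_apply, sub_mul,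
          Finset.sum_sub_distrib]
        have h1 := hc' y
        have h2 := congrArg σ (hc' (σ⁻¹ • y))
        rw [Finset.sum_insert ha] at h1 h2
        simp only [map_add, map_sum, map_mul, map_zero, ← heq, smul_inv_smul] at h2
        have hca' : c' a = 1 := inv_mul_cancel₀ hca
        rw [hca'] at h1 h2
        rw [map_one] at h2
        linear_combination h2 - h1
      choose q hq using fun i (hi : i ∈ s) => exists_rat_of_fixed (hrat i hi)
      have := linearIndependent_iff'.1 hQ (insert a s)
        (fun i => if hi : i ∈ s then q i hi else 1) (funext fun x => ?_) a (Finset.mem_insert_self a s)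
      · simp [ha] at this
      · rw [Pi.zero_apply, ← hc' x, Finset.sum_apply]
        refine Finset.sum_congr rfl fun i hi => ?_
        simp only [Pi.smul_apply, Algebra.smul_def]
        by_cases his : i ∈ s
        · simp [his, hq]
        · obtain rfl : i = a := (Finset.mem_insert.1 hi).resolve_right his
          simp [his, c', inv_mul_cancel₀ hca]
    have hc2 : ∑ i ∈ s, c i • h i = 0 := by
      rw [Finset.sum_insert ha, hzero, zero_smul, zero_add] at hc
      exact hc
    intro i hi
    rcases Finset.mem_insert.1 hi with rfl | hi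
    · exact hzero
    · exact ih c hc2 i hi

end Functions

/-! ### The Hopf algebra -/

namespace HopfOrder

variable {ℓ : ℕ} [hl : Fact ℓ.Prime] {M : Type*} [AddCommGroup M] [DistribMulAction GG M]
  (O : HopfOrder ℓ M)

instance : Module.Finite (Rl ℓ) O.S := Module.Finite.iff_fg.2 O.fg

instance : Module.IsTorsionFree (Rl ℓ) O.S := by
  refine ⟨fun r hr f g hfg => ?_⟩
  apply Subtype.ext
  funext x
  have h : r • (f : M → QQb) x = r • (g : M → QQb) x := congrFun (congrArg Subtype.val hfg) x
  rw [smul_eq_algebraMap_mul, smul_eq_algebraMap_mul] at h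
  have hr0 : (algebraMap ℚ QQb) (r : ℚ) ≠ 0 := by
    rw [Ne, map_eq_zero]
    exact fun h => hr.ne_zero (Subtype.ext h)
  exact mul_left_cancel₀ hr0 h

instance : Module.Free (Rl ℓ) O.S := Module.free_of_finite_type_torsion_free'

/-- A basis. -/
def basis : Module.Basis (Module.Free.ChooseBasisIndex (Rl ℓ) O.S) (Rl ℓ) O.S :=
  Module.Free.chooseBasis (Rl ℓ) O.S

theorem linearIndependent_basis : LinearIndependent QQb fun i => (O.basis i : M → QQb) := by
  refine linearIndependent_of_equivariant (ℓ := ℓ) M (fun i σ x => O.equivariant _ (O.basis i).2 σ x) ?_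
  exact O.basis.linearIndependent.map' O.S.toSubmodule.subtype (Submodule.ker_subtype _)

/-- Restriction of scalars of the evaluation. -/
def incl : O.S →ₐ[Rl ℓ] (M → QQb) := O.S.val

/-- Functions on pairs. -/
def ev2 : O.S ⊗[Rl ℓ] O.S →ₐ[Rl ℓ] (M × M → QQb) :=
  Algebra.TensorProduct.lift
    ((Pi.algHom _ _ fun p : M × M => Pi.evalAlgHom (Rl ℓ) _ p.1).comp O.incl)
    ((Pi.algHom _ _ fun p : M × M => Pi.evalAlgHom (Rl ℓ) _ p.2).comp O.incl)
    fun _ _ => Commute.all _ _

theorem ev2_tmul (a b : O.S) (p : M × M) :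
    O.ev2 (a ⊗ₜ b) p = (a : M → QQb) p.1 * (b : M → QQb) p.2 := rfl

/-- Functions on triples. -/
def ev3 : O.S ⊗[Rl ℓ] (O.S ⊗[Rl ℓ] O.S) →ₐ[Rl ℓ] (M × (M × M) → QQb) :=
  Algebra.TensorProduct.lift
    ((Pi.algHom _ _ fun p : M × (M × M) => Pi.evalAlgHom (Rl ℓ) _ p.1).comp O.incl)
    ((Pi.algHom _ _ fun p : M × (M × M) => Pi.evalAlgHom (Rl ℓ) _ p.2).comp O.ev2)
    fun _ _ => Commute.all _ _

theorem ev3_tmul (a : O.S) (z : O.S ⊗[Rl ℓ] O.S) (p : M × (M × M)) :
    O.ev3 (a ⊗ₜ z) p = (a : M → QQb) p.1 * O.ev2 z p.2 := rfl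

theorem injective_of_basis {X : Type*} {V : Type*} [Semiring V] [Algebra (Rl ℓ) V] {ι : Type*}
    (b : Module.Basis ι (Rl ℓ) V) (φ : V →ₐ[Rl ℓ] (X → QQb))
    (h : LinearIndependent QQb fun i => φ (b i)) : Function.Injective φ := by
  have hR : LinearIndependent (Rl ℓ) fun i => φ (b i) :=
    ((LinearIndependent.iff_fractionRing (Rl ℓ) ℚ).2 (h.restrict_scalars (R := ℚ) (by
      intro a c hac
      simpa [Algebra.smul_def] using hac)))
  intro v w hvw
  apply b.repr.injective
  apply hR
  have e : ∀ v, Finsupp.linearCombination (Rl ℓ) (fun i => φ (b i)) (b.repr v) = φ v := fun v => by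
    conv_rhs => rw [← b.linearCombination_repr v]
    exact (Finsupp.apply_linearCombination (Rl ℓ) φ.toLinearMap b (b.repr v)).symm
  rw [e, e, hvw]

set_option maxHeartbeats 1000000 in
theorem linearIndependent_ev2 :
    LinearIndependent QQb fun p => O.ev2 ((O.basis.tensorProduct O.basis) p) := by
  convert linearIndependent_pair O.linearIndependent_basis O.linearIndependent_basis using 1
  funext p q
  rw [Module.Basis.tensorProduct_apply', ev2_tmul]

theorem ev2_injective : Function.Injective O.ev2 :=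
  injective_of_basis (O.basis.tensorProduct O.basis) O.ev2 O.linearIndependent_ev2

set_option maxHeartbeats 1000000 in
theorem ev3_injective : Function.Injective O.ev3 := by
  refine injective_of_basis (O.basis.tensorProduct (O.basis.tensorProduct O.basis)) O.ev3 ?_
  convert linearIndependent_pair O.linearIndependent_basis O.linearIndependent_ev2 using 1
  funext p q
  rw [Module.Basis.tensorProduct_apply']
  exact O.ev3_tmul _ _ _

/-- Pullback along addition. -/
def addPull : O.S →ₐ[Rl ℓ] (M × M → QQb) :=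
  (Pi.algHom _ _ fun p : M × M => Pi.evalAlgHom (Rl ℓ) _ (p.1 + p.2)).comp O.incl

theorem addPull_mem (f : O.S) : O.addPull f ∈ O.ev2.range := by
  have hle : Submodule.span (Rl ℓ)
      (Set.image2 (fun (a b : M → QQb) (p : M × M) => a p.1 * b p.2) O.S O.S) ≤
        O.ev2.range.toSubmodule := by
    rw [Submodule.span_le]
    rintro _ ⟨a, ha, b, hb, rfl⟩
    exact ⟨(⟨a, ha⟩ : O.S) ⊗ₜ ⟨b, hb⟩, rfl⟩
  exact hle (O.comul_mem f f.2)

/-- Comultiplication. -/
def comulHom : O.S →ₐ[Rl ℓ] O.S ⊗[Rl ℓ] O.S :=
  (AlgEquiv.ofInjective O.ev2 O.ev2_injective).symm.toAlgHom.comp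
    (O.addPull.codRestrict _ O.addPull_mem)

theorem ev2_comulHom (f : O.S) (p : M × M) :
    O.ev2 (O.comulHom f) p = (f : M → QQb) (p.1 + p.2) := by
  have h := congrArg Subtype.val ((AlgEquiv.ofInjective O.ev2 O.ev2_injective).apply_symm_apply
    ⟨O.addPull f, O.addPull_mem f⟩)
  exact congrFun h p

theorem ev2_comm (z : O.S ⊗[Rl ℓ] O.S) (p : M × M) :
    O.ev2 (TensorProduct.comm (Rl ℓ) O.S O.S z) p = O.ev2 z (p.2, p.1) := by
  induction z with
  | zero => simp
  | tmul a b => rw [TensorProduct.comm_tmul, ev2_tmul, ev2_tmul, mul_comm]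
  | add a b ha hb => simp only [map_add, Pi.add_apply, ha, hb]

theorem ev3_assoc (z : (O.S ⊗[Rl ℓ] O.S)) (c : O.S) (p : M × (M × M)) :
    O.ev3 (Algebra.TensorProduct.assoc (Rl ℓ) (Rl ℓ) (Rl ℓ) O.S O.S O.S (z ⊗ₜ c)) p =
      O.ev2 z (p.1, p.2.1) * (c : M → QQb) p.2.2 := by
  induction z with
  | zero => simp
  | tmul a b => rw [Algebra.TensorProduct.assoc_tmul, ev3_tmul, ev2_tmul, ev2_tmul, mul_assoc]
  | add a b ha hb => simp only [TensorProduct.add_tmul, map_add, Pi.add_apply, ha, hb, add_mul]

theorem pow_mul_mem (f : O.S) (m : ℕ) : (fun x => (f : M → QQb) ((m + 1) • x)) ∈ O.S := by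
  induction m generalizing f with
  | zero => simpa using f.2
  | succ m ih =>
    have key : ∀ z : O.S ⊗[Rl ℓ] O.S, (fun x => O.ev2 z ((m + 1) • x, x)) ∈ O.S := by
      intro z
      induction z with
      | zero =>
          rw [show (fun x : M => O.ev2 0 ((m + 1) • x, x)) = 0 from funext fun x => by simp]
          exact O.S.zero_mem
      | tmul a b => exact O.S.mul_mem (ih a) b.2
      | add a b ha hb => simpa [map_add, Pi.add_def] using O.S.add_mem ha hb
    convert key (O.comulHom f) using 2 with x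
    rw [ev2_comulHom, succ_nsmul x (m + 1)]

variable [Finite M]

theorem neg_mem (f : O.S) : (fun x => (f : M → QQb) (-x)) ∈ O.S := by
  have hpos : 0 < Nat.card M := Nat.card_pos
  have key := O.pow_mul_mem f (2 * Nat.card M - 2)
  convert key using 2 with x
  refine congrArg (f : M → QQb) ?_
  rw [show 2 * Nat.card M - 2 + 1 = 2 * Nat.card M - 1 by omega, neg_eq_iff_add_eq_zero]
  calc x + (2 * Nat.card M - 1) • x = (2 * Nat.card M - 1 + 1) • x := by rw [succ_nsmul']
    _ = 0 := by
      rw [show 2 * Nat.card M - 1 + 1 = 2 * Nat.card M by omega, mul_comm, mul_smul]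
      exact card_nsmul_eq_zero'

omit [Finite M] in
theorem isIntegral_apply (f : O.S) (x : M) : IsIntegral (Rl ℓ) ((f : M → QQb) x) :=
  (IsIntegral.of_mem_of_fg O.S O.fg _ f.2).map (Pi.evalAlgHom (Rl ℓ) (fun _ : M => QQb) x)

omit [Finite M] in
theorem eval_zero_mem (f : O.S) : ∃ r : Rl ℓ, algebraMap (Rl ℓ) QQb r = (f : M → QQb) 0 := by
  obtain ⟨q, hq⟩ := exists_rat_of_fixed (x := (f : M → QQb) 0) fun σ => by
    rw [← O.equivariant _ f.2, smul_zero]
  have hint : IsIntegral (Rl ℓ) q :=
    (isIntegral_algHom_iff (IsScalarTower.toAlgHom (Rl ℓ) ℚ QQb)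
      (algebraMap ℚ QQb).injective).1 (by
        rw [IsScalarTower.coe_toAlgHom', hq]; exact O.isIntegral_apply f 0)
  obtain ⟨r, hr⟩ := IsIntegrallyClosed.isIntegral_iff.1 hint
  exact ⟨r, by rw [IsScalarTower.algebraMap_apply (Rl ℓ) ℚ QQb, hr, hq]⟩

omit [Finite M] in
theorem algebraMap_Rl_injective : Function.Injective (algebraMap (Rl ℓ) QQb) := fun a b h =>
  Subtype.ext ((algebraMap ℚ QQb).injective h)

/-- Evaluation at the origin. -/
def counitHom : O.S →ₐ[Rl ℓ] Rl ℓ where
  toFun f := (O.eval_zero_mem f).choose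
  map_one' := algebraMap_Rl_injective (by rw [(O.eval_zero_mem 1).choose_spec, map_one]; rfl)
  map_zero' := algebraMap_Rl_injective (by rw [(O.eval_zero_mem 0).choose_spec, map_zero]; rfl)
  map_mul' a b := algebraMap_Rl_injective (by
    rw [(O.eval_zero_mem (a * b)).choose_spec, map_mul, (O.eval_zero_mem a).choose_spec,
      (O.eval_zero_mem b).choose_spec]; rfl)
  map_add' a b := algebraMap_Rl_injective (by
    rw [(O.eval_zero_mem (a + b)).choose_spec, map_add, (O.eval_zero_mem a).choose_spec,
      (O.eval_zero_mem b).choose_spec]; rfl)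
  commutes' r := algebraMap_Rl_injective (by
    rw [(O.eval_zero_mem (algebraMap _ _ r)).choose_spec]; rfl)

omit [Finite M] in
theorem counitHom_spec (f : O.S) :
    algebraMap (Rl ℓ) QQb (O.counitHom f) = (f : M → QQb) 0 := (O.eval_zero_mem f).choose_spec

/-- The antipode. -/
def antipodeHom : O.S →ₐ[Rl ℓ] O.S :=
  ((Pi.algHom _ _ fun x : M => Pi.evalAlgHom (Rl ℓ) _ (-x)).comp O.incl).codRestrict O.S O.neg_mem

theorem antipodeHom_apply (f : O.S) (x : M) :
    (O.antipodeHom f : M → QQb) x = (f : M → QQb) (-x) := rfl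

omit [Finite M] in
theorem lid_symm_map (f : O.S) :
    (Algebra.TensorProduct.map O.counitHom (AlgHom.id (Rl ℓ) O.S)) (O.comulHom f) =
      (Algebra.TensorProduct.lid (Rl ℓ) O.S).symm f := by
  apply (Algebra.TensorProduct.lid (Rl ℓ) O.S).injective
  rw [AlgEquiv.apply_symm_apply]
  apply Subtype.ext
  funext x
  have key : ∀ z : O.S ⊗[Rl ℓ] O.S, ((Algebra.TensorProduct.lid (Rl ℓ) O.S)
      ((Algebra.TensorProduct.map O.counitHom (AlgHom.id (Rl ℓ) O.S)) z) : M → QQb) x =
        O.ev2 z (0, x) := by
    intro z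
    induction z with
    | zero => simp
    | tmul a b =>
        rw [Algebra.TensorProduct.map_tmul, Algebra.TensorProduct.lid_tmul, ev2_tmul,
          ← counitHom_spec]
        show O.counitHom a • (b : M → QQb) x = algebraMap (Rl ℓ) QQb (O.counitHom a) * (b : M → QQb) x
        exact Algebra.smul_def (O.counitHom a) ((b : M → QQb) x)
    | add a b ha hb => simp only [map_add, AddMemClass.coe_add, Pi.add_apply, ha, hb]
  rw [key, ev2_comulHom, zero_add]

omit [Finite M] in
theorem rid_symm_map (f : O.S) :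
    (Algebra.TensorProduct.map (AlgHom.id (Rl ℓ) O.S) O.counitHom) (O.comulHom f) =
      (Algebra.TensorProduct.rid (Rl ℓ) (Rl ℓ) O.S).symm f := by
  apply (Algebra.TensorProduct.rid (Rl ℓ) (Rl ℓ) O.S).injective
  rw [AlgEquiv.apply_symm_apply]
  apply Subtype.ext
  funext x
  have key : ∀ z : O.S ⊗[Rl ℓ] O.S, ((Algebra.TensorProduct.rid (Rl ℓ) (Rl ℓ) O.S)
      ((Algebra.TensorProduct.map (AlgHom.id (Rl ℓ) O.S) O.counitHom) z) : M → QQb) x =
        O.ev2 z (x, 0) := by
    intro z
    induction z with
    | zero => simp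
    | tmul a b =>
        rw [Algebra.TensorProduct.map_tmul, Algebra.TensorProduct.rid_tmul, ev2_tmul,
          ← counitHom_spec, mul_comm]
        show O.counitHom b • (a : M → QQb) x = algebraMap (Rl ℓ) QQb (O.counitHom b) * (a : M → QQb) x
        exact Algebra.smul_def (O.counitHom b) ((a : M → QQb) x)
    | add a b ha hb => simp only [map_add, AddMemClass.coe_add, Pi.add_apply, ha, hb]
  rw [key, ev2_comulHom, add_zero]

omit [Finite M] in
theorem coassoc (f : O.S) :
    Algebra.TensorProduct.assoc (Rl ℓ) (Rl ℓ) (Rl ℓ) O.S O.S O.S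
        (Algebra.TensorProduct.map O.comulHom (AlgHom.id (Rl ℓ) O.S) (O.comulHom f)) =
      Algebra.TensorProduct.map (AlgHom.id (Rl ℓ) O.S) O.comulHom (O.comulHom f) := by
  apply O.ev3_injective
  funext p
  have key1 : ∀ z : O.S ⊗[Rl ℓ] O.S, O.ev3 (Algebra.TensorProduct.assoc (Rl ℓ) (Rl ℓ) (Rl ℓ)
      O.S O.S O.S (Algebra.TensorProduct.map O.comulHom (AlgHom.id (Rl ℓ) O.S) z)) p =
        O.ev2 z (p.1 + p.2.1, p.2.2) := by
    intro z
    induction z with
    | zero => simp
    | tmul a b => rw [Algebra.TensorProduct.map_tmul, ev3_assoc, ev2_comulHom, ev2_tmul]; rfl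
    | add a b ha hb => simp only [map_add, Pi.add_apply, ha, hb]
  have key2 : ∀ z : O.S ⊗[Rl ℓ] O.S, O.ev3
      (Algebra.TensorProduct.map (AlgHom.id (Rl ℓ) O.S) O.comulHom z) p =
        O.ev2 z (p.1, p.2.1 + p.2.2) := by
    intro z
    induction z with
    | zero => simp
    | tmul a b => rw [Algebra.TensorProduct.map_tmul, ev3_tmul, ev2_comulHom, ev2_tmul]; rfl
    | add a b ha hb => simp only [map_add, Pi.add_apply, ha, hb]
  rw [key1, key2, ev2_comulHom, ev2_comulHom, add_assoc]

theorem antipode_left (f : O.S) :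
    (Algebra.TensorProduct.lift O.antipodeHom (AlgHom.id (Rl ℓ) O.S) fun _ _ => Commute.all _ _)
      (O.comulHom f) = algebraMap (Rl ℓ) O.S (O.counitHom f) := by
  apply Subtype.ext
  funext x
  have key : ∀ z : O.S ⊗[Rl ℓ] O.S, (((Algebra.TensorProduct.lift O.antipodeHom
      (AlgHom.id (Rl ℓ) O.S) fun _ _ => Commute.all _ _) z : O.S) : M → QQb) x = O.ev2 z (-x, x) := by
    intro z
    induction z with
    | zero => simp
    | tmul a b =>
        rw [Algebra.TensorProduct.lift_tmul, MulMemClass.coe_mul, Pi.mul_apply, antipodeHom_apply,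
          ev2_tmul]
        rfl
    | add a b ha hb => simp only [map_add, AddMemClass.coe_add, Pi.add_apply, ha, hb]
  rw [key, ev2_comulHom, neg_add_cancel, ← counitHom_spec]
  rfl

theorem antipode_right (f : O.S) :
    (Algebra.TensorProduct.lift (AlgHom.id (Rl ℓ) O.S) O.antipodeHom fun _ _ => Commute.all _ _)
      (O.comulHom f) = algebraMap (Rl ℓ) O.S (O.counitHom f) := by
  apply Subtype.ext
  funext x
  have key : ∀ z : O.S ⊗[Rl ℓ] O.S, (((Algebra.TensorProduct.lift (AlgHom.id (Rl ℓ) O.S)
      O.antipodeHom fun _ _ => Commute.all _ _) z : O.S) : M → QQb) x = O.ev2 z (x, -x) := by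
    intro z
    induction z with
    | zero => simp
    | tmul a b =>
        rw [Algebra.TensorProduct.lift_tmul, MulMemClass.coe_mul, Pi.mul_apply, antipodeHom_apply,
          ev2_tmul]
        rfl
    | add a b ha hb => simp only [map_add, AddMemClass.coe_add, Pi.add_apply, ha, hb]
  rw [key, ev2_comulHom, add_neg_cancel, ← counitHom_spec]
  rfl

omit [Finite M] in
theorem comm_comulHom (f : O.S) :
    TensorProduct.comm (Rl ℓ) O.S O.S (O.comulHom f) = O.comulHom f := by
  apply O.ev2_injective
  funext p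
  rw [ev2_comm, ev2_comulHom, ev2_comulHom, add_comm]

/-- A function separated point gives a point. -/
theorem point_bijective :
    Function.Bijective fun x : M => ((Pi.evalAlgHom (Rl ℓ) (fun _ : M => QQb) x).comp O.incl) := by
  classical
  haveI : Fintype M := Fintype.ofFinite M
  refine ⟨fun x y hxy => ?_, fun φ => ?_⟩
  · by_contra hne
    have hle : Submodule.span QQb (O.S : Set (M → QQb)) ≤
        LinearMap.ker ((LinearMap.proj x : (M → QQb) →ₗ[QQb] QQb) - LinearMap.proj y) :=
      Submodule.span_le.2 fun f hf =>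
        sub_eq_zero.2 (DFunLike.congr_fun hxy (⟨f, hf⟩ : O.S))
    rw [O.span_top] at hle
    have h := hle (Submodule.mem_top (x := (Pi.single x 1 : M → QQb)))
    simp [LinearMap.mem_ker, Ne.symm hne] at h
  · -- extend to all functions
    have hspan : ⊤ ≤ Submodule.span QQb (Set.range fun i => (O.basis i : M → QQb)) := by
      rw [← O.span_top, Submodule.span_le]
      intro f hf
      have h1 : (⟨f, hf⟩ : O.S) ∈ Submodule.span (Rl ℓ) (Set.range O.basis) := by
        rw [O.basis.span_eq]; exact Submodule.mem_top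
      have h2 := Submodule.apply_mem_span_image_of_mem_span O.S.toSubmodule.subtype h1
      rw [← Set.range_comp] at h2
      exact Submodule.span_subset_span (Rl ℓ) QQb _ h2
    set B := Module.Basis.mk O.linearIndependent_basis hspan
    set Φ : (M → QQb) →ₗ[QQb] QQb := B.constr QQb fun i => φ (O.basis i) with hΦ
    have hΦS : ∀ f : O.S, Φ (f : M → QQb) = φ f := by
      have : (Φ.restrictScalars (Rl ℓ)).comp O.S.toSubmodule.subtype = φ.toLinearMap :=
        O.basis.ext fun i => by
          show Φ (O.basis i : M → QQb) = φ (O.basis i)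
          rw [hΦ, ← show B i = (O.basis i : M → QQb) from Module.Basis.mk_apply .., B.constr_basis]
      exact fun f => LinearMap.congr_fun this f
    have hmul : ∀ a b : M → QQb, Φ (a * b) = Φ a * Φ b := by
      have h : (LinearMap.mul QQb (M → QQb)).compr₂ Φ =
          (LinearMap.mul QQb QQb).compl₁₂ Φ Φ := by
        refine B.ext fun i => B.ext fun j => ?_
        simp only [LinearMap.compr₂_apply, LinearMap.mul_apply', LinearMap.compl₁₂_apply]
        rw [show B i = (O.basis i : M → QQb) from Module.Basis.mk_apply ..,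
          show B j = (O.basis j : M → QQb) from Module.Basis.mk_apply ..,
          ← MulMemClass.coe_mul, hΦS, hΦS, hΦS, map_mul]
      exact fun a b => LinearMap.congr_fun₂ h a b
    have hone : Φ 1 = 1 := by rw [← OneMemClass.coe_one O.S, hΦS, map_one]
    -- a point carries the map
    obtain ⟨x, hx⟩ : ∃ x, Φ (Pi.single x 1) ≠ 0 := by
      by_contra hall
      simp only [not_exists, not_not] at hall
      have h1 : (1 : M → QQb) = ∑ x, Pi.single x 1 := by
        funext y; simp [Finset.sum_apply, Pi.single_apply]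
      rw [h1, map_sum, Finset.sum_eq_zero fun x _ => hall x] at hone
      exact zero_ne_one hone
    refine ⟨x, AlgHom.ext fun f => ?_⟩
    show (f : M → QQb) x = φ f
    have h1 : (f : M → QQb) * Pi.single x 1 = (f : M → QQb) x • (Pi.single x 1 : M → QQb) := by
      funext y
      by_cases h : y = x
      · subst h; simp
      · simp [h]
    have h2 := hmul (f : M → QQb) (Pi.single x 1)
    rw [h1, map_smul, smul_eq_mul, hΦS] at h2
    exact mul_right_cancel₀ hx h2

/-- The Galois module of a Hopf order is a flat module. -/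
theorem isFlatModule {M : Type} [AddCommGroup M] [DistribMulAction GG M] [Finite M]
    (O : HopfOrder ℓ M) : IsFlatModule ℓ M := by
  letI bi : Bialgebra (Rl ℓ) O.S := Bialgebra.ofAlgHom O.comulHom O.counitHom
    (AlgHom.ext O.coassoc) (AlgHom.ext O.lid_symm_map) (AlgHom.ext O.rid_symm_map)
  letI hopf : HopfAlgebra (Rl ℓ) O.S := HopfAlgebra.ofAlgHom O.antipodeHom
    (AlgHom.ext O.antipode_left) (AlgHom.ext O.antipode_right)
  let P : M ≃ (O.S →ₐ[Rl ℓ] QQb) := Equiv.ofBijective _ O.point_bijective
  refine ⟨O.S, inferInstance, hopf, inferInstance, inferInstance,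
    ⟨LinearMap.ext O.comm_comulHom⟩, (WithConv.equiv _).trans P.symm, fun f g => ?_, fun σ f g h => ?_⟩
  · apply P.injective
    simp only [Equiv.trans_apply, Equiv.apply_symm_apply]
    refine AlgHom.ext fun a => ?_
    show (f * g) a = (a : M → QQb) (P.symm f.ofConv + P.symm g.ofConv)
    rw [AlgHom.convMul_apply, ← O.ev2_comulHom a (P.symm f.ofConv, P.symm g.ofConv)]
    show _ = O.ev2 (O.comulHom a) _
    have key : ∀ z : O.S ⊗[Rl ℓ] O.S,
        Algebra.TensorProduct.lift f.ofConv g.ofConv (fun _ _ => Commute.all _ _) z =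
          O.ev2 z (P.symm f.ofConv, P.symm g.ofConv) := by
      intro z
      induction z with
      | zero => simp
      | tmul a b =>
          rw [Algebra.TensorProduct.lift_tmul, ev2_tmul]
          conv_lhs => rw [← P.apply_symm_apply f.ofConv, ← P.apply_symm_apply g.ofConv]
          rfl
      | add a b ha hb => simp only [map_add, Pi.add_apply, ha, hb]
    exact key _
  · apply P.injective
    simp only [Equiv.trans_apply, Equiv.apply_symm_apply]
    refine AlgHom.ext fun a => ?_
    show g a = (a : M → QQb) (σ • P.symm f.ofConv)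
    rw [O.equivariant _ a.2, h a]
    congr 1
    conv_lhs => rw [show f.ofConv = P (P.symm f.ofConv) from (P.apply_symm_apply _).symm]
    rfl

end HopfOrder

end FLTAgent.FlatModel
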