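import Fermat.Agent.FlatModel.Family
import Fermat.Agent.Specialization.Descent

/-!
# Representing divisors of a sum of two classes, with coefficients of constant residue
-/

set_option autoImplicit false
set_option linter.style.haveILetI false
set_option linter.unusedSectionVars false

noncomputable section

namespace FLTAgent.FlatModel

open AlgebraicCurve FLTAgent.Curves FLTAgent.Specialization Polynomial IntermediateField

variable {L k : Type*} [Field L] [Field k] {A : ValuationSubring L} {π : A →+* k}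
variable {F Fb : Type*} [Field F] [Field Fb] [Algebra L F] [Algebra k Fb]
variable [IsAlgClosed L] [IsFunctionField L F] [IsAlgClosed k] [IsFunctionField k Fb]

theorem ell_eq_of_isPrincipal {K E : Type*} [Field K] [Field E] [Algebra K E] [IsAlgClosed K]
    [IsFunctionField K E] {D D' : Divisor K E} (h : Divisor.IsPrincipal (D - D')) :
    ell D = ell D' := by
  obtain ⟨f, hf, he⟩ := isPrincipal_iff.1 h
  rw [← ell_sub_divOf D hf, ← he, sub_sub_cancel]

variable {M : Model π F Fb} (hM : M.Smooth)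

include hM

theorem ell_le_divMap (G : Divisor L F) : ell G ≤ ell (Model.divMap hM G) := by
  have h1 := Submodule.finrank_mono (Reduction.image_le (R := M.toReduction)
    (U := riemannRochSpace G) fun _ _ hf h => Model.res_mem_rrSpace hM hf h)
  rw [M.finrank_image] at h1
  exact Nat.cast_le.2 h1

theorem isPrincipal_divMap {E : Divisor L F} (hE : Divisor.IsPrincipal E) :
    Divisor.IsPrincipal (Model.divMap hM E) := by
  obtain ⟨f, hf, rfl⟩ := isPrincipal_iff.1 hE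
  obtain ⟨c, g, hg, hcg⟩ := M.scaled f hf
  refine isPrincipal_iff.2 ⟨g, hg, ?_⟩
  have hc : c ≠ 0 := by rintro rfl; rw [zero_smul] at hcg; exact hg (hcg.unique M.res_zero)
  rw [← Model.divMap_divOf hM hcg hg, Algebra.smul_def,
    divOf_mul ((_root_.map_ne_zero _).2 hc) hf, divOf_algebraMap, zero_add]

variable {Ω : Type*} [Finite Ω] {H : Subalgebra A (Ω → A)} [IsLocalHom π]

theorem finrank_rrSpace_eq {G : Divisor L F} {Gb : Divisor k Fb} (h : Model.divMap hM G = Gb)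
    (hd : M.bound ≤ Divisor.degree G) :
    Module.finrank L (riemannRochSpace G) = Module.finrank k (riemannRochSpace Gb) := by
  rw [← h, ← Model.image_rrSpace hM hd, M.finrank_image]

/-- Products of two families. -/
theorem exists_hbasis_mul (hH : ConstRes π H) {m m' : ℕ} (C : Coords M (m + m'))
    {V₁ V₂ : Ω → Divisor L F} {Vb₁ Vb₂ : Divisor k Fb}
    (B₁ : HBasis M H m (fun ω => riemannRochSpace (V₁ ω)) (riemannRochSpace Vb₁))
    (B₂ : HBasis M H m' (fun ω => riemannRochSpace (V₂ ω)) (riemannRochSpace Vb₂))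
    (h₁ : ∀ ω, Model.divMap hM (V₁ ω) = Vb₁) (h₂ : ∀ ω, Model.divMap hM (V₂ ω) = Vb₂)
    (hd₁ : M.bound ≤ Divisor.degree Vb₁)
    (hd₂ : Divisor.degree Vb₁ + M.bound ≤ Divisor.degree Vb₂) :
    Nonempty (HBasis M H (m + m') (fun ω => riemannRochSpace (V₁ ω + V₂ ω))
      (riemannRochSpace (Vb₁ + Vb₂))) := by
  have hb : rBound k Fb + 1 ≤ M.bound := by rw [Model.bound]; omega
  have hb0 := rBound_nonneg (K := k) (F := Fb)
  refine exists_hbasis_of_span hH C (fun p : Fin B₁.r × Fin B₂.r => B₁.e p.1 * B₂.e p.2)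
    (fun p => B₁.g p.1 * B₂.g p.2) (fun p => mul_mem_hfSpan (B₁.hf _) (B₂.hf _))
    (fun p ω => (B₁.res _ ω).mul (B₂.res _ ω)) ?_
    (fun p ω => mem_rrSpace_mul (B₁.e_mem _ ω) (B₂.e_mem _ ω)) fun ω => ?_
  · refine le_antisymm (Submodule.span_le.2 ?_) ?_
    · rintro _ ⟨p, rfl⟩; exact mem_rrSpace_mul (B₁.g_mem _) (B₂.g_mem _)
    rw [← span_mul (by omega) (by omega), Submodule.span_le]
    rintro _ ⟨a, ha, b, hb', rfl⟩
    have h := Submodule.mul_mem_mul (B₁.span_res.ge ha) (B₂.span_res.ge hb')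
    rw [Submodule.span_mul_span] at h
    refine Submodule.span_mono ?_ h
    rintro _ ⟨_, ⟨i, rfl⟩, _, ⟨j, rfl⟩, rfl⟩
    exact ⟨(i, j), rfl⟩
  · refine (finrank_rrSpace_eq hM (by rw [map_add, h₁, h₂]) ?_).le
    rw [map_add, ← Model.degree_divMap hM, ← Model.degree_divMap hM (V₂ ω), h₁, h₂]
    have h3 : 0 ≤ M.bound := by omega
    omega

/-- Multiples of a family. -/
theorem exists_hbasis_mulLeft (hH : ConstRes π H) {m m' : ℕ} (C : Coords M (m + m'))
    {V : Ω → Submodule L F} {Vb : Submodule k Fb} (u : Ω → F) (ub : Fb)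
    (hu : u ∈ hfSpan M H m) (hur : ∀ ω, M.Res (u ω) ub) (hub : ub ≠ 0)
    (B : HBasis M H m' V Vb) :
    Nonempty (HBasis M H (m + m') (fun ω => (V ω).map (LinearMap.mulLeft L (u ω)))
      (Vb.map (LinearMap.mulLeft k ub))) := by
  refine ⟨⟨B.r, fun j => u * B.e j, fun j => ub * B.g j, fun j => mul_mem_hfSpan hu (B.hf j),
    fun j ω => (hur ω).mul (B.res j ω), ?_, ?_, fun ω => ?_⟩⟩
  · exact B.li.map' (LinearMap.mulLeft k ub) (LinearMap.ker_eq_bot.2 (mul_right_injective₀ hub))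
  · conv_rhs => rw [← B.span_res, Submodule.map_span, ← Set.range_comp]
    rfl
  · conv_rhs => rw [← B.span_eq ω, Submodule.map_span, ← Set.range_comp]
    rfl

theorem forall_mul_mem_iff {K E : Type*} [Field K] [Field E] [Algebra K E] {n : ℕ} {q : Fin n → E}
    {U T : Submodule K E} (hq : Submodule.span K (Set.range q) = U) {f : E} :
    (∀ j, f * q j ∈ T) ↔ ∀ v ∈ U, f * v ∈ T := by
  refine ⟨fun h v hv => ?_, fun h j => h _ (hq.le (Submodule.subset_span ⟨j, rfl⟩))⟩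
  rw [← hq] at hv
  have hle : Submodule.span K (Set.range q) ≤ T.comap (LinearMap.mulLeft K f) :=
    Submodule.span_le.2 (by rintro _ ⟨j, rfl⟩; exact h j)
  exact hle hv

set_option maxHeartbeats 1000000 in
/-- The divisor of a sum, as a family with coefficients of constant residue. -/
theorem exists_hbasis_add [Nonempty Ω] (hH : ConstRes π H) {m m₀ : ℕ} (C : Coords M (6 * m))
    {d : ℤ} (hd : (m₀ : ℤ) * M.deg = d) (hd0 : M.bound ≤ d)
    (hm : M.bound + 3 * d ≤ (m : ℤ) * M.deg) {D₁ D₂ D₃ : Ω → Divisor L F}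
    {Db₁ Db₂ Db₃ : Divisor k Fb} {P₃ : Divisor L F}
    (B₁ : HBasis M H m (fun ω => riemannRochSpace ((m : ℤ) • poleDiv L M.x - D₁ ω))
      (riemannRochSpace ((m : ℤ) • poleDiv k M.xb - Db₁)))
    (B₂ : HBasis M H m (fun ω => riemannRochSpace ((m : ℤ) • poleDiv L M.x - D₂ ω))
      (riemannRochSpace ((m : ℤ) • poleDiv k M.xb - Db₂)))
    (hdeg₁ : ∀ ω, Divisor.degree (D₁ ω) = d) (hdeg₂ : ∀ ω, Divisor.degree (D₂ ω) = d)
    (hdeg₃ : ∀ ω, Divisor.degree (D₃ ω) = d)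
    (h₁ : ∀ ω, Model.divMap hM (D₁ ω) = Db₁) (h₂ : ∀ ω, Model.divMap hM (D₂ ω) = Db₂)
    (h₃ : ∀ ω, Model.divMap hM (D₃ ω) = Db₃) (hP : 0 ≤ P₃) (hPD : ∀ ω, P₃ ≤ D₃ ω)
    (heq : ∀ ω, Divisor.IsPrincipal (D₁ ω + D₂ ω - (m₀ : ℤ) • poleDiv L M.x - D₃ ω))
    (hell : ell (Db₃ - Model.divMap hM P₃) = 1) (hellL : ∀ ω, 1 ≤ ell (D₃ ω - P₃)) :
    Nonempty (HBasis M H m (fun ω => riemannRochSpace ((m : ℤ) • poleDiv L M.x - D₃ ω))
      (riemannRochSpace ((m : ℤ) • poleDiv k M.xb - Db₃))) := by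
  classical
  set G := (m : ℤ) • poleDiv L M.x with hG
  set Gb := (m : ℤ) • poleDiv k M.xb with hGb
  set G₀ := (m₀ : ℤ) • poleDiv L M.x with hG₀
  set Gb₀ := (m₀ : ℤ) • poleDiv k M.xb with hGb₀
  have hGG : Model.divMap hM G = Gb := by rw [hG, map_zsmul, Model.divMap_poleDiv hM]
  have hGG₀ : Model.divMap hM G₀ = Gb₀ := by rw [hG₀, map_zsmul, Model.divMap_poleDiv hM]
  have hGdeg : Divisor.degree G = (m : ℤ) * M.deg := M.degree_poles m
  have hGbdeg : Divisor.degree Gb = (m : ℤ) * M.deg := M.degree_poles_red m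
  have hG₀deg : Divisor.degree G₀ = d := (M.degree_poles m₀).trans hd
  have hGb₀deg : Divisor.degree Gb₀ = d := (M.degree_poles_red m₀).trans hd
  have hb : rBound k Fb + 1 ≤ M.bound := by rw [Model.bound]; omega
  have hbL : rBound L F + 1 ≤ M.bound := by rw [Model.bound]; omega
  have hrk := rBound_nonneg (K := k) (F := Fb)
  obtain ⟨ω₀⟩ := ‹Nonempty Ω›
  have hDb₁ : Divisor.degree Db₁ = d := by rw [← h₁ ω₀, Model.degree_divMap, hdeg₁]
  have hDb₂ : Divisor.degree Db₂ = d := by rw [← h₂ ω₀, Model.degree_divMap, hdeg₂]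
  have hDb₃ : Divisor.degree Db₃ = d := by rw [← h₃ ω₀, Model.degree_divMap, hdeg₃]
  have hG₀nn : 0 ≤ G₀ := by rw [hG₀]; exact smul_nonneg (Int.natCast_nonneg _) (poleDiv_nonneg _)
  have hPdeg : Divisor.degree P₃ ≤ d := hdeg₃ ω₀ ▸ degree_mono (hPD ω₀)
  have hP0 := degree_nonneg hP
  -- the spaces of sections
  obtain ⟨BG⟩ := exists_hbasis_const (H := H) hH (C.mono' (show m ≤ 6 * m by omega))
    (U := riemannRochSpace G) le_rfl (by rw [Model.image_rrSpace hM (by omega), hGG])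
  obtain ⟨X₁⟩ := exists_hbasis_mul hM hH (C.mono' (show m + m ≤ 6 * m by omega)) B₂ BG
    (fun ω => by rw [map_sub, hGG, h₂]) (fun _ => hGG) (by rw [map_sub, hGbdeg, hDb₂]; omega)
    (by rw [map_sub, hGbdeg, hDb₂]; omega)
  obtain ⟨Z⟩ := exists_hbasis_mul hM hH (C.mono' (show m + (m + m) ≤ 6 * m by omega)) B₁ X₁
    (fun ω => by rw [map_sub, hGG, h₁]) (fun ω => by rw [map_add, map_sub, hGG, h₂])
    (by rw [map_sub, hGbdeg, hDb₁]; omega)
    (by rw [map_add, map_sub, map_sub, hGbdeg, hDb₁, hDb₂]; omega)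
  set Zd : Ω → Divisor L F := fun ω => G - D₁ ω + (G - D₂ ω + G)
  set Zb : Divisor k Fb := Gb - Db₁ + (Gb - Db₂ + Gb)
  have hZbdeg : Divisor.degree Zb = 3 * ((m : ℤ) * M.deg) - 2 * d := by
    simp only [Zb, map_add, map_sub, hGbdeg, hDb₁, hDb₂]; ring
  have hZdeg : ∀ ω, Divisor.degree (Zd ω) = 3 * ((m : ℤ) * M.deg) - 2 * d := fun ω => by
    simp only [Zd, map_add, map_sub, hGdeg, hdeg₁, hdeg₂]; ring
  have hZmap : ∀ ω, Model.divMap hM (Zd ω) = Zb := fun ω => by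
    simp only [Zd, Zb, map_add, map_sub, hGG, h₁, h₂]
  have hZpos : 0 < Z.r := by
    by_contra h0
    have h1 := (Z.finrank_eq hH (C.mono' (show m + (m + m) ≤ 6 * m by omega)) ω₀).2
    obtain ⟨f, hf, hex⟩ := exists_exact (G := Zb) (by rw [hZbdeg]; omega)
      (exists_place_notMem k Fb ∅).choose
    haveI := finiteDimensional_rrSpace (K := k) Zb
    have h2 : 0 < Module.finrank k (riemannRochSpace Zb) := Module.finrank_pos_iff.2
      ⟨⟨⟨f, hf⟩, 0, fun h => hex.ne_zero (congrArg Subtype.val h)⟩⟩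
    omega
  set kk := Z.e ⟨0, hZpos⟩
  set kb := Z.g ⟨0, hZpos⟩
  have hkb : kb ≠ 0 := Z.li.ne_zero _
  have hkk : ∀ ω, kk ω ≠ 0 := fun ω => (Z.res _ ω).ne_zero hkb
  -- the auxiliary section
  set Ud := G + G + G - G₀ - P₃
  set Ub := Gb + Gb + Gb - Gb₀ - Model.divMap hM P₃
  have hUU : Model.divMap hM Ud = Ub := by simp only [Ud, Ub, map_sub, map_add, hGG, hGG₀]
  have hUdeg : Divisor.degree Ud = 3 * ((m : ℤ) * M.deg) - d - Divisor.degree P₃ := by
    simp only [Ud, map_sub, map_add, hGdeg, hG₀deg]; ring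
  have hUle : riemannRochSpace Ud ≤ polesSpace M (3 * m) := by
    refine rrSpace_le fun v => ?_
    have h1 := hG₀nn v
    have h2 := hP v
    simp only [Ud, hG, Finsupp.sub_apply, Finsupp.add_apply, Finsupp.smul_apply, smul_eq_mul,
      Nat.cast_mul, Nat.cast_ofNat, Finsupp.coe_zero, Pi.zero_apply] at h1 h2 ⊢
    linarith
  obtain ⟨BU⟩ := exists_hbasis_const (H := H) hH (C.mono' (show 3 * m ≤ 6 * m by omega)) hUle
    (by rw [Model.image_rrSpace hM (by omega), hUU])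
  obtain ⟨T⟩ := exists_hbasis_mulLeft hM hH
    (C.mono' (show m + (m + m) + 3 * m ≤ 6 * m by omega)) kk kb (Z.hf _) (Z.res _) hkb BU
  set Wd : Ω → Divisor L F := fun ω => Ud - divOf L (kk ω) - Zd ω
  set Wb : Divisor k Fb := Ub - divOf k kb - Zb
  have hWmap : ∀ ω, Model.divMap hM (Wd ω) = Wb := fun ω => by
    simp only [Wd, Wb, map_sub, hUU, hZmap]
    rw [Model.divMap_divOf hM (Z.res _ ω) hkb]
  have hrel : ∀ ω, D₁ ω + D₂ ω - G₀ - divOf L (kk ω) - P₃ = Wd ω := fun ω => by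
    simp only [Wd, Ud, Zd]; abel
  have hWellL : ∀ ω, ell (Wd ω) = ell (D₃ ω - P₃) := fun ω => by
    rw [← hrel, show D₁ ω + D₂ ω - G₀ - divOf L (kk ω) - P₃ =
      (D₁ ω + D₂ ω - G₀ - P₃) - divOf L (kk ω) by abel, ell_sub_divOf _ (hkk ω)]
    refine ell_eq_of_isPrincipal ?_
    rw [show D₁ ω + D₂ ω - G₀ - P₃ - (D₃ ω - P₃) = D₁ ω + D₂ ω - G₀ - D₃ ω by abel]
    exact heq ω
  have heqb : Divisor.IsPrincipal (Db₁ + Db₂ - Gb₀ - Db₃) := by
    have := isPrincipal_divMap hM (heq ω₀)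
    rwa [map_sub, map_sub, map_add, h₁, h₂, h₃, hGG₀] at this
  have hWellb : ell Wb = 1 := by
    rw [← hell, show Wb = (Db₁ + Db₂ - Gb₀ - Model.divMap hM P₃) - divOf k kb by
      simp only [Wb, Ub, Zb]; abel, ell_sub_divOf _ hkb]
    refine ell_eq_of_isPrincipal ?_
    rw [show Db₁ + Db₂ - Gb₀ - Model.divMap hM P₃ - (Db₃ - Model.divMap hM P₃) =
      Db₁ + Db₂ - Gb₀ - Db₃ by abel]
    exact heqb
  have hWone : ∀ ω, ell (Wd ω) = 1 := fun ω => by
    refine le_antisymm ?_ (hWellL ω ▸ hellL ω)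
    have := ell_le_divMap hM (Wd ω)
    rwa [hWmap, hWellb] at this
  have hmemZ : ∀ ω, rBound L F + 1 ≤ Divisor.degree (Zd ω) := fun ω => by rw [hZdeg]; omega
  obtain ⟨Bu⟩ := exists_hbasis_colon hH (m := 3 * m) (mq := m + (m + m))
    (mB := m + (m + m) + 3 * m) (by omega)
    (C.mono' (show m + (m + m) + 3 * m ≤ 6 * m by omega)) BU T Z.e Z.g Z.hf Z.res
    (W := fun ω => riemannRochSpace (Wd ω)) (Wb := riemannRochSpace Wb)
    (fun ω f => by
      rw [forall_mul_mem_iff hM (Z.span_eq ω), rrSpace_map_mul _ (hkk ω), colon_iff (hmemZ ω)]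
      refine ⟨fun h => ⟨?_, h⟩, fun h => h.2⟩
      refine rrSpace_le (fun v => ?_) h
      have h1 := (mem_rrSpace.1 (Z.e_mem ⟨0, hZpos⟩ ω) v).le_ord (hkk ω)
      simp only [Wd, Finsupp.sub_apply, divOf_apply]
      change -(Zd ω v) ≤ v.ord (kk ω) at h1
      omega)
    (fun f => by
      rw [forall_mul_mem_iff hM Z.span_res, rrSpace_map_mul _ hkb,
        colon_iff (show rBound k Fb + 1 ≤ Divisor.degree Zb by rw [hZbdeg]; omega)]
      refine ⟨fun h => ⟨?_, h⟩, fun h => h.2⟩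
      refine rrSpace_le (fun v => ?_) h
      have h1 := (mem_rrSpace.1 (Z.g_mem ⟨0, hZpos⟩) v).le_ord hkb
      simp only [Wb, Finsupp.sub_apply, divOf_apply]
      change -(Zb v) ≤ v.ord kb at h1
      omega)
    (fun ω => Int.ofNat_inj.1 ((hWone ω).trans hWellb.symm))
  have hBu : Bu.r = 1 := by
    have h1 := (Bu.finrank_eq hH (C.mono' (show 3 * m ≤ 6 * m by omega)) ω₀).2
    rw [ell] at hWellb
    omega
  set u := Bu.e ⟨0, by omega⟩
  set ub := Bu.g ⟨0, by omega⟩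
  have hub : ub ≠ 0 := Bu.li.ne_zero _
  have hu0 : ∀ ω, u ω ≠ 0 := fun ω => (Bu.res _ ω).ne_zero hub
  have hD₃ : ∀ ω, D₃ ω = D₁ ω + D₂ ω - G₀ + divOf L (u ω) - divOf L (kk ω) := fun ω => by
    refine (eq_of_linearEquiv (P := P₃) (hPD ω) ?_ ?_ (hWellL ω ▸ (hWone ω).le)).symm
    · have h := (mem_rrSpace_iff_divOf (hu0 ω)).1 (Bu.e_mem _ ω)
      rw [← hrel, show divOf L (u ω) + (D₁ ω + D₂ ω - G₀ - divOf L (kk ω) - P₃) =
        D₁ ω + D₂ ω - G₀ + divOf L (u ω) - divOf L (kk ω) - P₃ by abel, sub_nonneg] at h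
      exact h
    · rw [show D₁ ω + D₂ ω - G₀ + divOf L (u ω) - divOf L (kk ω) - D₃ ω =
        (D₁ ω + D₂ ω - G₀ - D₃ ω) + (divOf L (u ω) - divOf L (kk ω)) by abel]
      exact Divisor.principal.add_mem (heq ω)
        (isPrincipal_iff.2 ⟨u ω / kk ω, div_ne_zero (hu0 ω) (hkk ω), (divOf_div (hu0 ω) (hkk ω)).symm⟩)
  have hD₃b : Db₃ = Db₁ + Db₂ - Gb₀ + divOf k ub - divOf k kb := by
    rw [← h₃ ω₀, hD₃ ω₀, map_sub, map_add, map_sub, map_add, h₁, h₂, hGG₀,
      Model.divMap_divOf hM (Bu.res _ ω₀) hub, Model.divMap_divOf hM (Z.res _ ω₀) hkb]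
  -- the divisor of the sum
  set Sd := G + G - G₀
  set Sb := Gb + Gb - Gb₀
  have hSS : Model.divMap hM Sd = Sb := by simp only [Sd, Sb, map_sub, map_add, hGG, hGG₀]
  have hSdeg : Divisor.degree Sd = 2 * ((m : ℤ) * M.deg) - d := by
    simp only [Sd, map_sub, map_add, hGdeg, hG₀deg]; ring
  have hSle : riemannRochSpace Sd ≤ polesSpace M (2 * m) := by
    refine rrSpace_le fun v => ?_
    have h1 := hG₀nn v
    simp only [Sd, hG, Finsupp.sub_apply, Finsupp.add_apply, Finsupp.smul_apply, smul_eq_mul,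
      Nat.cast_mul, Nat.cast_ofNat, Finsupp.coe_zero, Pi.zero_apply] at h1 ⊢
    linarith
  obtain ⟨BS⟩ := exists_hbasis_const (H := H) hH (C.mono' (show 2 * m ≤ 6 * m by omega)) hSle
    (by rw [Model.image_rrSpace hM (by omega), hSS])
  obtain ⟨Y⟩ := exists_hbasis_mulLeft hM hH (C.mono' (show 3 * m + (m + (m + m)) ≤ 6 * m by omega))
    u ub (Bu.hf _) (Bu.res _) hub Z
  obtain ⟨KS⟩ := exists_hbasis_mulLeft hM hH (C.mono' (show m + (m + m) + 2 * m ≤ 6 * m by omega))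
    kk kb (Z.hf _) (Z.res _) hkb BS
  refine exists_hbasis_colon hH (m := m) (mq := m + (m + m) + 2 * m) (mB := 3 * m + (m + (m + m)))
    (by omega) (C.mono' (show 3 * m + (m + (m + m)) ≤ 6 * m by omega)) BG Y KS.e KS.g KS.hf KS.res
    (fun ω f => ?_) (fun f => ?_) fun ω => ?_
  · rw [forall_mul_mem_iff hM (KS.span_eq ω), rrSpace_map_mul _ (hu0 ω), rrSpace_map_mul _ (hkk ω),
      colon_iff (by rw [map_sub, hSdeg, degree_divOf]; omega)]
    have he : G - D₁ ω + (G - D₂ ω + G) - divOf L (u ω) - (Sd - divOf L (kk ω)) = G - D₃ ω := by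
      simp only [hD₃ ω, Sd]; abel
    rw [he]
    exact ⟨fun h => ⟨rrSpace_le (sub_le_self _ (hP.trans (hPD ω))) h, h⟩, fun h => h.2⟩
  · rw [forall_mul_mem_iff hM KS.span_res, rrSpace_map_mul _ hub, rrSpace_map_mul _ hkb,
      colon_iff (by rw [map_sub, ← hSS, Model.degree_divMap, hSdeg, degree_divOf]; omega)]
    have he : Gb - Db₁ + (Gb - Db₂ + Gb) - divOf k ub - (Sb - divOf k kb) = Gb - Db₃ := by
      simp only [hD₃b, Sb]; abel
    rw [he]
    refine ⟨fun h => ⟨rrSpace_le (sub_le_self _ ?_) h, h⟩, fun h => h.2⟩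
    rw [← h₃ ω₀]
    exact Model.divMap_nonneg hM (hP.trans (hPD ω₀))
  · exact finrank_rrSpace_eq hM (by rw [map_sub, hGG, h₃]) (by rw [map_sub, hGdeg, hdeg₃]; omega)

end FLTAgent.FlatModel
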