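import Fermat.Agent.FlatModel.Galois
import Fermat.Agent.FlatModel.Addition

/-!
# Finite Galois submodules of the class group of a curve with good reduction are finite flat

For a smooth model over the valuation ring of a place over `ℓ`, the coordinates of the echelon
bases of `L(G - D_x)`, for the divisors `D_x` representing the classes `x` of a finite Galois
stable group, generate an order which descends to `ℤ_(ℓ)`.
-/

set_option autoImplicit false
set_option linter.style.haveILetI false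
set_option linter.unusedSectionVars false

noncomputable section

open scoped Pointwise
open IsLocalRing

namespace FLTAgent.FlatModel

open AlgebraicCurve FLTAgent.Curves FLTAgent.Specialization
open FLTAgent.Frobenius (centre)

local notation "QQb" => AlgebraicClosure ℚ
local notation "GG" => (AlgebraicClosure ℚ ≃ₐ[ℚ] AlgebraicClosure ℚ)
local notation "ZB" => integralClosure ℤ (AlgebraicClosure ℚ)

/-! ### Divisors representing classes -/

section Rep

variable {K E : Type*} [Field K] [Field E] [Algebra K E] [IsAlgClosed K] [IsFunctionField K E]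

theorem pic0_mk_eq_iff {a b : Divisor.degZero (K := K) (F := E)} :
    Pic0.mk a = Pic0.mk b ↔ Divisor.IsPrincipal ((a : Divisor K E) - (b : Divisor K E)) := by
  rw [Pic0.mk, Pic0.mk, QuotientAddGroup.eq, AddSubgroup.mem_addSubgroupOf, AddSubgroup.coe_add,
    AddSubgroup.coe_neg, ← Divisor.mem_principal, ← neg_mem_iff, neg_add, neg_neg, ← sub_eq_add_neg]

/-- `D` is a divisor above `P` representing the class `y` after translation by `G₀`. -/
def IsRep (G₀ P : Divisor K E) (y : Pic0 K E) (D : Divisor K E) : Prop :=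
  P ≤ D ∧ ∃ h : D - G₀ ∈ Divisor.degZero (K := K) (F := E), Pic0.mk ⟨D - G₀, h⟩ = y

variable {G₀ P : Divisor K E} {y : Pic0 K E} {D : Divisor K E}

theorem IsRep.degree (h : IsRep G₀ P y D) : Divisor.degree D = Divisor.degree G₀ := by
  obtain ⟨-, h, -⟩ := h
  rw [Divisor.mem_degZero, map_sub] at h
  omega

theorem exists_rep (h : ∀ D : Divisor.degZero (K := K) (F := E), Pic0.mk D = y →
    1 ≤ ell ((D : Divisor K E) + G₀ - P)) : ∃ D, IsRep G₀ P y D := by
  obtain ⟨⟨D, hD⟩, rfl⟩ := Pic0.mk_surjective y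
  have h1 : 1 ≤ ell (D + G₀ - P) := h ⟨D, hD⟩ rfl
  obtain ⟨f, hf, hf0⟩ := (Submodule.ne_bot_iff (riemannRochSpace (D + G₀ - P))).1 fun hb => by
    rw [ell, hb, finrank_bot] at h1; omega
  refine ⟨divOf K f + D + G₀, ?_, ?_, ?_⟩
  · have := (mem_rrSpace_iff_divOf hf0).1 hf
    rw [show divOf K f + (D + G₀ - P) = divOf K f + D + G₀ - P by abel, sub_nonneg] at this
    exact this
  · rw [add_sub_cancel_right, Divisor.mem_degZero, map_add, degree_divOf, Divisor.mem_degZero.1 hD]
    rfl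
  · rw [pic0_mk_eq_iff]
    show Divisor.IsPrincipal (divOf K f + D + G₀ - G₀ - D)
    rw [show divOf K f + D + G₀ - G₀ - D = divOf K f by abel]
    exact isPrincipal_iff.2 ⟨f, hf0, rfl⟩

theorem IsRep.principal {P' D' : Divisor K E} (h : IsRep G₀ P y D) (h' : IsRep G₀ P' y D') :
    Divisor.IsPrincipal (D - D') := by
  obtain ⟨-, hd, rfl⟩ := h
  obtain ⟨-, hd', h'⟩ := h'
  have := pic0_mk_eq_iff.1 h'.symm
  rwa [show ((⟨D - G₀, hd⟩ : Divisor.degZero (K := K) (F := E)) : Divisor K E) -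
    ((⟨D' - G₀, hd'⟩ : Divisor.degZero (K := K) (F := E)) : Divisor K E) = D - D' from
    sub_sub_sub_cancel_right D D' G₀] at this

theorem IsRep.unique {D' : Divisor K E} (h : IsRep G₀ P y D) (h' : IsRep G₀ P y D')
    (hl : ell (D - P) ≤ 1) : D' = D :=
  eq_of_linearEquiv h.1 h'.1 (h'.principal h) hl

theorem IsRep.add {P₁ P₂ D₁ D₂ : Divisor K E} {y₁ y₂ : Pic0 K E} (h₁ : IsRep G₀ P₁ y₁ D₁)
    (h₂ : IsRep G₀ P₂ y₂ D₂) (h : IsRep G₀ P (y₁ + y₂) D) :
    Divisor.IsPrincipal (D₁ + D₂ - G₀ - D) := by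
  obtain ⟨-, hd₁, rfl⟩ := h₁
  obtain ⟨-, hd₂, rfl⟩ := h₂
  obtain ⟨-, hd, h⟩ := h
  rw [← Pic0.mk_add] at h
  have := pic0_mk_eq_iff.1 h.symm
  rw [AddSubgroup.coe_add] at this
  rwa [show D₁ - G₀ + (D₂ - G₀) - (D - G₀) = D₁ + D₂ - G₀ - D by abel] at this

theorem IsRep.smul (h : IsRep G₀ P y D) (g : SemilinearAut K E) :
    IsRep (g • G₀) (g • P) (g • y) (g • D) := by
  obtain ⟨hle, hd, rfl⟩ := h
  refine ⟨fun v => ?_, ?_, ?_⟩
  · rw [SemilinearAut.divisor_smul_apply, SemilinearAut.divisor_smul_apply]; exact hle _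
  · rw [← smul_sub]; exact SemilinearAut.smul_mem_degZero g hd
  · rw [SemilinearAut.pic0_smul_mk]
    refine congrArg Pic0.mk (Subtype.ext ?_)
    rw [SemilinearAut.coe_degZeroSMulHom]
    exact (smul_sub g D G₀).symm

end Rep

/-! ### Reduction of classes -/

section Red

variable {L k : Type*} [Field L] [Field k] {A : ValuationSubring L} {π : A →+* k}
variable {F Fb : Type*} [Field F] [Field Fb] [Algebra L F] [Algebra k Fb]
variable [IsAlgClosed L] [IsFunctionField L F] [IsAlgClosed k] [IsFunctionField k Fb]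
variable {M : Model π F Fb} (hM : M.Smooth)

/-- Specialisation on divisors of degree zero. -/
def degZeroDivMap : Divisor.degZero (K := L) (F := F) →+ Divisor.degZero (K := k) (F := Fb) :=
  ((Model.divMap hM).domRestrict (Divisor.degZero (K := L) (F := F))).codRestrict _ fun D => by
    show Divisor.degree (Model.divMap hM (D : Divisor L F)) = 0
    rw [Model.degree_divMap]
    exact D.2

/-- Specialisation on classes. -/
def redHom : Pic0 L F →+ Pic0 k Fb :=
  QuotientAddGroup.map _ _ (degZeroDivMap hM) fun D hD => by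
    rw [AddSubgroup.mem_comap, AddSubgroup.mem_addSubgroupOf] at *
    exact isPrincipal_divMap hM hD

theorem IsRep.map {G₀ P D : Divisor L F} {y : Pic0 L F} (h : IsRep G₀ P y D) :
    IsRep (Model.divMap hM G₀) (Model.divMap hM P) (redHom hM y) (Model.divMap hM D) := by
  obtain ⟨hle, hd, rfl⟩ := h
  refine ⟨Model.divMap_mono hM hle, ?_, ?_⟩
  · rw [← map_sub, Divisor.mem_degZero, Model.degree_divMap]; exact hd
  · exact congrArg Pic0.mk (Subtype.ext (map_sub (Model.divMap hM) D G₀).symm)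

end Red

/-! ### The order -/

section Setting

variable {A : ValuationSubring QQb} [IsAlgClosed (ResidueField A)] [IsAlgClosed QQb]
variable {F Fb : Type*} [Field F] [Field Fb] [Algebra QQb F] [Algebra (ResidueField A) Fb]
  [IsFunctionField QQb F] [IsFunctionField (ResidueField A) Fb]
variable {M : Model (residue A) F Fb} {ρ : GG →* SemilinearAut QQb F}

theorem pivots_span {m : ℕ} (C : Coords M m) {Vb : Submodule (ResidueField A) Fb} {r : ℕ}
    {s : Fin r → ℤ} {gE : Fin r → Fb} (hgm : ∀ j, gE j ∈ Vb)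
    (hg : ∀ i j, C.coordb (gE j) (s i) = if i = j then 1 else 0)
    (hg0 : ∀ g ∈ Vb, (∀ i, C.coordb g (s i) = 0) → g = 0) :
    LinearIndependent (ResidueField A) gE ∧
      Submodule.span (ResidueField A) (Set.range gE) = Vb := by
  refine ⟨Fintype.linearIndependent_iff.2 fun c hc i => ?_,
    le_antisymm (Submodule.span_le.2 (by rintro _ ⟨j, rfl⟩; exact hgm j)) fun g hg' => ?_⟩
  · have h := congrFun (congrArg C.coordb hc) (s i)
    simpa [map_sum, map_smul, hg] using h
  · rw [show g = ∑ j, C.coordb g (s j) • gE j from sub_eq_zero.1 (hg0 _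
      (sub_mem hg' (sum_mem fun j _ => Submodule.smul_mem _ _ (hgm j))) fun i => by
        simp [map_sub, map_sum, map_smul, hg])]
    exact sum_mem fun j _ => Submodule.smul_mem _ _ (Submodule.subset_span ⟨j, rfl⟩)

/-- A class represented by a divisor of sections with algebraic coordinates has an open
stabiliser. -/
theorem isOpen_stabilizer_rep (hρ : IsArith ρ) (hx : ∀ σ, ρ σ • M.x = M.x) {m : ℕ}
    {C : EqCoords M ρ m} (BG : FixedBasis M ρ C) {m₀ : ℕ} {P : Divisor QQb F} {y : Pic0 QQb F}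
    {D : Divisor QQb F} (hD : IsRep ((m₀ : ℤ) • poleDiv QQb M.x) P y D) (hD0 : 0 ≤ D)
    (hdeg : M.bound + Divisor.degree D ≤ (m : ℤ) * M.deg) :
    ∃ U : Subgroup GG, IsOpen (U : Set GG) ∧ ∀ σ ∈ U, ρ σ • y = y := by
  classical
  set W := riemannRochSpace ((m : ℤ) • poleDiv QQb M.x - D)
  set b := Module.finBasis QQb W
  set s : Finset QQb := Finset.univ.image fun p : Fin (Module.finrank QQb W) × Fin BG.r =>
    C.coord (b p.1 : F) (BG.piv p.2)
  set U := (IntermediateField.adjoin ℚ (s : Set QQb)).fixingSubgroup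
  haveI : FiniteDimensional ℚ (IntermediateField.adjoin ℚ (s : Set QQb)) :=
    IntermediateField.finiteDimensional_adjoin fun a _ =>
      ((AlgebraicClosure.isAlgebraic ℚ).isAlgebraic a).isIntegral
  refine ⟨U, IntermediateField.fixingSubgroup_isOpen _, fun σ hσ => ?_⟩
  have hb : ∀ j, ρ σ • (b j : F) = b j := fun j => by
    have hG : (b j : F) ∈ polesSpace M m := rrSpace_le (sub_le_self _ hD0) (b j).2
    conv_lhs => rw [BG.expand _ hG, Finset.smul_sum]
    conv_rhs => rw [BG.expand _ hG]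
    refine Finset.sum_congr rfl fun i _ => ?_
    rw [hρ.smul_smul, BG.fixed]
    congr 1
    exact (IntermediateField.mem_fixingSubgroup_iff _ _).1 hσ _
      (IntermediateField.subset_adjoin ℚ _ (Finset.mem_coe.2
        (Finset.mem_image.2 ⟨(j, i), Finset.mem_univ _, rfl⟩)))
  have hle : W ≤ riemannRochSpace ((m : ℤ) • poleDiv QQb M.x - ρ σ • D) := by
    rw [← Submodule.map_subtype_top W, ← b.span_eq, Submodule.map_span, Submodule.span_le]
    rintro _ ⟨_, ⟨j, rfl⟩, rfl⟩
    have := smul_mem_rrSpace (b j).2 (ρ σ)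
    rw [smul_sub, smul_poles hx, hb] at this
    exact this
  have hbig : rBound QQb F + 1 ≤ Divisor.degree ((m : ℤ) • poleDiv QQb M.x - D) := by
    rw [map_sub, M.degree_poles]
    have : rBound QQb F + 1 ≤ M.bound := by rw [Model.bound]; omega
    omega
  have heq := eq_of_le_of_degree_le (le_of_rrSpace_le hle hbig) (by
    rw [map_sub, map_sub, SemilinearAut.degree_smul])
  have hσD : ρ σ • D = D := (sub_right_injective heq).symm
  obtain ⟨-, hd, rfl⟩ := hD
  rw [SemilinearAut.pic0_smul_mk]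
  refine congrArg Pic0.mk (Subtype.ext ?_)
  rw [SemilinearAut.coe_degZeroSMulHom]
  show ρ σ • (D - (m₀ : ℤ) • poleDiv QQb M.x) = _
  rw [smul_sub, hσD, smul_poles hx]

set_option maxHeartbeats 2000000 in
/-- **Finite Galois stable subgroups of the class group are finite flat** at a place of good
reduction. -/
theorem exists_hopfOrder_pic0 {ℓ : ℕ} [Fact ℓ.Prime] (hA : A.LiesOverPrime ℓ) (hM : M.Smooth)
    (hρ : IsArith ρ) (hx : ∀ σ, ρ σ • M.x = M.x) (hcoords : ∀ m, Nonempty (EqCoords M ρ m))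
    {N : Type*} [AddCommGroup N] [DistribMulAction GG N] [Finite N] (i : N →+ Pic0 QQb F)
    (hi : Function.Injective i) (heq : ∀ (σ : GG) x, i (σ • x) = ρ σ • i x) :
    Nonempty (HopfOrder ℓ N) := by
  classical
  -- sizes
  obtain ⟨m₀, hm₀⟩ := M.exists_le_mul (M.bound + 1 + max (rGenus QQb F) 0)
  set d : ℤ := (m₀ : ℤ) * M.deg
  have hd : M.bound + 1 + max (rGenus QQb F) 0 ≤ d := hm₀ m₀ le_rfl
  obtain ⟨m, hm'⟩ := M.exists_le_mul (M.bound + 3 * d + 1)
  have hm : M.bound + 3 * d + 1 ≤ (m : ℤ) * M.deg := hm' m le_rfl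
  have hb : rBound (ResidueField A) Fb + 1 ≤ M.bound := by rw [Model.bound]; omega
  have hb0 := rBound_nonneg (K := ResidueField A) (F := Fb)
  have hgen := hM.rGenus_eq
  obtain ⟨C₆⟩ := hcoords (6 * m)
  let C : EqCoords M ρ m := ⟨C₆.toCoords.mono' (by omega), C₆.equiv⟩
  obtain ⟨BG⟩ := exists_fixedBasis hM hρ hx (by omega) C
  set G₀ := (m₀ : ℤ) • poleDiv QQb M.x with hG₀
  set G₀b := (m₀ : ℤ) • poleDiv (ResidueField A) M.xb
  have hG₀deg : Divisor.degree G₀ = d := M.degree_poles m₀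
  have hG₀bdeg : Divisor.degree G₀b = d := M.degree_poles_red m₀
  have hG₀map : Model.divMap hM G₀ = G₀b := by rw [hG₀, map_zsmul, Model.divMap_poleDiv hM]
  -- reduced classes, and fixed divisors cutting out one representative in each
  set cl : N →+ Pic0 (ResidueField A) Fb := (redHom hM).comp i
  set Cl := Set.range cl
  haveI : Finite Cl := (Set.finite_range cl).to_subtype
  haveI : Fintype Cl := Fintype.ofFinite Cl
  have hclass : ∀ c : Cl, ∃ (P : Divisor QQb F) (Db : Divisor (ResidueField A) Fb) (R : Finset ZB),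
      0 ≤ P ∧ Divisor.degree P = d - rGenus QQb F ∧
      (∀ σ ∈ A.decompositionSubgroup ℚ, (∀ a ∈ R, σ • a - a ∈ centre A) → ρ σ • P = P) ∧
      IsRep G₀b (Model.divMap hM P) c Db ∧ ell (Db - Model.divMap hM P) = 1 := by
    rintro ⟨c, -⟩
    obtain ⟨⟨E, hE⟩, rfl⟩ := Pic0.mk_surjective c
    have hEdeg : Divisor.degree (E + G₀b) = d := by
      rw [map_add, Divisor.mem_degZero.1 hE, hG₀bdeg, zero_add]
    have hell : ell (E + G₀b) = d + 1 - rGenus QQb F := by
      rw [ell_eq (by omega), hEdeg, hgen]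
    obtain ⟨Pb, hPb, hPdeg, hP1⟩ := exists_points (E := E + G₀b) (by omega)
    obtain ⟨P, R, hP, hPmap, hfix⟩ := exists_fixed_divisor hA hM hρ hx (by omega) BG hPb
    obtain ⟨Db, hDb⟩ := exists_rep (G₀ := G₀b) (P := Pb) (y := Pic0.mk ⟨E, hE⟩) fun D hD => by
      rw [ell_eq_of_isPrincipal (D' := E + G₀b - Pb) ?_, hP1]
      rw [show (D : Divisor (ResidueField A) Fb) + G₀b - Pb - (E + G₀b - Pb) = D - E by abel]
      exact pic0_mk_eq_iff.1 hD
    refine ⟨P, Db, R, hP, ?_, hfix, hPmap.symm ▸ hDb, ?_⟩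
    · rw [← Model.degree_divMap hM, hPmap, hPdeg, hell]; ring
    · obtain ⟨-, hd', hmk⟩ := hDb
      rw [hPmap, ← hP1]
      refine ell_eq_of_isPrincipal ?_
      rw [show Db - Pb - (E + G₀b - Pb) = Db - G₀b - E by abel]
      exact pic0_mk_eq_iff.1 hmk
  choose P Db RP hP hPdeg hPfix hDb hDb1 using hclass
  let clC : N → Cl := fun x => ⟨cl x, x, rfl⟩
  have hrepL : ∀ x, ∃ D, IsRep G₀ (P (clC x)) (i x) D := fun x => exists_rep fun D _ => by
    have h1 := riemann_ineq ((D : Divisor QQb F) + G₀ - P (clC x))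
    rw [map_sub, map_add, Divisor.mem_degZero.1 D.2, hG₀deg, hPdeg] at h1
    omega
  choose D hD using hrepL
  have hD0 : ∀ x, 0 ≤ D x := fun x => (hP _).trans (hD x).1
  have hDdeg : ∀ x, Divisor.degree (D x) = d := fun x => (hD x).degree.trans hG₀deg
  have hDmap : ∀ x, Model.divMap hM (D x) = Db (clC x) := fun x => by
    refine (hDb (clC x)).unique ?_ (hDb1 _).le
    have := (hD x).map hM
    rwa [hG₀map] at this
  have hDbdeg : ∀ c : Cl, Divisor.degree (Db c) = d := fun c => (hDb c).degree.trans hG₀bdeg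
  have hDell : ∀ x, ell (D x - P (clC x)) ≤ 1 := fun x => by
    have := ell_le_divMap hM (D x - P (clC x))
    rwa [map_sub, hDmap, hDb1] at this
  -- residues controlling the reduced divisors, and echelon bases
  choose RD hRD using fun c : Cl => exists_residue_data hA hM hρ hx (d := d) (by omega) (by omega) BG (Db c)
  set G := (m : ℤ) • poleDiv QQb M.x with hG
  set Gb := (m : ℤ) • poleDiv (ResidueField A) M.xb
  choose s gE hgm hg hg0 using fun c : Cl =>
    exists_pivots C.toCoords (Vb := riemannRochSpace (Gb - Db c))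
  have hH1 := constRes_subsingleton (π := residue A) (⊤ : Subalgebra A (Unit → A))
  have hech : ∀ (c : Cl) (x : {x : N // clC x = c}), ∃ E : Fin _ → F,
      (∀ j, E j ∈ riemannRochSpace (G - D x.1)) ∧ (∀ j, M.Res (E j) (gE c j)) ∧
      (∀ j l, C.coord (E j) (s c l) = if l = j then 1 else 0) ∧
      ∀ f ∈ riemannRochSpace (G - D x.1), f = ∑ j, C.coord f (s c j) • E j := by
    rintro c ⟨x, rfl⟩
    obtain ⟨B⟩ := exists_hbasis_const (H := (⊤ : Subalgebra A (Unit → A))) hH1 C.toCoords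
      (U := riemannRochSpace (G - D x)) (rrSpace_le (sub_le_self _ (hD0 x)))
      (Vb := riemannRochSpace (Gb - Db (clC x)))
      (by rw [Model.image_rrSpace hM (by rw [map_sub, M.degree_poles, hDdeg]; omega), map_sub,
        map_zsmul, Model.divMap_poleDiv hM, hDmap])
    obtain ⟨E, -, hE, hEr, hEs, hexp⟩ :=
      exists_echelon hH1 C.toCoords B (s _) (gE _) (hgm _) (hg _) (hg0 _)
    exact ⟨fun j => E j (), fun j => hE j (), fun j => hEr j (), fun j l => hEs j () l,
      fun f hf => hexp () f hf⟩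
  choose E hEmem hEres hEs hEexp using hech
  have hEG : ∀ c x j, E c x j ∈ polesSpace M m := fun c x j =>
    rrSpace_le (sub_le_self _ (hD0 x.1)) (hEmem c x j)
  -- the coordinate functions
  let t : (Σ c : Cl, Fin (Module.finrank (ResidueField A) (riemannRochSpace (Gb - Db c))) × Fin BG.r) →
      N → QQb := fun q x =>
    if h : clC x = q.1 then C.coord (E q.1 ⟨x, h⟩ q.2.1) (BG.piv q.2.2) else 0
  let χ : Cl → N → QQb := fun c x => if clC x = c then 1 else 0
  set CS : Set (N → QQb) := Set.range χ ∪ Set.range t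
  have hCval : ∀ f ∈ CS, ∃ a : N → A, (∀ x, (a x : QQb) = f x) ∧
      ∀ x x', clC x = clC x' → residue A (a x) = residue A (a x') := by
    rintro f (⟨c, rfl⟩ | ⟨q, rfl⟩)
    · refine ⟨fun x => if clC x = c then 1 else 0, fun x => ?_, fun x x' h => by simp only [h]⟩
      simp only [χ]
      split_ifs <;> rfl
    · have key : ∀ x, ∃ a : A, (a : QQb) = t q x ∧ residue A a =
          if clC x = q.1 then C.coordb (gE q.1 q.2.1) (BG.piv q.2.2) else 0 := fun x => by
        by_cases h : clC x = q.1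
        · obtain ⟨a, ha, hb⟩ := C.res _ _ (hEG _ ⟨x, h⟩ q.2.1) (hEres _ ⟨x, h⟩ q.2.1) (BG.piv q.2.2)
          exact ⟨a, by simp only [t, dif_pos h]; exact ha, by rw [if_pos h]; exact hb⟩
        · exact ⟨0, by simp [t, dif_neg h], by rw [if_neg h, map_zero]⟩
      choose a ha hb using key
      exact ⟨a, ha, fun x x' h => by rw [hb, hb, h]⟩
  -- the decomposition elements fixing the residues fix the coordinates
  set R : Finset ZB := Finset.univ.biUnion fun c : Cl => RP c ∪ RD c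
  have hfix : ∀ σ ∈ A.decompositionSubgroup ℚ, (∀ a ∈ R, σ • a - a ∈ centre A) → ∀ x : N,
      clC (σ • x) = clC x ∧ D (σ • x) = ρ σ • D x := by
    intro σ hσ hR x
    have hR' : ∀ a, a ∈ RP (clC x) ∪ RD (clC x) → σ • a - a ∈ centre A := fun a ha =>
      hR a (Finset.mem_biUnion.2 ⟨clC x, Finset.mem_univ _, ha⟩)
    have hP' := hPfix _ σ hσ fun a ha => hR' a (Finset.mem_union_left _ ha)
    have hDσ := hRD _ (D x) (hD0 x) (hDdeg x).le (hDmap x) σ hσ
      fun a ha => hR' a (Finset.mem_union_right _ ha)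
    have hrep := (hD x).smul (ρ σ)
    rw [hG₀, smul_poles hx, hP', ← heq] at hrep
    have hrep' := hrep.map hM
    rw [hDσ, hG₀map] at hrep'
    have hcl : clC (σ • x) = clC x := by
      refine Subtype.ext ?_
      show redHom hM (i (σ • x)) = (clC x : Pic0 (ResidueField A) Fb)
      obtain ⟨-, hd₁, h1⟩ := hrep'
      obtain ⟨-, hd₂, h2⟩ := hDb (clC x)
      rw [← h1, ← h2]
    refine ⟨hcl, ?_⟩
    have h := hD (σ • x)
    rw [hcl] at h
    refine (h.unique hrep ?_).symm
    have := hDell (σ • x)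
    rwa [hcl] at this
  have hcl_iff : ∀ σ ∈ A.decompositionSubgroup ℚ, (∀ a ∈ R, σ • a - a ∈ centre A) →
      ∀ (x : N) c, clC (σ • x) = c ↔ clC x = c := fun σ hσ hR x c => by rw [(hfix σ hσ hR x).1]
  have hinv : ∀ σ ∈ A.decompositionSubgroup ℚ, (∀ a ∈ R, σ • a - a ∈ centre A) →
      ∀ f ∈ CS, ∀ x, f (σ • x) = σ (f x) := by
    rintro σ hσ hR f (⟨c, rfl⟩ | ⟨⟨c, j, n⟩, rfl⟩) x
    · simp only [χ, hcl_iff σ hσ hR]
      split_ifs <;> simp
    · by_cases h : clC x = c
      · have h' : clC (σ • x) = c := (hcl_iff σ hσ hR x c).2 h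
        simp only [t, dif_pos h, dif_pos h']
        have hmem : ρ σ • E c ⟨x, h⟩ j ∈ riemannRochSpace (G - D (σ • x)) := by
          have := smul_mem_rrSpace (hEmem c ⟨x, h⟩ j) (ρ σ)
          rwa [smul_sub, hG, smul_poles hx, ← (hfix σ hσ hR x).2] at this
        have hE' : E c ⟨σ • x, h'⟩ j = ρ σ • E c ⟨x, h⟩ j := by
          rw [hEexp c ⟨σ • x, h'⟩ _ hmem, Finset.sum_eq_single j]
          · rw [C.equiv, hEs, if_pos rfl, map_one, one_smul]
          · intro l _ hl
            rw [C.equiv, hEs, if_neg hl, map_zero, zero_smul]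
          · simp
        rw [hE', C.equiv]
      · have h' : clC (σ • x) ≠ c := fun e => h ((hcl_iff σ hσ hR x c).1 e)
        simp only [t, dif_neg h, dif_neg h', map_zero]
  -- separation
  have hsep : ∀ x y : N, x ≠ y → ∃ f ∈ CS, f x ≠ f y := by
    intro x y hxy
    by_contra! hall
    have hc : clC x = clC y := by
      by_contra hne
      have h := hall (χ (clC x)) (Or.inl ⟨_, rfl⟩)
      simp [χ, Ne.symm hne] at h
    have hEeq : ∀ j, E (clC y) ⟨x, hc⟩ j = E (clC y) ⟨y, rfl⟩ j := fun j => by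
      rw [BG.expand _ (hEG (clC y) ⟨x, hc⟩ j), BG.expand _ (hEG (clC y) ⟨y, rfl⟩ j)]
      refine Finset.sum_congr rfl fun n _ => ?_
      have h := hall (t ⟨clC y, j, n⟩) (Or.inr ⟨_, rfl⟩)
      simp only [t, dif_pos hc, dite_true] at h
      rw [h]
    have hrr : riemannRochSpace (G - D x) = riemannRochSpace (G - D y) := by
      apply le_antisymm <;> intro f hf
      · rw [hEexp (clC y) ⟨x, hc⟩ f hf]
        exact sum_mem fun j _ => Submodule.smul_mem _ _ (hEeq j ▸ hEmem (clC y) ⟨y, rfl⟩ j)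
      · rw [hEexp (clC y) ⟨y, rfl⟩ f hf]
        exact sum_mem fun j _ => Submodule.smul_mem _ _ ((hEeq j).symm ▸ hEmem (clC y) ⟨x, hc⟩ j)
    have hbL : rBound QQb F + 1 ≤ M.bound := by rw [Model.bound]; omega
    have hDxy : D x = D y := sub_right_injective (eq_of_rrSpace_eq hrr
      (by rw [map_sub, M.degree_poles, hDdeg]; omega) (by rw [map_sub, M.degree_poles, hDdeg]; omega))
    refine hxy (hi ?_)
    obtain ⟨-, h1, e1⟩ := hD x
    obtain ⟨-, h2, e2⟩ := hD y
    rw [← e1, ← e2]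
    exact congrArg Pic0.mk (Subtype.ext (congrArg (fun z => z - G₀) hDxy))
  -- open stabilisers
  have hcont : ∀ x : N, IsOpen (MulAction.stabilizer GG x : Set GG) := fun x => by
    obtain ⟨U, hU, hfixU⟩ := isOpen_stabilizer_rep hρ hx BG (hD x) (hD0 x)
      (by rw [hDdeg]; omega)
    refine Subgroup.isOpen_mono (fun σ hσ => ?_) hU
    rw [MulAction.mem_stabilizer_iff]
    exact hi (by rw [heq, hfixU σ hσ])
  -- comultiplication
  set X := Submodule.span A (Set.image2 (fun (a b : N → QQb) (p : N × N) => a p.1 * b p.2)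
    (Algebra.adjoin A CS : Set (N → QQb)) (Algebra.adjoin A CS))
  have hcomul : ∀ f ∈ CS, (fun p : N × N => f (p.1 + p.2)) ∈ X := by
    intro f hf
    suffices hpair : ∀ c₁ c₂ : Cl, ∃ Φ ∈ X, ∀ p : N × N, clC p.1 = c₁ → clC p.2 = c₂ →
        Φ p = f (p.1 + p.2) by
      choose Φ hΦ hΦeq using hpair
      have hsum : (fun p : N × N => f (p.1 + p.2)) =
          ∑ c₁, ∑ c₂, (fun p : N × N => χ c₁ p.1 * χ c₂ p.2) * Φ c₁ c₂ := funext fun p => by
        rw [Finset.sum_apply, Finset.sum_eq_single (clC p.1) (fun c _ hc => by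
          simp [χ, Ne.symm hc]) (by simp), Finset.sum_apply, Finset.sum_eq_single (clC p.2)
          (fun c _ hc => by simp [χ, Ne.symm hc]) (by simp), Pi.mul_apply]
        simp [χ, hΦeq _ _ p rfl rfl]
      rw [hsum]
      exact sum_mem fun c₁ _ => sum_mem fun c₂ _ => adjoin_mul_span_le
        (Submodule.subset_span ⟨_, Algebra.subset_adjoin (Or.inl ⟨c₁, rfl⟩),
          _, Algebra.subset_adjoin (Or.inl ⟨c₂, rfl⟩), rfl⟩) (hΦ c₁ c₂)
    intro c₁ c₂
    set Ω := {p : N × N // clC p.1 = c₁ ∧ clC p.2 = c₂}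
    rcases isEmpty_or_nonempty Ω with hΩ | hΩ
    · exact ⟨0, zero_mem _, fun p h1 h2 => (hΩ.false ⟨p, h1, h2⟩).elim⟩
    choose av hav havres using hCval
    set gens : Set (Ω → A) := {h | ∃ g, ∃ hg : g ∈ CS, (h = fun p => av g hg p.1.1) ∨
      (h = fun p => av g hg p.1.2)}
    set H := Algebra.adjoin A gens
    have hH : ConstRes (residue A) H := constRes_adjoin fun h hh p p' => by
      obtain ⟨g, hg, rfl | rfl⟩ := hh
      · exact havres g hg _ _ (p.2.1.trans p'.2.1.symm)
      · exact havres g hg _ _ (p.2.2.trans p'.2.2.symm)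
    have hlift : ∀ h ∈ H, ∃ Φ ∈ X, ∀ p : Ω, Φ p.1 = (h p : QQb) := by
      intro h hh
      induction hh using Algebra.adjoin_induction with
      | mem h hh =>
        obtain ⟨g, hg, rfl | rfl⟩ := hh
        · exact ⟨fun p => g p.1 * (1 : N → QQb) p.2, Submodule.subset_span
            ⟨g, Algebra.subset_adjoin hg, 1, one_mem _, rfl⟩, fun p => by simp [hav g hg]⟩
        · exact ⟨fun p => (1 : N → QQb) p.1 * g p.2, Submodule.subset_span
            ⟨1, one_mem _, g, Algebra.subset_adjoin hg, rfl⟩, fun p => by simp [hav g hg]⟩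
      | algebraMap a =>
        refine ⟨a • fun p : N × N => (1 : N → QQb) p.1 * (1 : N → QQb) p.2, Submodule.smul_mem _ _
          (Submodule.subset_span ⟨1, one_mem _, 1, one_mem _, rfl⟩), fun p => ?_⟩
        show (a : QQb) * (1 * 1) = (a : QQb)
        ring
      | add a b _ _ ha hb =>
        obtain ⟨Φ, hΦ, e⟩ := ha
        obtain ⟨Φ', hΦ', e'⟩ := hb
        exact ⟨Φ + Φ', add_mem hΦ hΦ', fun p => by simp [e p, e' p]⟩
      | mul a b _ _ ha hb =>
        obtain ⟨Φ, hΦ, e⟩ := ha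
        obtain ⟨Φ', hΦ', e'⟩ := hb
        exact ⟨Φ * Φ', adjoin_mul_span_le hΦ hΦ', fun p => by simp [e p, e' p]⟩
    obtain ⟨p₀⟩ := hΩ
    set c₃ := clC (p₀.1.1 + p₀.1.2)
    have hc₃ : ∀ p : Ω, clC (p.1.1 + p.1.2) = c₃ := fun p => Subtype.ext (by
      show cl (p.1.1 + p.1.2) = cl (p₀.1.1 + p₀.1.2)
      have h1 := congrArg Subtype.val (p.2.1.trans p₀.2.1.symm)
      have h2 := congrArg Subtype.val (p.2.2.trans p₀.2.2.symm)
      simp only [clC] at h1 h2
      rw [map_add, map_add, h1, h2])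
    have hfamily : ∀ (c : Cl) (pr : Ω → N) (hpr : ∀ p, clC (pr p) = c),
        (∀ q, t q ∈ CS → (fun p => av (t q) (Or.inr ⟨q, rfl⟩) (pr p)) ∈ H) →
        Nonempty (HBasis M H m (fun p => riemannRochSpace (G - D (pr p)))
          (riemannRochSpace (Gb - Db c))) := by
      intro c pr hpr hmem
      obtain ⟨hli, hspan⟩ := pivots_span C.toCoords (hgm c) (hg c) (hg0 c)
      refine ⟨⟨_, fun j p => E c ⟨pr p, hpr p⟩ j, gE c, fun j => ?_, fun j p => hEres c _ j,
        hli, hspan, fun p => le_antisymm (Submodule.span_le.2 ?_) fun f hf => ?_⟩⟩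
      · rw [show (fun p => E c ⟨pr p, hpr p⟩ j) = ∑ n, fun p =>
            ((av (t ⟨c, j, n⟩) (Or.inr ⟨_, rfl⟩) (pr p) : A) : QQb) • BG.b n from funext fun p => by
          rw [Finset.sum_apply]
          refine (BG.expand _ (hEG c ⟨pr p, hpr p⟩ j)).trans (Finset.sum_congr rfl fun n _ => ?_)
          rw [hav (t ⟨c, j, n⟩) (Or.inr ⟨⟨c, j, n⟩, rfl⟩)]
          simp only [t, dif_pos (hpr p)]]
        exact sum_mem fun n _ => smul_mem_hfSpan (h := fun p =>
          av (t ⟨c, j, n⟩) (Or.inr ⟨_, rfl⟩) (pr p)) (hmem _ (Or.inr ⟨_, rfl⟩))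
          (const_mem_hfSpan (BG.mem n) (BG.res n).mem)
      · rintro _ ⟨j, rfl⟩; exact hEmem c _ j
      · rw [hEexp c ⟨pr p, hpr p⟩ f hf]
        exact sum_mem fun j _ => Submodule.smul_mem _ _ (Submodule.subset_span ⟨j, rfl⟩)
    obtain ⟨B₁⟩ := hfamily c₁ (fun p => p.1.1) (fun p => p.2.1)
      fun q hq => Algebra.subset_adjoin ⟨_, hq, Or.inl rfl⟩
    obtain ⟨B₂⟩ := hfamily c₂ (fun p => p.1.2) (fun p => p.2.2)
      fun q hq => Algebra.subset_adjoin ⟨_, hq, Or.inr rfl⟩
    haveI : Nonempty Ω := ⟨p₀⟩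
    obtain ⟨B₃⟩ := exists_hbasis_add hM hH (m := m) (m₀ := m₀) C₆.toCoords (d := d) rfl (by omega)
      (by omega) (D₃ := fun p : Ω => D (p.1.1 + p.1.2)) (P₃ := P c₃) B₁ B₂
      (fun p => hDdeg _) (fun p => hDdeg _) (fun p => hDdeg _)
      (fun p => by rw [hDmap, p.2.1]) (fun p => by rw [hDmap, p.2.2])
      (fun p => by rw [hDmap, hc₃ p]) (hP c₃)
      (fun p => hc₃ p ▸ (hD (p.1.1 + p.1.2)).1)
      (fun p => by
        have h3 := hD (p.1.1 + p.1.2)
        rw [map_add i] at h3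
        exact (hD p.1.1).add (hD p.1.2) h3)
      (hDb1 c₃) (fun p => by
        have h1 := riemann_ineq (D (p.1.1 + p.1.2) - P c₃)
        rw [map_sub, hDdeg, hPdeg] at h1
        omega)
    obtain ⟨E₃, hE₃f, hE₃m, -, hE₃s, -⟩ :=
      exists_echelon hH C.toCoords B₃ (s c₃) (gE c₃) (hgm c₃) (hg c₃) (hg0 c₃)
    have hE₃ : ∀ j (p : Ω), E c₃ ⟨p.1.1 + p.1.2, hc₃ p⟩ j = E₃ j p := fun j p => by
      rw [hEexp c₃ ⟨_, hc₃ p⟩ _ (hE₃m j p), Finset.sum_eq_single j]
      · rw [hE₃s, if_pos rfl, one_smul]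
      · intro l _ hl
        rw [hE₃s, if_neg hl, zero_smul]
      · simp
    rcases hf with ⟨c, rfl⟩ | ⟨⟨c, j, n⟩, rfl⟩
    · refine ⟨(χ c (p₀.1.1 + p₀.1.2)) • fun p : N × N => (1 : N → QQb) p.1 * (1 : N → QQb) p.2,
        ?_, fun p h1 h2 => ?_⟩
      · by_cases h : clC (p₀.1.1 + p₀.1.2) = c
        · simp only [χ, if_pos h, one_smul]
          exact Submodule.subset_span ⟨1, one_mem _, 1, one_mem _, rfl⟩
        · simp only [χ, if_neg h, zero_smul]; exact zero_mem _
      · have e := hc₃ ⟨p, h1, h2⟩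
        simp only [χ, Pi.smul_apply, Pi.one_apply, mul_one, smul_eq_mul]
        simp only [e, c₃]
    · by_cases h : c₃ = c
      · subst h
        obtain ⟨v, hv⟩ := exists_vec C.toCoords (hE₃f j)
        obtain ⟨Φ, hΦ, e⟩ := hlift _ (v (BG.piv n)).2
        refine ⟨Φ, hΦ, fun p h1 h2 => ?_⟩
        rw [show p = (⟨p, h1, h2⟩ : Ω).1 from rfl, e]
        have hh := congrFun (hv ⟨p, h1, h2⟩) (BG.piv n)
        simp only [t, dif_pos (hc₃ ⟨p, h1, h2⟩), hE₃ j ⟨p, h1, h2⟩]
        exact hh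
      · refine ⟨0, zero_mem _, fun p h1 h2 => ?_⟩
        simp only [t, dif_neg (show ¬ clC (p.1 + p.2) = c from fun e => h ((hc₃ ⟨p, h1, h2⟩).symm.trans e)),
          Pi.zero_apply]
  exact exists_hopfOrder hA hcont CS ((Set.finite_range χ).union (Set.finite_range t))
    (fun f hf x => by obtain ⟨a, ha, -⟩ := hCval f hf; exact ha x ▸ (a x).2)
    R hinv hsep hcomul

end Setting

end FLTAgent.FlatModel
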