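import Fermat.Agent.FlatModel.Closure
import Fermat.Agent.EigenLattice.Galois
import Fermat.Agent.Specialization.Cover

/-!
# Transfer of finite flatness along finite maps of curves
-/

set_option autoImplicit false
set_option linter.style.haveILetI false
set_option linter.unusedSectionVars false

noncomputable section

open scoped Pointwise

namespace FLTAgent.FlatModel

open AlgebraicCurve FLTAgent.Curves

local notation "QQb" => AlgebraicClosure ℚ
local notation "GG" => (AlgebraicClosure ℚ ≃ₐ[ℚ] AlgebraicClosure ℚ)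

section Along

variable {K F F' : Type*} [Field K] [Field F] [Field F'] [Algebra K F] [Algebra K F']
  [IsAlgClosed K] [IsFunctionField K F] [IsFunctionField K F']

theorem mapRestrict_eq_pushforward [Algebra F F'] [IsScalarTower K F F'] [Algebra.IsIntegral F F']
    (D : Divisor K F') : Divisor.pushforward F D = Divisor.mapRestrict F D := by
  induction D using Finsupp.induction with
  | zero => simp
  | single_add w n D _ _ ih =>
    have h := w.deg_restrict_mul_inertiaDeg (F := F)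
    rw [deg_eq_one, deg_eq_one, one_mul] at h
    rw [map_add, map_add, ih, Divisor.pushforward_single, Divisor.mapRestrict_single, h,
      Nat.cast_one, mul_one]

/-- Pull back and push forward of classes along a map of function fields. -/
theorem exists_transfer (φ : F →ₐ[K] F') :
    ∃ (a : Pic0 K F →+ Pic0 K F') (b : Pic0 K F' →+ Pic0 K F),
      (letI := algebraAlong φ; ∀ y, b (a y) = Module.finrank F F' • y) ∧
      ∀ (g : SemilinearAut K F) (g' : SemilinearAut K F'), (∀ y, φ (g • y) = g' • φ y) →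
        (∀ y, a (g • y) = g' • a y) ∧ ∀ y, b (g' • y) = g • b y := by
  have hφ : φ.toRingHom.IsIntegral := Kronecker.isIntegralAlong φ
  letI := algebraAlong φ
  haveI := isScalarTower_along φ
  haveI := isIntegral_along φ hφ
  haveI : Module.Finite F F' := Kronecker.finiteAlong φ
  haveI : HasPrincipalDivisors K F' := hasPrincipalDivisors
  haveI : FundamentalIdentity K F F' := Kronecker.fundamentalIdentity
  have H : Divisor.PushforwardNormFormula K F F' :=
    Kronecker.normFormulaAlong φ (Kronecker.finiteAlong φ)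
  refine ⟨Pic0.pullbackHom F', Pic0.pushforwardHom K F F' H, fun y => ?_, fun g g' hg => ⟨?_, ?_⟩⟩
  · obtain ⟨D, rfl⟩ := Pic0.mk_surjective y
    rw [Pic0.pullbackHom_mk, Pic0.pushforwardHom_mk]
    refine Eq.trans (congrArg Pic0.mk (Subtype.ext ?_)) (map_nsmul (QuotientAddGroup.mk' _) _ D)
    rw [Pic0.coe_pushforwardDegZeroHom, Pic0.coe_pullbackDegZeroHom, mapRestrict_eq_pushforward,
      Specialization.mapRestrict_pullback, AddSubgroup.coe_nsmul, natCast_zsmul]
  · intro y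
    obtain ⟨D, rfl⟩ := Pic0.mk_surjective y
    rw [SemilinearAut.pic0_smul_mk, Pic0.pullbackHom_mk, Pic0.pullbackHom_mk,
      SemilinearAut.pic0_smul_mk]
    refine congrArg Pic0.mk (Subtype.ext ?_)
    rw [Pic0.coe_pullbackDegZeroHom, SemilinearAut.coe_degZeroSMulHom,
      SemilinearAut.coe_degZeroSMulHom, Pic0.coe_pullbackDegZeroHom]
    exact EigenLattice.pullbackAlong_smul φ hφ g g' hg _
  · intro y
    obtain ⟨D, rfl⟩ := Pic0.mk_surjective y
    rw [SemilinearAut.pic0_smul_mk, Pic0.pushforwardHom_mk, Pic0.pushforwardHom_mk,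
      SemilinearAut.pic0_smul_mk]
    refine congrArg Pic0.mk (Subtype.ext ?_)
    rw [Pic0.coe_pushforwardDegZeroHom, SemilinearAut.coe_degZeroSMulHom,
      SemilinearAut.coe_degZeroSMulHom, Pic0.coe_pushforwardDegZeroHom]
    exact EigenLattice.pushforwardAlong_smul φ hφ g g' hg _

end Along

section Groups

variable {J J' : Type*} [AddCommGroup J] [AddCommGroup J'] [DistribMulAction GG J]
  [DistribMulAction GG J']

/-- The Galois action on a stable subgroup. -/
@[reducible]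
def stableSub (T : AddSubgroup J) (hT : ∀ (σ : GG), ∀ x ∈ T, σ • x ∈ T) :
    DistribMulAction GG T where
  smul σ x := ⟨σ • (x : J), hT σ x x.2⟩
  one_smul x := Subtype.ext (one_smul GG (x : J))
  mul_smul σ τ x := Subtype.ext (mul_smul σ τ (x : J))
  smul_zero σ := Subtype.ext (smul_zero σ)
  smul_add σ x y := Subtype.ext (smul_add σ (x : J) (y : J))

/-- Division by a power of `ℓ` on torsion. -/
theorem exists_nsmul_eq {ℓ g : ℕ} (hℓ : 0 < ℓ)
    (hcard : ∀ n, Nat.card (Submodule.torsionBy ℤ J ((ℓ : ℤ) ^ n)) = (ℓ ^ n) ^ g)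
    (k e : ℕ) {y : J} (hy : (ℓ ^ k) • y = 0) :
    ∃ x : J, (ℓ ^ (k + e)) • x = 0 ∧ (ℓ ^ e) • x = y := by
  set T : ℕ → AddSubgroup J := fun n => (nsmulAddMonoidHom (α := J) (ℓ ^ n)).ker
  have hT : ∀ n, Nat.card (T n) = (ℓ ^ n) ^ g := fun n => by
    rw [← hcard n]
    exact Nat.card_congr (Equiv.subtypeEquivRight fun x => by
      rw [AddMonoidHom.mem_ker, Submodule.mem_torsionBy_iff, nsmulAddMonoidHom_apply,
        ← natCast_zsmul, Nat.cast_pow])
  set f : T (k + e) →+ J := (nsmulAddMonoidHom (ℓ ^ e)).comp (T (k + e)).subtype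
  have hrange : f.range ≤ T k := by
    rintro _ ⟨x, rfl⟩
    show (ℓ ^ k) • ((ℓ ^ e) • (x : J)) = 0
    rw [← mul_smul, ← pow_add]
    exact x.2
  have hker : Nat.card f.ker = (ℓ ^ e) ^ g := by
    rw [← hT e]
    refine Nat.card_congr ⟨fun x => ⟨(x : T (k + e)), x.2⟩, fun x => ⟨⟨x, ?_⟩, x.2⟩,
      fun x => rfl, fun x => rfl⟩
    show (ℓ ^ (k + e)) • (x : J) = 0
    rw [pow_add, mul_smul, show (ℓ ^ e) • (x : J) = 0 from x.2, nsmul_zero]
  have hpos : ∀ n, 0 < (ℓ ^ n) ^ g := fun n => pow_pos (pow_pos hℓ n) g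
  haveI : Finite (T k) := Nat.finite_of_card_ne_zero (by rw [hT]; exact (hpos k).ne')
  have hmul : Nat.card (T (k + e)) = Nat.card f.ker * Nat.card f.range := by
    rw [← f.ker.index_mul_card, AddSubgroup.index_ker f, mul_comm]
  rw [hker, hT, pow_add, mul_pow, mul_comm] at hmul
  have heq : f.range = T k := AddSubgroup.eq_of_le_of_card_ge hrange
    (le_of_eq (by rw [hT]; exact Nat.eq_of_mul_eq_mul_left (hpos e) hmul))
  obtain ⟨x, hx⟩ := heq.ge (show y ∈ T k from hy)
  exact ⟨x, x.2, hx⟩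

/-- Descent of finite flatness through a map with multiplication by a power of `ℓ` after it. -/
theorem exists_hopfOrder_transfer {ℓ g : ℕ} [Fact ℓ.Prime]
    (hcard : ∀ n, Nat.card (Submodule.torsionBy ℤ J ((ℓ : ℤ) ^ n)) = (ℓ ^ n) ^ g)
    (hJ' : ∀ (T : AddSubgroup J') (hT : ∀ (σ : GG), ∀ x ∈ T, σ • x ∈ T), Finite T →
      (letI := stableSub T hT; Nonempty (HopfOrder ℓ T)))
    (a : J →+ J') (b : J' →+ J) {e : ℕ} (hba : ∀ x, b (a x) = (ℓ ^ e) • x)
    (ha : ∀ (σ : GG) x, a (σ • x) = σ • a x) (hb : ∀ (σ : GG) x, b (σ • x) = σ • b x) (k : ℕ)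
    [DistribMulAction GG (Submodule.torsionBy ℤ J ((ℓ : ℤ) ^ k))]
    (hact : ∀ (σ : GG) (x : Submodule.torsionBy ℤ J ((ℓ : ℤ) ^ k)),
      ((σ • x : Submodule.torsionBy ℤ J ((ℓ : ℤ) ^ k)) : J) = σ • (x : J)) :
    Nonempty (HopfOrder ℓ (Submodule.torsionBy ℤ J ((ℓ : ℤ) ^ k))) := by
  have hℓ : 0 < ℓ := (Fact.out : ℓ.Prime).pos
  set T₀ := (nsmulAddMonoidHom (α := J) (ℓ ^ (k + e))).ker
  haveI : Finite T₀ := Nat.finite_of_card_ne_zero (by
    rw [Nat.card_congr (Equiv.subtypeEquivRight fun x => by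
      rw [AddMonoidHom.mem_ker, nsmulAddMonoidHom_apply, ← natCast_zsmul, Nat.cast_pow,
        Submodule.mem_torsionBy_iff] : T₀ ≃ Submodule.torsionBy ℤ J ((ℓ : ℤ) ^ (k + e))), hcard]
    exact (pow_pos (pow_pos hℓ _) _).ne')
  set T := T₀.map a
  haveI : Finite T := (Set.toFinite (a '' (T₀ : Set J))).to_subtype
  have hT : ∀ (σ : GG), ∀ x ∈ T, σ • x ∈ T := by
    rintro σ _ ⟨x, hx, rfl⟩
    refine ⟨σ • x, ?_, ha σ x⟩
    show (ℓ ^ (k + e)) • (σ • x) = 0
    rw [← smul_comm σ, show (ℓ ^ (k + e)) • x = 0 from hx, smul_zero]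
  letI := stableSub T hT
  obtain ⟨O⟩ := hJ' T hT inferInstance
  have hmem : ∀ x : T, b (x : J') ∈ Submodule.torsionBy ℤ J ((ℓ : ℤ) ^ k) := by
    rintro ⟨_, x, hx, rfl⟩
    rw [Submodule.mem_torsionBy_iff, hba, ← Nat.cast_pow, natCast_zsmul, ← mul_smul, ← pow_add]
    exact hx
  let π : T →+ Submodule.torsionBy ℤ J ((ℓ : ℤ) ^ k) :=
    (b.comp T.subtype).codRestrict _ hmem
  refine ⟨O.quotient π (fun y => ?_) fun σ x => Subtype.ext ?_⟩
  · obtain ⟨x, hx, hxy⟩ := exists_nsmul_eq hℓ hcard k e (y := (y : J)) (by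
      rw [← natCast_zsmul, Nat.cast_pow]
      exact (Submodule.mem_torsionBy_iff _ _).1 y.2)
    exact ⟨⟨a x, x, hx, rfl⟩, Subtype.ext ((hba x).trans hxy)⟩
  · rw [hact]
    exact hb σ x

end Groups

end FLTAgent.FlatModel
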