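import Fermat.Agent.FlatModel.Closure
import Mathlib.Algebra.MonoidAlgebra.Basic

/-!
# Modules killed by the annihilator of a finite flat module are finite flat
-/

set_option autoImplicit false
set_option linter.unusedSectionVars false

noncomputable section

namespace FLTAgent.FlatModel

local notation "QQb" => AlgebraicClosure ℚ
local notation "GG" => (AlgebraicClosure ℚ ≃ₐ[ℚ] AlgebraicClosure ℚ)

variable {ℓ : ℕ} [Fact ℓ.Prime]

/-- A formal combination of automorphisms acting on a module. -/
def formalAct (M : Type*) [AddCommGroup M] [DistribMulAction GG M] : (GG →₀ ℤ) →+ AddMonoid.End M :=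
  Finsupp.liftAddHom fun σ => zmultiplesHom _ (DistribSMul.toAddMonoidHom M σ : AddMonoid.End M)

theorem formalAct_single (M : Type*) [AddCommGroup M] [DistribMulAction GG M] (σ : GG) (a : ℤ)
    (x : M) : formalAct M (Finsupp.single σ a) x = a • (σ • x) := by
  rw [formalAct, Finsupp.liftAddHom_apply_single]
  rfl

theorem formalAct_smul (M : Type*) [AddCommGroup M] [DistribMulAction GG M] (σ : GG)
    (x : GG →₀ ℤ) (m : M) :
    formalAct M (x.mapDomain (σ * ·)) m = σ • formalAct M x m := by
  induction x using Finsupp.induction_linear with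
  | zero => simp
  | add x y hx hy =>
    rw [Finsupp.mapDomain_add, map_add, map_add]
    show formalAct M _ m + formalAct M _ m = σ • (formalAct M x m + formalAct M y m)
    rw [hx, hy, smul_add]
  | single τ a =>
    rw [Finsupp.mapDomain_single, formalAct_single, formalAct_single, mul_smul]
    exact (map_zsmul (DistribSMul.toAddMonoidHom M σ) a (τ • m)).symm

variable {W : Type*} [AddCommGroup W] [DistribMulAction GG W]

/-- Powers of a finite flat module. -/
theorem exists_hopfOrder_pi [Finite W] (O : HopfOrder ℓ W) (n : ℕ) :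
    Nonempty (HopfOrder ℓ (Fin n → W)) := by
  induction n with
  | zero =>
    exact ⟨O.quotient 0 (fun y => ⟨0, Subsingleton.elim _ _⟩) fun _ _ => Subsingleton.elim _ _⟩
  | succ n ih =>
    obtain ⟨P⟩ := ih
    let i : (Fin (n + 1) → W) →+ W × (Fin n → W) :=
      { toFun := fun f => (f 0, fun j => f j.succ)
        map_zero' := rfl
        map_add' := fun _ _ => rfl }
    refine ⟨(O.prod P).restrict i (fun f g h => funext fun j => ?_) fun σ x => rfl⟩
    refine Fin.cases (congrArg Prod.fst h) (fun j => ?_) j
    exact congrFun (congrArg Prod.snd h) j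

/-- Powers indexed by a finite type. -/
theorem exists_hopfOrder_pi' [Finite W] (O : HopfOrder ℓ W) (ι : Type*) [Finite ι] :
    Nonempty (HopfOrder ℓ (ι → W)) := by
  obtain ⟨n, ⟨e⟩⟩ := Finite.exists_equiv_fin ι
  obtain ⟨P⟩ := exists_hopfOrder_pi O n
  let i : (ι → W) →+ (Fin n → W) :=
    { toFun := fun f j => f (e.symm j)
      map_zero' := rfl
      map_add' := fun _ _ => rfl }
  exact ⟨P.restrict i (fun f g h => funext fun x => by simpa [i] using congrFun h (e x))
    fun σ x => rfl⟩

variable {V : Type*} [AddCommGroup V] [DistribMulAction GG V]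

/-- A finite module killed by every relation of a finite flat module is finite flat. -/
theorem exists_hopfOrder_of_annihilator [Finite W] [Finite V] (O : HopfOrder ℓ W)
    (h : ∀ x : GG →₀ ℤ, formalAct W x = 0 → formalAct V x = 0) :
    Nonempty (HopfOrder ℓ V) := by
  classical
  haveI : Fintype V := Fintype.ofFinite V
  obtain ⟨P⟩ := exists_hopfOrder_pi' O W
  let ev : (GG →₀ ℤ) →+ (W → W) :=
    { toFun := fun x => ⇑(formalAct W x)
      map_zero' := by simp only [map_zero]; rfl
      map_add' := fun x y => by simp only [map_add]; rfl }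
  set R : AddSubgroup (W → W) := ev.range
  have hR : ∀ (σ : GG), ∀ r ∈ R, σ • r ∈ R := by
    rintro σ _ ⟨x, rfl⟩
    exact ⟨x.mapDomain (σ * ·), funext fun w => formalAct_smul W σ x w⟩
  letI : DistribMulAction GG R :=
    { smul := fun σ r => ⟨σ • (r : W → W), hR σ r r.2⟩
      one_smul := fun r => Subtype.ext (one_smul GG (r : W → W))
      mul_smul := fun σ τ r => Subtype.ext (mul_smul σ τ (r : W → W))
      smul_zero := fun σ => Subtype.ext (smul_zero σ)
      smul_add := fun σ r r' => Subtype.ext (smul_add σ (r : W → W) (r' : W → W)) }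
  obtain ⟨PR⟩ : Nonempty (HopfOrder ℓ R) :=
    ⟨P.restrict R.subtype R.subtype_injective fun σ r => rfl⟩
  obtain ⟨PV⟩ := exists_hopfOrder_pi' PR V
  have hker : ev.rangeRestrict.ker ≤ (formalAct V).ker := fun x hx => by
    refine h x (AddMonoidHom.ext fun w => ?_)
    exact congrFun (congrArg Subtype.val hx) w
  let g : R →+ AddMonoid.End V :=
    (QuotientAddGroup.lift _ (formalAct V) hker).comp
      (QuotientAddGroup.quotientKerEquivOfSurjective ev.rangeRestrict
        ev.rangeRestrict_surjective).symm.toAddMonoidHom
  have hg : ∀ x, g (ev.rangeRestrict x) = formalAct V x := fun x => by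
    show QuotientAddGroup.lift _ (formalAct V) hker ((QuotientAddGroup.quotientKerEquivOfSurjective
      ev.rangeRestrict ev.rangeRestrict_surjective).symm (ev.rangeRestrict x)) = _
    rw [show (QuotientAddGroup.quotientKerEquivOfSurjective ev.rangeRestrict
      ev.rangeRestrict_surjective).symm (ev.rangeRestrict x) = (x : (GG →₀ ℤ) ⧸ _) from
      (AddEquiv.symm_apply_eq _).2 rfl]
    rfl
  let Φ : (V → R) →+ V :=
    { toFun := fun f => ∑ v, g (f v) v
      map_zero' := Finset.sum_eq_zero fun v _ => by rw [Pi.zero_apply, map_zero]; rfl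
      map_add' := fun f f' => by
        rw [← Finset.sum_add_distrib]
        exact Finset.sum_congr rfl fun v _ => by rw [Pi.add_apply, map_add]; rfl }
  refine ⟨PV.quotient Φ (fun v => ⟨Pi.single v (ev.rangeRestrict (Finsupp.single 1 1)), ?_⟩)
    fun σ f => ?_⟩
  · show ∑ u, g ((Pi.single v (ev.rangeRestrict (Finsupp.single 1 1)) : V → R) u) u = v
    rw [Finset.sum_eq_single v (fun u _ hu => by rw [Pi.single_eq_of_ne hu, map_zero]; rfl)
      (fun hv => absurd (Finset.mem_univ v) hv), Pi.single_eq_same, hg, formalAct_single,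
      one_smul, one_smul]
  · show ∑ v, g ((σ • f) v) v = σ • ∑ v, g (f v) v
    rw [Finset.smul_sum]
    refine Finset.sum_congr rfl fun v _ => ?_
    obtain ⟨x, hx⟩ := ev.rangeRestrict_surjective (f v)
    rw [← hx, hg, ← formalAct_smul, show (σ • f) v = ev.rangeRestrict (x.mapDomain (σ * ·)) from
      Subtype.ext (by
        show σ • (f v : W → W) = _
        rw [← hx]
        exact funext fun w => (formalAct_smul W σ x w).symm), hg]

end FLTAgent.FlatModel
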