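import Fermat.Agent.FlatModel.Jacobian

/-!
# Coordinates on the kernel of reduction

The coordinates of the classes reducing to zero, recentred at the origin, are additive up to the
product of their sizes.
-/

set_option autoImplicit false
set_option linter.style.haveILetI false
set_option linter.unusedSectionVars false

noncomputable section

open scoped Pointwise
open IsLocalRing

namespace FLTAgent.FlatModel

open AlgebraicCurve FLTAgent.Curves FLTAgent.Specialization

local notation "QQb" => AlgebraicClosure ℚ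
local notation "GG" => (AlgebraicClosure ℚ ≃ₐ[ℚ] AlgebraicClosure ℚ)

variable {A : ValuationSubring QQb} [IsAlgClosed (ResidueField A)] [IsAlgClosed QQb]
variable {F Fb : Type*} [Field F] [Field Fb] [Algebra QQb F] [Algebra (ResidueField A) Fb]
  [IsFunctionField QQb F] [IsFunctionField (ResidueField A) Fb]
variable {M : Model (residue A) F Fb} {ρ : GG →* SemilinearAut QQb F}

/-- A function of two variables is additive up to the product of the sizes of its increments. -/
structure Bil (μ ν : A.ValueGroup) (h : Bool × Bool → A) : Prop where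
  both : A.valuation ((h (true, true) : QQb) - h (true, false) - h (false, true) + h (false, false))
    ≤ μ * ν
  fst : A.valuation ((h (true, false) : QQb) - h (false, false)) ≤ μ
  snd : A.valuation ((h (false, true) : QQb) - h (false, false)) ≤ ν

theorem valuation_mul_le {a b : QQb} {x y : A.ValueGroup} (ha : A.valuation a ≤ x)
    (hb : A.valuation b ≤ y) : A.valuation (a * b) ≤ x * y := by
  rw [map_mul]; exact mul_le_mul' ha hb

theorem bil_of_adjoin {μ ν : A.ValueGroup} (hμ : μ ≤ 1) (hν : ν ≤ 1)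
    {gens : Set (Bool × Bool → A)} (hgens : ∀ g ∈ gens, Bil μ ν g) {h : Bool × Bool → A}
    (hh : h ∈ Algebra.adjoin A gens) : Bil μ ν h := by
  induction hh using Algebra.adjoin_induction with
  | mem g hg => exact hgens g hg
  | algebraMap a => constructor <;> simp
  | add f g _ _ hf hg =>
    refine ⟨?_, ?_, ?_⟩
    · rw [show ((f + g) (true, true) : QQb) - (f + g) (true, false) - (f + g) (false, true) +
          (f + g) (false, false) =
        ((f (true, true) : QQb) - f (true, false) - f (false, true) + f (false, false)) +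
          ((g (true, true) : QQb) - g (true, false) - g (false, true) + g (false, false)) by
            push_cast [Pi.add_apply]; ring]
      exact Valuation.map_add_le _ hf.both hg.both
    · rw [show ((f + g) (true, false) : QQb) - (f + g) (false, false) =
        ((f (true, false) : QQb) - f (false, false)) + ((g (true, false) : QQb) - g (false, false))
          by push_cast [Pi.add_apply]; ring]
      exact Valuation.map_add_le _ hf.fst hg.fst
    · rw [show ((f + g) (false, true) : QQb) - (f + g) (false, false) =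
        ((f (false, true) : QQb) - f (false, false)) + ((g (false, true) : QQb) - g (false, false))
          by push_cast [Pi.add_apply]; ring]
      exact Valuation.map_add_le _ hf.snd hg.snd
  | mul f g _ _ hf hg =>
    have hA1 : ∀ z : A, A.valuation (z : QQb) ≤ 1 := fun z => (A.valuation_le_one_iff _).2 z.2
    set F0 := (f (false, false) : QQb) with hF0
    set G0 := (g (false, false) : QQb) with hG0
    set a := (f (true, false) : QQb) - F0
    set b := (f (false, true) : QQb) - F0
    set d := (f (true, true) : QQb) - f (true, false) - f (false, true) + F0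
    set a' := (g (true, false) : QQb) - G0
    set b' := (g (false, true) : QQb) - G0
    set d' := (g (true, true) : QQb) - g (true, false) - g (false, true) + G0
    have ha : A.valuation a ≤ μ := hf.fst
    have hb : A.valuation b ≤ ν := hf.snd
    have hd : A.valuation d ≤ μ * ν := hf.both
    have ha' : A.valuation a' ≤ μ := hg.fst
    have hb' : A.valuation b' ≤ ν := hg.snd
    have hd' : A.valuation d' ≤ μ * ν := hg.both
    have hab : A.valuation (a + b) ≤ 1 := Valuation.map_add_le _ (ha.trans hμ) (hb.trans hν)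
    have hab' : A.valuation (a' + b') ≤ 1 := Valuation.map_add_le _ (ha'.trans hμ) (hb'.trans hν)
    have hμν : μ * ν ≤ 1 := mul_le_one' hμ hν
    refine ⟨?_, ?_, ?_⟩
    · rw [show ((f * g) (true, true) : QQb) - (f * g) (true, false) - (f * g) (false, true) +
          (f * g) (false, false) = d * G0 + (F0 * d' + (a * b' + (b * a' + ((a + b) * d' +
            (d * (a' + b') + d * d'))))) by
            simp only [a, b, d, a', b', d', hF0, hG0, Pi.mul_apply, MulMemClass.coe_mul]; ring]
      refine Valuation.map_add_le _ ((valuation_mul_le hd (hA1 _)).trans_eq (mul_one _)) ?_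
      refine Valuation.map_add_le _ ((valuation_mul_le (hA1 _) hd').trans_eq (one_mul _)) ?_
      refine Valuation.map_add_le _ (valuation_mul_le ha hb') ?_
      refine Valuation.map_add_le _ ((valuation_mul_le hb ha').trans_eq (mul_comm _ _)) ?_
      refine Valuation.map_add_le _ ((valuation_mul_le hab hd').trans_eq (one_mul _)) ?_
      exact Valuation.map_add_le _ ((valuation_mul_le hd hab').trans_eq (mul_one _))
        ((valuation_mul_le hd (hd'.trans hμν)).trans_eq (mul_one _))
    · rw [show ((f * g) (true, false) : QQb) - (f * g) (false, false) =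
          a * (g (true, false) : QQb) + F0 * a' by
            simp only [a, a', hF0, hG0, Pi.mul_apply, MulMemClass.coe_mul]; ring]
      exact Valuation.map_add_le _ ((valuation_mul_le ha (hA1 _)).trans_eq (mul_one _))
        ((valuation_mul_le (hA1 _) ha').trans_eq (one_mul _))
    · rw [show ((f * g) (false, true) : QQb) - (f * g) (false, false) =
          b * (g (false, true) : QQb) + F0 * b' by
            simp only [b, b', hF0, hG0, Pi.mul_apply, MulMemClass.coe_mul]; ring]
      exact Valuation.map_add_le _ ((valuation_mul_le hb (hA1 _)).trans_eq (mul_one _))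
        ((valuation_mul_le (hA1 _) hb').trans_eq (one_mul _))

set_option maxHeartbeats 2000000 in
/-- **A chart on the kernel of reduction.** -/
theorem exists_kernel_chart {ℓ : ℕ} [Fact ℓ.Prime] (hA : A.LiesOverPrime ℓ) (hM : M.Smooth)
    (hρ : IsArith ρ) (hx : ∀ σ, ρ σ • M.x = M.x) (hcoords : ∀ m, Nonempty (EqCoords M ρ m))
    (hfixdiv : ∀ D : Divisor QQb F, ∃ K : IntermediateField ℚ QQb, FiniteDimensional ℚ K ∧
      ∀ σ : GG, (∀ a ∈ K, σ a = a) → ρ σ • D = D) :
    ∃ (ι : Type) (_ : Fintype ι) (u : ι → Pic0 QQb F → QQb) (K : IntermediateField ℚ QQb),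
      FiniteDimensional ℚ K ∧
      (∀ y, redHom hM y = 0 → ∀ q, A.valuation (u q y) < 1) ∧
      (∀ y, redHom hM y = 0 → (∀ σ, ρ σ • y = y) → ∀ q, u q y ∈ K) ∧
      (∀ y z, redHom hM y = 0 → redHom hM z = 0 → ∀ μ ν : A.ValueGroup, μ ≤ 1 → ν ≤ 1 →
        (∀ q, A.valuation (u q y) ≤ μ) → (∀ q, A.valuation (u q z) ≤ ν) →
          ∀ q, A.valuation (u q (y + z) - u q y - u q z) ≤ μ * ν) ∧
      ∀ y, redHom hM y = 0 → (∀ q, u q y = 0) → y = 0 := by
  classical
  obtain ⟨m₀, hm₀⟩ := M.exists_le_mul (M.bound + 1 + max (rGenus QQb F) 0)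
  set d : ℤ := (m₀ : ℤ) * M.deg
  have hd : M.bound + 1 + max (rGenus QQb F) 0 ≤ d := hm₀ m₀ le_rfl
  obtain ⟨m, hm'⟩ := M.exists_le_mul (M.bound + 3 * d + 1)
  have hm : M.bound + 3 * d + 1 ≤ (m : ℤ) * M.deg := hm' m le_rfl
  have hb : rBound (ResidueField A) Fb + 1 ≤ M.bound := by rw [Model.bound]; omega
  have hb0 := rBound_nonneg (K := ResidueField A) (F := Fb)
  have hgen := hM.rGenus_eq
  obtain ⟨C₆⟩ := hcoords (6 * m)
  let C : EqCoords M ρ m := ⟨C₆.toCoords.mono' (by omega), C₆.equiv⟩
  obtain ⟨BG⟩ := exists_fixedBasis hM hρ hx (by omega) C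
  set G₀ := (m₀ : ℤ) • poleDiv QQb M.x with hG₀
  set G₀b := (m₀ : ℤ) • poleDiv (ResidueField A) M.xb
  have hG₀deg : Divisor.degree G₀ = d := M.degree_poles m₀
  have hG₀bdeg : Divisor.degree G₀b = d := M.degree_poles_red m₀
  have hG₀map : Model.divMap hM G₀ = G₀b := by rw [hG₀, map_zsmul, Model.divMap_poleDiv hM]
  -- one representative of the origin
  have hell : ell G₀b = d + 1 - rGenus QQb F := by rw [ell_eq (by omega), hG₀bdeg, hgen]
  obtain ⟨Pb, hPb, hPdeg', hP1⟩ := exists_points (E := G₀b) (by omega)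
  obtain ⟨P, -, hP, hPmap, -⟩ := exists_fixed_divisor hA hM hρ hx (by omega) BG hPb
  obtain ⟨K, hK, hKfix⟩ := hfixdiv P
  have hPdeg : Divisor.degree P = d - rGenus QQb F := by
    rw [← Model.degree_divMap hM, hPmap, hPdeg', hell]; ring
  obtain ⟨Db, hDb⟩ := exists_rep (G₀ := G₀b) (P := Pb) (y := (0 : Pic0 (ResidueField A) Fb))
    fun D hD => by
      rw [ell_eq_of_isPrincipal (D' := G₀b - Pb) ?_, hP1]
      rw [show (D : Divisor (ResidueField A) Fb) + G₀b - Pb - (G₀b - Pb) = D by abel]
      exact (QuotientAddGroup.eq_zero_iff D).1 hD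
  have hDb1 : ell (Db - Pb) = 1 := by
    obtain ⟨-, hd', hmk⟩ := hDb
    rw [← hP1]
    refine ell_eq_of_isPrincipal ?_
    rw [show Db - Pb - (G₀b - Pb) = Db - G₀b by abel]
    exact (QuotientAddGroup.eq_zero_iff (⟨Db - G₀b, hd'⟩ : Divisor.degZero)).1 hmk
  -- representatives of all classes in the kernel
  set X := (redHom hM).ker
  have hrepL : ∀ y : X, ∃ D, IsRep G₀ P (y : Pic0 QQb F) D := fun y => exists_rep fun D _ => by
    have h1 := riemann_ineq ((D : Divisor QQb F) + G₀ - P)
    rw [map_sub, map_add, Divisor.mem_degZero.1 D.2, hG₀deg, hPdeg] at h1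
    omega
  choose D hD using hrepL
  have hD0 : ∀ y, 0 ≤ D y := fun y => hP.trans (hD y).1
  have hDdeg : ∀ y, Divisor.degree (D y) = d := fun y => (hD y).degree.trans hG₀deg
  have hDmap : ∀ y, Model.divMap hM (D y) = Db := fun y => by
    refine hDb.unique ?_ hDb1.le
    have h := (hD y).map hM
    rwa [hG₀map, hPmap, show redHom hM (y : Pic0 QQb F) = 0 from y.2] at h
  have hDell : ∀ y, ell (D y - P) ≤ 1 := fun y => by
    have := ell_le_divMap hM (D y - P)
    rwa [map_sub, hDmap, hPmap, hDb1] at this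
  set G := (m : ℤ) • poleDiv QQb M.x with hG
  set Gb := (m : ℤ) • poleDiv (ResidueField A) M.xb
  obtain ⟨s, gE, hgm, hg, hg0⟩ :=
    exists_pivots C.toCoords (Vb := riemannRochSpace (Gb - Db))
  have hH1 := constRes_subsingleton (π := residue A) (⊤ : Subalgebra A (Unit → A))
  have hech : ∀ y : X, ∃ E : Fin _ → F,
      (∀ j, E j ∈ riemannRochSpace (G - D y)) ∧ (∀ j, M.Res (E j) (gE j)) ∧
      (∀ j l, C.coord (E j) (s l) = if l = j then 1 else 0) ∧
      ∀ f ∈ riemannRochSpace (G - D y), f = ∑ j, C.coord f (s j) • E j := by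
    intro y
    obtain ⟨B⟩ := exists_hbasis_const (H := (⊤ : Subalgebra A (Unit → A))) hH1 C.toCoords
      (U := riemannRochSpace (G - D y)) (rrSpace_le (sub_le_self _ (hD0 y)))
      (Vb := riemannRochSpace (Gb - Db))
      (by rw [Model.image_rrSpace hM (by rw [map_sub, M.degree_poles, hDdeg]; omega), map_sub,
        map_zsmul, Model.divMap_poleDiv hM, hDmap])
    obtain ⟨E, -, hE, hEr, hEs, hexp⟩ :=
      exists_echelon hH1 C.toCoords B s gE hgm hg hg0
    exact ⟨fun j => E j (), fun j => hE j (), fun j => hEr j (), fun j l => hEs j () l,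
      fun f hf => hexp () f hf⟩
  choose E hEmem hEres hEs hEexp using hech
  have hEG : ∀ y j, E y j ∈ polesSpace M m := fun y j =>
    rrSpace_le (sub_le_self _ (hD0 y)) (hEmem y j)
  let Q := Fin (Module.finrank (ResidueField A) (riemannRochSpace (Gb - Db))) × Fin BG.r
  have hres : ∀ (q : Q) (y : X), ∃ a : A, (a : QQb) = C.coord (E y q.1) (BG.piv q.2) ∧
      residue A a = C.coordb (gE q.1) (BG.piv q.2) := fun q y =>
    C.res _ _ (hEG y q.1) (hEres y q.1) (BG.piv q.2)
  choose t ht htres using hres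
  let u : Q → Pic0 QQb F → QQb := fun q y =>
    if h : redHom hM y = 0 then (t q ⟨y, h⟩ : QQb) - t q 0 else 0
  have hu : ∀ (q : Q) (y : X), u q y = (t q y : QQb) - t q 0 := fun q y => by
    simp only [u]
    rw [dif_pos (show redHom hM (y : Pic0 QQb F) = 0 from y.2)]
  haveI := hK
  refine ⟨Q, inferInstance, u, K, hK, fun y hy q => ?_, fun y hy hfixy q => ?_, ?_, ?_⟩
  · rw [show y = ((⟨y, hy⟩ : X) : Pic0 QQb F) from rfl, hu]
    exact (A.valuation_lt_one_iff (t q ⟨y, hy⟩ - t q 0)).1
      ((residue_eq_zero_iff _).1 (by rw [map_sub, htres, htres, sub_self]))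
  · rw [show y = ((⟨y, hy⟩ : X) : Pic0 QQb F) from rfl, hu]
    suffices ∀ z : X, (∀ σ, ρ σ • (z : Pic0 QQb F) = z) → (t q z : QQb) ∈ K by
      exact sub_mem (this _ hfixy) (this 0 fun σ => smul_zero (ρ σ))
    intro z hz
    haveI : Algebra.IsAlgebraic ℚ QQb := AlgebraicClosure.isAlgebraic ℚ
    haveI : IsAlgClosure ℚ QQb := ⟨inferInstance, inferInstance⟩
    haveI : Normal ℚ QQb := IsAlgClosure.normal ℚ _
    haveI : IsGalois ℚ QQb := { }
    rw [← InfiniteGalois.fixedField_fixingSubgroup K]
    rintro ⟨σ, hσ⟩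
    show σ (t q z : QQb) = t q z
    have hσK : ∀ a ∈ K, σ a = a := (IntermediateField.mem_fixingSubgroup_iff _ _).1 hσ
    have hDσ : ρ σ • D z = D z := by
      have hrep := (hD z).smul (ρ σ)
      rw [hG₀, smul_poles hx, hKfix σ hσK, hz] at hrep
      exact (hD z).unique hrep (hDell z)
    have hmem : ρ σ • E z q.1 ∈ riemannRochSpace (G - D z) := by
      have := smul_mem_rrSpace (hEmem z q.1) (ρ σ)
      rwa [smul_sub, hG, smul_poles hx, hDσ] at this
    have hEσ : ρ σ • E z q.1 = E z q.1 := by
      rw [hEexp z _ hmem, Finset.sum_eq_single q.1]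
      · rw [C.equiv, hEs, if_pos rfl, map_one, one_smul]
      · intro l _ hl
        rw [C.equiv, hEs, if_neg hl, map_zero, zero_smul]
      · simp
    rw [ht, ← C.equiv, hEσ]
  · intro y z hy hz μ ν hμ hν hμy hνz q
    set y' : X := ⟨y, hy⟩
    set z' : X := ⟨z, hz⟩
    let pr₁ : Bool × Bool → X := fun ω => if ω.1 then y' else 0
    let pr₂ : Bool × Bool → X := fun ω => if ω.2 then z' else 0
    set gens : Set (Bool × Bool → A) := {h | ∃ r : Q, (h = fun ω => t r (pr₁ ω)) ∨
      (h = fun ω => t r (pr₂ ω))}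
    set H := Algebra.adjoin A gens
    have hH : ConstRes (residue A) H := constRes_adjoin fun h hh ω ω' => by
      obtain ⟨r, rfl | rfl⟩ := hh <;> simp only [htres]
    have hbil : ∀ h ∈ H, Bil μ ν h := fun h hh => bil_of_adjoin hμ hν (fun g hg => by
      have hy1 : ∀ r, A.valuation ((t r y' : QQb) - t r 0) ≤ μ := fun r => by
        rw [← hu]; exact hμy r
      have hz1 : ∀ r, A.valuation ((t r z' : QQb) - t r 0) ≤ ν := fun r => by
        rw [← hu]; exact hνz r
      obtain ⟨r, rfl | rfl⟩ := hg
      · constructor <;> simp [pr₁, hy1 r]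
      · constructor <;> simp [pr₂, hz1 r]) hh
    obtain ⟨hli, hspan⟩ := pivots_span C.toCoords hgm hg hg0
    have hfamily : ∀ (pr : Bool × Bool → X), (∀ r, (fun ω => t r (pr ω)) ∈ H) →
        Nonempty (HBasis M H m (fun ω => riemannRochSpace (G - D (pr ω)))
          (riemannRochSpace (Gb - Db))) := by
      intro pr hmem
      refine ⟨⟨_, fun j ω => E (pr ω) j, gE, fun j => ?_, fun j ω => hEres _ j,
        hli, hspan, fun ω => le_antisymm (Submodule.span_le.2 ?_) fun f hf => ?_⟩⟩
      · rw [show (fun ω => E (pr ω) j) = ∑ n, fun ω =>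
            ((t (j, n) (pr ω) : A) : QQb) • BG.b n from funext fun ω => by
          rw [Finset.sum_apply]
          refine (BG.expand _ (hEG (pr ω) j)).trans (Finset.sum_congr rfl fun n _ => ?_)
          rw [ht (j, n) (pr ω)]]
        exact sum_mem fun n _ => smul_mem_hfSpan (h := fun ω => t (j, n) (pr ω)) (hmem _)
          (const_mem_hfSpan (BG.mem n) (BG.res n).mem)
      · rintro _ ⟨j, rfl⟩; exact hEmem _ j
      · rw [hEexp _ f hf]
        exact sum_mem fun j _ => Submodule.smul_mem _ _ (Submodule.subset_span ⟨j, rfl⟩)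
    obtain ⟨B₁⟩ := hfamily pr₁ fun r => Algebra.subset_adjoin ⟨r, Or.inl rfl⟩
    obtain ⟨B₂⟩ := hfamily pr₂ fun r => Algebra.subset_adjoin ⟨r, Or.inr rfl⟩
    obtain ⟨B₃⟩ := exists_hbasis_add hM hH (m := m) (m₀ := m₀) C₆.toCoords (d := d) rfl (by omega)
      (by omega) (D₃ := fun ω => D (pr₁ ω + pr₂ ω)) (P₃ := P) B₁ B₂
      (fun ω => hDdeg _) (fun ω => hDdeg _) (fun ω => hDdeg _)
      (fun ω => hDmap _) (fun ω => hDmap _) (fun ω => hDmap _) hP (fun ω => (hD _).1)
      (fun ω => (hD (pr₁ ω)).add (hD (pr₂ ω))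
        (by have h := hD (pr₁ ω + pr₂ ω); rwa [AddSubgroup.coe_add] at h))
      (by rw [hPmap, hDb1]) (fun ω => by
        have h1 := riemann_ineq (D (pr₁ ω + pr₂ ω) - P)
        rw [map_sub, hDdeg, hPdeg] at h1
        omega)
    obtain ⟨E₃, hE₃f, hE₃m, -, hE₃s, -⟩ :=
      exists_echelon hH C.toCoords B₃ s gE hgm hg hg0
    have hE₃ : ∀ j ω, E (pr₁ ω + pr₂ ω) j = E₃ j ω := fun j ω => by
      rw [hEexp _ _ (hE₃m j ω), Finset.sum_eq_single j]
      · rw [hE₃s, if_pos rfl, one_smul]
      · intro l _ hl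
        rw [hE₃s, if_neg hl, zero_smul]
      · simp
    obtain ⟨v, hv⟩ := exists_vec C.toCoords (hE₃f q.1)
    have hval : ∀ ω, ((v (BG.piv q.2) : Bool × Bool → A) ω : QQb) = t q (pr₁ ω + pr₂ ω) :=
      fun ω => by
        rw [ht, hE₃]
        exact congrFun (hv ω) (BG.piv q.2)
    have hb3 := (hbil _ (v (BG.piv q.2)).2).both
    simp only [hval, pr₁, pr₂, if_true, Bool.false_eq_true, if_false, add_zero, zero_add] at hb3
    rw [show y + z = ((y' + z' : X) : Pic0 QQb F) from rfl, show u q y = u q (y' : Pic0 QQb F)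
      from rfl, show u q z = u q (z' : Pic0 QQb F) from rfl, hu, hu, hu]
    convert hb3 using 2
    ring
  · intro y hy h0
    set y' : X := ⟨y, hy⟩
    have hEeq : ∀ j, E y' j = E 0 j := fun j => by
      rw [BG.expand _ (hEG y' j), BG.expand _ (hEG 0 j)]
      refine Finset.sum_congr rfl fun n _ => ?_
      have h := h0 (j, n)
      rw [show y = ((y' : X) : Pic0 QQb F) from rfl, hu, sub_eq_zero, ht, ht] at h
      rw [h]
    have hrr : riemannRochSpace (G - D y') = riemannRochSpace (G - D 0) := by
      apply le_antisymm <;> intro f hf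
      · rw [hEexp y' f hf]
        exact sum_mem fun j _ => Submodule.smul_mem _ _ (hEeq j ▸ hEmem 0 j)
      · rw [hEexp 0 f hf]
        exact sum_mem fun j _ => Submodule.smul_mem _ _ ((hEeq j).symm ▸ hEmem y' j)
    have hbL : rBound QQb F + 1 ≤ M.bound := by rw [Model.bound]; omega
    have hDxy : D y' = D 0 := sub_right_injective (eq_of_rrSpace_eq hrr
      (by rw [map_sub, M.degree_poles, hDdeg]; omega) (by rw [map_sub, M.degree_poles, hDdeg]; omega))
    obtain ⟨-, h1, e1⟩ := hD y'
    obtain ⟨-, h2, e2⟩ := hD 0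
    rw [show y = ((y' : X) : Pic0 QQb F) from rfl, ← e1, ← AddSubgroup.coe_zero (H := X), ← e2]
    exact congrArg Pic0.mk (Subtype.ext (congrArg (fun z => z - G₀) hDxy))

end FLTAgent.FlatModel
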