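import Fermat.Agent.FlatModel.Order

/-!
# Hopf orders on submodules, quotients and products
-/

set_option autoImplicit false

noncomputable section

open TensorProduct

namespace FLTAgent.FlatModel

local notation "QQb" => AlgebraicClosure ℚ
local notation "GG" => (AlgebraicClosure ℚ ≃ₐ[ℚ] AlgebraicClosure ℚ)

/-- A Galois stable subspace is spanned by its rational vectors. -/
theorem le_span_rational {ι : Type*} [Finite ι] (W : Submodule QQb (ι → QQb))
    (hW : ∀ (σ : GG), ∀ v ∈ W, (fun i => σ (v i)) ∈ W) :
    W ≤ Submodule.span QQb {v | v ∈ W ∧ ∀ i, ∃ q : ℚ, algebraMap ℚ QQb q = v i} := by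
  classical
  haveI : Fintype ι := Fintype.ofFinite ι
  let supp : (ι → QQb) → Finset ι := fun v => Finset.univ.filter fun i => v i ≠ 0
  suffices ∀ n, ∀ v ∈ W, (supp v).card = n →
      v ∈ Submodule.span QQb {v | v ∈ W ∧ ∀ i, ∃ q : ℚ, algebraMap ℚ QQb q = v i} from
    fun v hv => this _ v hv rfl
  intro n
  induction n using Nat.strong_induction_on with
  | _ n ih =>
    intro v hv hn
    by_cases h0 : v = 0
    · rw [h0]; exact Submodule.zero_mem _
    -- a vector of minimal support inside the support of `v`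
    set P : ℕ → Prop := fun m => ∃ u ∈ W, u ≠ 0 ∧ supp u ⊆ supp v ∧ (supp u).card = m
    have hex : ∃ m, P m := ⟨_, v, hv, h0, subset_rfl, rfl⟩
    obtain ⟨u, hu, hu0, husub, hucard⟩ := Nat.find_spec hex
    obtain ⟨a, ha⟩ := Function.ne_iff.1 hu0
    replace ha : u a ≠ 0 := ha
    set w : ι → QQb := (u a)⁻¹ • u with hw
    have hwa : w a = 1 := inv_mul_cancel₀ ha
    have hwW : w ∈ W := W.smul_mem _ hu
    have hwsupp : supp w ⊆ supp u := fun i hi => by
      simp only [supp, Finset.mem_filter, Finset.mem_univ, true_and, hw, Pi.smul_apply, smul_eq_mul,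
        mul_ne_zero_iff] at hi ⊢
      exact hi.2
    have hrat : ∀ i, ∃ q : ℚ, algebraMap ℚ QQb q = w i := fun i => exists_rat_of_fixed fun σ => by
      by_contra hne
      set d : ι → QQb := (fun i => σ (w i)) - w with hd
      have hdW : d ∈ W := W.sub_mem (hW σ w hwW) hwW
      have hd0 : d ≠ 0 := fun h => hne (sub_eq_zero.1 (congrFun h i))
      have hdsub : supp d ⊆ (supp u).erase a := fun j hj => by
        simp only [supp, Finset.mem_filter, Finset.mem_univ, true_and] at hj
        refine Finset.mem_erase.2 ⟨fun e => hj (by simp [hd, e, hwa]), hwsupp ?_⟩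
        simp only [supp, Finset.mem_filter, Finset.mem_univ, true_and]
        exact fun h => hj (by simp [hd, h])
      have hlt : (supp d).card < Nat.find hex := by
        rw [← hucard]
        exact (Finset.card_le_card hdsub).trans_lt (Finset.card_erase_lt_of_mem (by simp [supp, ha]))
      exact Nat.find_min hex hlt
        ⟨d, hdW, hd0, (hdsub.trans (Finset.erase_subset _ _)).trans husub, rfl⟩
    have hrest : v - v a • w ∈ Submodule.span QQb
        {v | v ∈ W ∧ ∀ i, ∃ q : ℚ, algebraMap ℚ QQb q = v i} := by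
      refine ih _ ?_ _ (W.sub_mem hv (W.smul_mem _ hwW)) rfl
      have hasupp : a ∈ supp v := husub (by simp [supp, ha])
      rw [← hn]
      refine (Finset.card_le_card (t := (supp v).erase a) fun j hj => ?_).trans_lt
        (Finset.card_erase_lt_of_mem hasupp)
      simp only [supp, Finset.mem_filter, Finset.mem_univ, true_and] at hj
      refine Finset.mem_erase.2 ⟨fun e => hj (by simp [e, hwa]), ?_⟩
      simp only [supp, Finset.mem_filter, Finset.mem_univ, true_and]
      intro hvj
      have hwj : w j = 0 := by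
        by_contra h
        have := husub (hwsupp (by simp [supp, h] : j ∈ supp w))
        simp [supp, hvj] at this
      exact hj (by simp [hvj, hwj])
    rw [show v = (v - v a • w) + v a • w by simp]
    exact Submodule.add_mem _ hrest (Submodule.smul_mem _ _ (Submodule.subset_span ⟨hwW, hrat⟩))

namespace HopfOrder

variable {ℓ : ℕ} [hl : Fact ℓ.Prime] {M M' N : Type*} [AddCommGroup M] [DistribMulAction GG M]
  [AddCommGroup M'] [DistribMulAction GG M'] [AddCommGroup N] [DistribMulAction GG N]

/-- Precomposition. -/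
def precomp (f : M' → M) : (M → QQb) →ₐ[Rl ℓ] (M' → QQb) :=
  Pi.algHom _ _ fun x => Pi.evalAlgHom (Rl ℓ) _ (f x)

omit hl [DistribMulAction GG M] [AddCommGroup M] [DistribMulAction GG M'] [AddCommGroup M'] in
theorem precomp_apply (f : M' → M) (g : M → QQb) (x : M') : precomp (ℓ := ℓ) f g x = g (f x) := rfl

variable (O : HopfOrder ℓ M)

omit hl in
theorem comul_map_mem (φ : M' → M) {T : Subalgebra (Rl ℓ) (M' → QQb)}
    (hT : ∀ g ∈ O.S, precomp (ℓ := ℓ) φ g ∈ T) {f : M → QQb} (hf : f ∈ O.S) :
    (fun p : M' × M' => f (φ p.1 + φ p.2)) ∈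
      Submodule.span (Rl ℓ) (Set.image2 (fun (a b : M' → QQb) (p : M' × M') => a p.1 * b p.2) T T) := by
  let Φ : (M × M → QQb) →ₗ[Rl ℓ] (M' × M' → QQb) :=
    (precomp (ℓ := ℓ) fun p : M' × M' => (φ p.1, φ p.2)).toLinearMap
  have h := Submodule.apply_mem_span_image_of_mem_span Φ (O.comul_mem f hf)
  refine Submodule.span_mono ?_ h
  rintro _ ⟨_, ⟨a, ha, b, hb, rfl⟩, rfl⟩
  exact ⟨_, hT a ha, _, hT b hb, rfl⟩

/-- The order on a submodule. -/
def restrict (i : M' →+ M) (hi : Function.Injective i) (heq : ∀ (σ : GG) x, i (σ • x) = σ • i x) :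
    HopfOrder ℓ M' where
  S := O.S.map (precomp i)
  fg := by
    have := O.fg.map (precomp (ℓ := ℓ) (i : M' → M)).toLinearMap
    rwa [← Subalgebra.map_toSubmodule] at this
  equivariant := by
    rintro _ ⟨f, hf, rfl⟩ σ x
    show f (i (σ • x)) = σ (f (i x))
    rw [heq, O.equivariant f hf]
  span_top := by
    classical
    rw [eq_top_iff]
    rintro g -
    obtain ⟨g', rfl⟩ : ∃ g' : M → QQb, g = fun x => g' (i x) :=
      ⟨Function.extend i g 0, funext fun x => (hi.extend_apply g 0 x).symm⟩
    have h := Submodule.apply_mem_span_image_of_mem_span (LinearMap.funLeft QQb QQb i)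
      (O.span_top ▸ Submodule.mem_top (x := g') : g' ∈ Submodule.span QQb (O.S : Set (M → QQb)))
    exact h
  comul_mem := by
    rintro _ ⟨f, hf, rfl⟩
    have h := O.comul_map_mem (φ := i) (T := O.S.map (precomp i))
      (fun g hg => ⟨g, hg, rfl⟩) hf
    have e : (fun p : M' × M' => precomp (ℓ := ℓ) (i : M' → M) f (p.1 + p.2)) =
        fun p => f (i p.1 + i p.2) := funext fun p => congrArg f (map_add i p.1 p.2)
    exact e ▸ h

variable [Finite M]

omit hl [Finite M] in
theorem mem_span_of_factor (π : M →+ M') (heq : ∀ (σ : GG) x, π (σ • x) = σ • π x) [Fact ℓ.Prime]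
    {g : M → QQb} (hg : ∀ x y, π x = π y → g x = g y) :
    g ∈ Submodule.span QQb {f : M → QQb | f ∈ O.S ∧ ∀ x y, π x = π y → f x = f y} := by
  classical
  set h : Module.Free.ChooseBasisIndex (Rl ℓ) O.S → M → QQb := fun i => (O.basis i : M → QQb)
  let L : (Module.Free.ChooseBasisIndex (Rl ℓ) O.S → QQb) →ₗ[QQb] (M → QQb) :=
    Fintype.linearCombination QQb h
  have hL : ∀ c x, L c x = ∑ i, c i * h i x := fun c x => by
    simp [L, Fintype.linearCombination_apply, Finset.sum_apply]
  let W : Submodule QQb (Module.Free.ChooseBasisIndex (Rl ℓ) O.S → QQb) :=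
    { carrier := {c | ∀ x y, π x = π y → L c x = L c y}
      zero_mem' := by simp
      add_mem' := fun {a b} ha hb x y e => by simp [map_add, ha x y e, hb x y e]
      smul_mem' := fun r a ha x y e => by simp [map_smul, ha x y e] }
  have hWst : ∀ (σ : GG), ∀ c ∈ W, (fun i => σ (c i)) ∈ W := by
    intro σ c hc x y e
    have key : ∀ z, L (fun i => σ (c i)) z = σ (L c (σ⁻¹ • z)) := fun z => by
      rw [hL, hL, map_sum]
      refine Finset.sum_congr rfl fun i _ => ?_
      rw [map_mul, ← O.equivariant _ (O.basis i).2, smul_inv_smul]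
    rw [key, key, hc (σ⁻¹ • x) (σ⁻¹ • y) (by rw [heq, heq, e])]
  obtain ⟨c, hc⟩ : ∃ c, L c = g := by
    have hspan : g ∈ Submodule.span QQb (Set.range h) := by
      have h1 : Submodule.span QQb (O.S : Set (M → QQb)) ≤ Submodule.span QQb (Set.range h) := by
        rw [Submodule.span_le]
        intro f hf
        have h1 : (⟨f, hf⟩ : O.S) ∈ Submodule.span (Rl ℓ) (Set.range O.basis) := by
          rw [O.basis.span_eq]; exact Submodule.mem_top
        have h2 := Submodule.apply_mem_span_image_of_mem_span O.S.toSubmodule.subtype h1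
        rw [← Set.range_comp] at h2
        exact Submodule.span_subset_span (Rl ℓ) QQb _ h2
      exact h1 (O.span_top ▸ Submodule.mem_top)
    rw [← Fintype.range_linearCombination] at hspan
    exact hspan
  have hcW : c ∈ W := fun x y e => by rw [hc]; exact hg x y e
  have hmem := Submodule.apply_mem_span_image_of_mem_span L (le_span_rational W hWst hcW)
  rw [hc] at hmem
  refine (Submodule.span_le.2 ?_) hmem
  rintro _ ⟨v, ⟨hvW, hvQ⟩, rfl⟩
  choose q hq using hvQ
  choose n hn using fun i => exists_denom (ℓ := ℓ) (q i)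
  set m := ∑ i, n i with hm
  have hmem' : ∀ i, (ℓ : ℚ) ^ m * q i ∈ Rl ℓ := fun i => by
    obtain ⟨k, hk⟩ := Nat.exists_eq_add_of_le (Finset.single_le_sum (f := n) (fun _ _ => Nat.zero_le _)
      (Finset.mem_univ i))
    rw [hm, hk, pow_add, mul_comm _ ((ℓ : ℚ) ^ k), mul_assoc]
    exact mul_mem (pow_mem (natCast_mem ℓ) _) (hn i)
  have hS : L ((algebraMap ℚ QQb ((ℓ : ℚ) ^ m)) • v) ∈ O.S := by
    have : L ((algebraMap ℚ QQb ((ℓ : ℚ) ^ m)) • v) = ∑ i, (⟨_, hmem' i⟩ : Rl ℓ) • h i := by
      funext x
      rw [hL, Finset.sum_apply]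
      refine Finset.sum_congr rfl fun i _ => ?_
      show _ = (⟨_, hmem' i⟩ : Rl ℓ) • h i x
      rw [smul_eq_algebraMap_mul]
      simp [← hq]
    rw [this]
    exact O.S.sum_mem fun i _ => O.S.smul_mem (O.basis i).2 _
  have hl0 : (algebraMap ℚ QQb ((ℓ : ℚ) ^ m)) ≠ 0 := by
    rw [Ne, map_eq_zero]
    exact pow_ne_zero _ (Nat.cast_ne_zero.2 (Fact.out : ℓ.Prime).ne_zero)
  rw [SetLike.mem_coe, ← inv_smul_smul₀ hl0 (L v), ← map_smul L]
  refine Submodule.smul_mem _ _ (Submodule.subset_span ⟨hS, fun x y e => ?_⟩)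
  exact W.smul_mem _ hvW x y e

/-- The order on a quotient. -/
def quotient (π : M →+ M') (hπ : Function.Surjective π)
    (heq : ∀ (σ : GG) x, π (σ • x) = σ • π x) : HopfOrder ℓ M' where
  S := O.S.comap (precomp π)
  fg := by
    let φ : (O.S.comap (precomp (ℓ := ℓ) (π : M → M'))) →ₗ[Rl ℓ] O.S :=
      { toFun := fun f => ⟨precomp (ℓ := ℓ) (π : M → M') f.1, f.2⟩
        map_add' := fun a b => rfl
        map_smul' := fun r a => rfl }
    have hφ : Function.Injective φ := fun a b h => by
      apply Subtype.ext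
      funext y
      obtain ⟨x, rfl⟩ := hπ y
      exact congrFun (congrArg Subtype.val h) x
    exact Module.Finite.iff_fg.1 (Module.Finite.of_injective φ hφ)
  equivariant := by
    intro f hf σ y
    obtain ⟨x, rfl⟩ := hπ y
    rw [← heq]
    exact O.equivariant _ hf σ x
  span_top := by
    classical
    rw [eq_top_iff]
    rintro g -
    have h := O.mem_span_of_factor π heq (g := fun x => g (π x)) fun x y e => by rw [e]
    obtain ⟨sec, hsec⟩ := hπ.hasRightInverse
    have h2 := Submodule.apply_mem_span_image_of_mem_span (LinearMap.funLeft QQb QQb sec) h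
    have e : (LinearMap.funLeft QQb QQb sec fun x => g (π x)) = g :=
      funext fun y => congrArg g (hsec y)
    rw [e] at h2
    refine Submodule.span_mono ?_ h2
    rintro _ ⟨f, ⟨hf, hfac⟩, rfl⟩
    show precomp (ℓ := ℓ) π _ ∈ O.S
    have : precomp (ℓ := ℓ) (π : M → M') (LinearMap.funLeft QQb QQb sec f) = f :=
      funext fun x => hfac _ _ (hsec (π x))
    rw [this]
    exact hf
  comul_mem := by
    classical
    intro f hf
    obtain ⟨sec, hsec⟩ := hπ.hasRightInverse
    -- the factoring part of the order is a direct summand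
    let T : Submodule (Rl ℓ) O.S :=
      { carrier := {a | ∀ x y, π x = π y → (a : M → QQb) x = (a : M → QQb) y}
        zero_mem' := fun _ _ _ => rfl
        add_mem' := fun {a b} ha hb x y e => by
          show (a : M → QQb) x + (b : M → QQb) x = (a : M → QQb) y + (b : M → QQb) y
          rw [ha x y e, hb x y e]
        smul_mem' := fun r a ha x y e => by
          show r • (a : M → QQb) x = r • (a : M → QQb) y
          rw [ha x y e] }
    haveI : Module.IsTorsionFree (Rl ℓ) (O.S ⧸ T) := by
      refine ⟨fun r hr a b hab => ?_⟩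
      obtain ⟨a, rfl⟩ := T.mkQ_surjective a
      obtain ⟨b, rfl⟩ := T.mkQ_surjective b
      simp only [Submodule.mkQ_apply, ← Submodule.Quotient.mk_smul, Submodule.Quotient.eq] at hab ⊢
      intro x y e
      have h := hab x y e
      replace h : r • (a : M → QQb) x - r • (b : M → QQb) x =
          r • (a : M → QQb) y - r • (b : M → QQb) y := h
      rw [← smul_sub, ← smul_sub] at h
      show (a : M → QQb) x - (b : M → QQb) x = (a : M → QQb) y - (b : M → QQb) y
      rw [smul_eq_algebraMap_mul, smul_eq_algebraMap_mul] at h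
      refine mul_left_cancel₀ ?_ h
      rw [Ne, map_eq_zero]
      exact fun h => hr.ne_zero (Subtype.ext h)
    haveI : Module.Free (Rl ℓ) (O.S ⧸ T) := Module.free_of_finite_type_torsion_free'
    obtain ⟨s, hs⟩ := Module.projective_lifting_property T.mkQ LinearMap.id T.mkQ_surjective
    let P : O.S →ₗ[Rl ℓ] O.S := LinearMap.id - s.comp T.mkQ
    have hPT : ∀ a, P a ∈ T := fun a => by
      rw [← Submodule.Quotient.mk_eq_zero, ← Submodule.mkQ_apply]
      have := LinearMap.congr_fun hs (T.mkQ a)
      simp only [LinearMap.comp_apply, LinearMap.id_apply] at this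
      simp only [P, LinearMap.sub_apply, LinearMap.comp_apply, LinearMap.id_apply, map_sub, this,
        sub_self]
    have hPfix : ∀ a ∈ T, P a = a := fun a ha => by
      have h0 : T.mkQ a = 0 := (Submodule.Quotient.mk_eq_zero T).2 ha
      simp only [P, LinearMap.sub_apply, LinearMap.comp_apply, LinearMap.id_apply, h0, map_zero,
        sub_zero]
    have hspan : ⊤ ≤ Submodule.span QQb (Set.range fun i => (O.basis i : M → QQb)) := by
      rw [← O.span_top, Submodule.span_le]
      intro f hf
      have h1 : (⟨f, hf⟩ : O.S) ∈ Submodule.span (Rl ℓ) (Set.range O.basis) := by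
        rw [O.basis.span_eq]; exact Submodule.mem_top
      have h2 := Submodule.apply_mem_span_image_of_mem_span O.S.toSubmodule.subtype h1
      rw [← Set.range_comp] at h2
      exact Submodule.span_subset_span (Rl ℓ) QQb _ h2
    set B := Module.Basis.mk O.linearIndependent_basis hspan
    let PL : (M → QQb) →ₗ[QQb] (M → QQb) := B.constr QQb fun i => (P (O.basis i) : M → QQb)
    have hPL : ∀ a : O.S, PL (a : M → QQb) = (P a : M → QQb) := by
      have : (PL.restrictScalars (Rl ℓ)).comp O.S.toSubmodule.subtype =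
          O.S.toSubmodule.subtype.comp P := O.basis.ext fun i => by
        show PL (O.basis i : M → QQb) = _
        rw [← show B i = (O.basis i : M → QQb) from Module.Basis.mk_apply .., B.constr_basis]
        rfl
      exact fun a => LinearMap.congr_fun this a
    have hPLfix : ∀ g : M → QQb, (∀ x y, π x = π y → g x = g y) → PL g = g := by
      intro g hg
      exact LinearMap.eqOn_span (R := QQb) (f := PL) (g := LinearMap.id)
        (fun a ha => (hPL ⟨a, ha.1⟩).trans (congrArg Subtype.val (hPfix ⟨a, ha.1⟩ ha.2)))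
        (O.mem_span_of_factor π heq hg)
    -- the comultiplication of the pullback
    set z := O.comulHom ⟨precomp (ℓ := ℓ) (π : M → M') f, hf⟩
    have hz : ∀ p, O.ev2 z p = f (π (p.1 + p.2)) := fun p => O.ev2_comulHom _ p
    have h1 : ∀ (w : O.S ⊗[Rl ℓ] O.S) (x y : M),
        O.ev2 (TensorProduct.map P LinearMap.id w) (x, y) = PL (fun t => O.ev2 w (t, y)) x := by
      intro w x y
      induction w with
      | zero => simp only [map_zero, Pi.zero_apply]; exact (congrFun (map_zero PL) x).symm
      | tmul a b =>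
          rw [TensorProduct.map_tmul, ev2_tmul, LinearMap.id_apply,
            show (fun t => O.ev2 (a ⊗ₜ b) (t, y)) = (b : M → QQb) y • (a : M → QQb) from
              funext fun t => by simp [ev2_tmul, mul_comm], map_smul, hPL]
          simp [mul_comm]
      | add a b ha hb =>
          simp only [map_add, Pi.add_apply, ha, hb]
          rw [← Pi.add_apply, ← map_add]
          rfl
    have h2 : ∀ (w : O.S ⊗[Rl ℓ] O.S) (x y : M),
        O.ev2 (TensorProduct.map LinearMap.id P w) (x, y) = PL (fun t => O.ev2 w (x, t)) y := by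
      intro w x y
      induction w with
      | zero => simp only [map_zero, Pi.zero_apply]; exact (congrFun (map_zero PL) y).symm
      | tmul a b =>
          rw [TensorProduct.map_tmul, ev2_tmul, LinearMap.id_apply,
            show (fun t => O.ev2 (a ⊗ₜ b) (x, t)) = (a : M → QQb) x • (b : M → QQb) from
              funext fun t => by simp [ev2_tmul], map_smul, hPL]
          simp
      | add a b ha hb =>
          simp only [map_add, Pi.add_apply, ha, hb]
          rw [← Pi.add_apply, ← map_add]
          rfl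
    set z' := TensorProduct.map P P z
    have hz' : ∀ p, O.ev2 z' p = f (π (p.1 + p.2)) := by
      rintro ⟨x, y⟩
      have e : z' = TensorProduct.map LinearMap.id P (TensorProduct.map P LinearMap.id z) := by
        rw [← LinearMap.comp_apply, ← TensorProduct.map_comp, LinearMap.id_comp, LinearMap.comp_id]
      have hfix1 : ∀ t, O.ev2 (TensorProduct.map P LinearMap.id z) (x, t) = f (π (x + t)) := by
        intro t
        rw [h1, hPLfix _ fun a b e' => by rw [hz, hz]; show f (π (a + t)) = f (π (b + t)); rw [map_add, map_add, e']]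
        exact hz _
      rw [e, h2, funext hfix1, hPLfix _ fun a b e' => by rw [map_add, map_add, e']]
    have key : ∀ w : O.S ⊗[Rl ℓ] O.S, (fun p : M' × M' =>
        O.ev2 (TensorProduct.map P P w) (sec p.1, sec p.2)) ∈ Submodule.span (Rl ℓ)
          (Set.image2 (fun (a b : M' → QQb) (p : M' × M') => a p.1 * b p.2)
            (O.S.comap (precomp (ℓ := ℓ) (π : M → M'))) (O.S.comap (precomp (ℓ := ℓ) (π : M → M')))) := by
      intro w
      induction w with
      | zero =>
          simp only [map_zero, Pi.zero_apply]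
          exact Submodule.zero_mem _
      | tmul a b =>
          have hmem : ∀ c : O.S, (fun y => (P c : M → QQb) (sec y)) ∈
              O.S.comap (precomp (ℓ := ℓ) (π : M → M')) := fun c => by
            show precomp (ℓ := ℓ) π _ ∈ O.S
            have : precomp (ℓ := ℓ) (π : M → M') (fun y => (P c : M → QQb) (sec y)) = (P c : M → QQb) :=
              funext fun x => hPT c _ _ (hsec (π x))
            rw [this]
            exact (P c).2
          exact Submodule.subset_span ⟨_, hmem a, _, hmem b, rfl⟩
      | add a b ha hb =>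
          simp only [map_add, Pi.add_apply]
          exact Submodule.add_mem _ ha hb
    have e : (fun p : M' × M' => f (p.1 + p.2)) = fun p => O.ev2 z' (sec p.1, sec p.2) :=
      funext fun p => by rw [hz', map_add, hsec, hsec]
    rw [e]
    exact key z

variable [Finite N]

/-- The order on a product. -/
def prod (P : HopfOrder ℓ N) : HopfOrder ℓ (M × N) where
  S := (Algebra.TensorProduct.lift
      ((precomp (ℓ := ℓ) (Prod.fst : M × N → M)).comp O.S.val)
      ((precomp (ℓ := ℓ) (Prod.snd : M × N → N)).comp P.S.val) fun _ _ => Commute.all _ _).range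
  fg := Module.Finite.iff_fg.1 (Module.Finite.range (Algebra.TensorProduct.lift
      ((precomp (ℓ := ℓ) (Prod.fst : M × N → M)).comp O.S.val)
      ((precomp (ℓ := ℓ) (Prod.snd : M × N → N)).comp P.S.val) fun _ _ => Commute.all _ _).toLinearMap)
  equivariant := by
    rintro _ ⟨w, rfl⟩ σ ⟨x, y⟩
    induction w with
    | zero => simp
    | tmul a b =>
        show (a : M → QQb) (σ • x) * (b : N → QQb) (σ • y) = σ ((a : M → QQb) x * (b : N → QQb) y)
        rw [O.equivariant _ a.2, P.equivariant _ b.2, map_mul]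
    | add a b ha hb => simp only [map_add, Pi.add_apply]; rw [ha, hb]
  span_top := by
    classical
    rw [eq_top_iff, ← (Pi.basisFun QQb (M × N)).span_eq, Submodule.span_le]
    rintro _ ⟨⟨x, y⟩, rfl⟩
    rw [SetLike.mem_coe, Pi.basisFun_apply]
    let B : (M → QQb) →ₗ[QQb] (N → QQb) →ₗ[QQb] (M × N → QQb) :=
      LinearMap.mk₂ QQb (fun a b p => a p.1 * b p.2) (fun a a' b => funext fun p => add_mul ..)
        (fun c a b => funext fun p => mul_assoc ..) (fun a b b' => funext fun p => mul_add ..)
        (fun c a b => funext fun p => mul_left_comm ..)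
    have e : (Pi.single (x, y) 1 : M × N → QQb) = B (Pi.single x 1) (Pi.single y 1) := by
      funext ⟨a, b⟩
      simp [B, Pi.single_apply, Prod.ext_iff, ← ite_and, and_comm]
    have h : B (Pi.single x 1) (Pi.single y 1) ∈
        Submodule.map₂ B (Submodule.span QQb (O.S : Set (M → QQb)))
          (Submodule.span QQb (P.S : Set (N → QQb))) := by
      rw [O.span_top, P.span_top]
      exact Submodule.apply_mem_map₂ _ Submodule.mem_top Submodule.mem_top
    rw [Submodule.map₂_span_span] at h
    rw [e]
    refine Submodule.span_mono ?_ h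
    rintro _ ⟨a, ha, b, hb, rfl⟩
    exact ⟨(⟨a, ha⟩ : O.S) ⊗ₜ ⟨b, hb⟩, rfl⟩
  comul_mem := by
    rintro _ ⟨w, rfl⟩
    induction w with
    | zero =>
        simp only [map_zero, Pi.zero_apply]
        exact Submodule.zero_mem _
    | add a b ha hb =>
        simp only [map_add, Pi.add_apply]
        exact Submodule.add_mem _ ha hb
    | tmul a b =>
        let B : (M × M → QQb) →ₗ[Rl ℓ] (N × N → QQb) →ₗ[Rl ℓ] ((M × N) × (M × N) → QQb) :=
          (LinearMap.mul (Rl ℓ) _).compl₁₂
            (precomp (ℓ := ℓ) fun p : (M × N) × (M × N) => (p.1.1, p.2.1)).toLinearMap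
            (precomp (ℓ := ℓ) fun p : (M × N) × (M × N) => (p.1.2, p.2.2)).toLinearMap
        have h := Submodule.apply_mem_map₂ B (O.comul_mem _ a.2) (P.comul_mem _ b.2)
        rw [Submodule.map₂_span_span] at h
        refine Submodule.span_mono ?_ h
        rintro _ ⟨_, ⟨a₁, ha₁, a₂, ha₂, rfl⟩, _, ⟨b₁, hb₁, b₂, hb₂, rfl⟩, rfl⟩
        refine ⟨_, ⟨(⟨a₁, ha₁⟩ : O.S) ⊗ₜ ⟨b₁, hb₁⟩, rfl⟩, _, ⟨(⟨a₂, ha₂⟩ : O.S) ⊗ₜ ⟨b₂, hb₂⟩, rfl⟩, ?_⟩
        funext p
        simp [B, precomp_apply]
        ring

end HopfOrder

end FLTAgent.FlatModel
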