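import Mathlib.Algebra.MonoidAlgebra.Basic
import Mathlib.Tactic.NoncommRing

/-!
# Relations of a pseudo-representation

If every element `g σ` has an adjoint `φ (t σ) - g σ`, antimultiplicative in `σ`, then a relation
among the `g σ` is sent by `t` to an element killed by the reducibility ideal.
-/

set_option autoImplicit false

namespace FLTAgent.FlatModel

variable {E H G : Type*} [Ring E] [CommRing H] [Group G] (φ : H →+* E) (g : G →* E) (t : G → H)

/-- The extension of `t` to formal combinations. -/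
noncomputable def formalTrace : (G →₀ ℤ) →+ H :=
  Finsupp.liftAddHom fun σ => zmultiplesHom _ (t σ)

theorem formalTrace_single (σ : G) (a : ℤ) : formalTrace t (Finsupp.single σ a) = a • t σ := by
  rw [formalTrace, Finsupp.liftAddHom_apply_single]
  rfl

theorem map_formalTrace_mul_eq_zero (hcomm : ∀ u σ, φ u * g σ = g σ * φ u)
    (hι : ∀ σ τ, φ (t (σ * τ)) - g (σ * τ) = (φ (t τ) - g τ) * (φ (t σ) - g σ))
    {x : G →₀ ℤ} (hx : (x.sum fun σ a => a • g σ) = 0) (σ τ z : G) :
    φ (formalTrace t x * (t (σ * τ * z) - t (τ * σ * z))) = 0 := by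
  set T := φ (formalTrace t x)
  have hT : ∀ h, (φ (t h) - g h) * T = T * (φ (t h) - g h) := fun h => by
    rw [sub_mul, mul_sub, ← map_mul, ← map_mul, mul_comm (t h), hcomm]
  have key : ∀ u, T * (φ (t u) - g u) =
      φ (formalTrace t (x.mapDomain (· * u))) := by
    intro u
    have h1 : ∀ y : G →₀ ℤ, φ (formalTrace t y) =
        (y.sum fun σ a => a • (φ (t σ) - g σ)) + y.sum fun σ a => a • g σ := fun y => by
      rw [← Finsupp.sum_add, formalTrace, Finsupp.liftAddHom_apply, map_finsuppSum]
      refine Finsupp.sum_congr fun σ _ => ?_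
      rw [← smul_add, sub_add_cancel, zmultiplesHom_apply, map_zsmul]
    have hTx : T = x.sum fun σ a => a • (φ (t σ) - g σ) := by
      show φ (formalTrace t x) = _
      rw [h1, hx, add_zero]
    have hm : ∀ F : G → E, ((x.mapDomain (· * u)).sum fun σ a => a • F σ) =
        x.sum fun σ a => a • F (σ * u) := fun F =>
      Finsupp.sum_mapDomain_index (h := fun σ a => a • F σ) (fun _ => zero_smul _ _)
        (fun _ _ _ => add_smul _ _ _)
    rw [← hT, hTx, h1, hm, hm]
    have h2 : (x.sum fun σ a => a • g (σ * u)) = 0 := by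
      have : (x.sum fun σ a => a • g (σ * u)) = (x.sum fun σ a => a • g σ) * g u := by
        rw [Finsupp.sum_mul]
        exact Finsupp.sum_congr fun σ _ => by rw [map_mul, smul_mul_assoc]
      rw [this, hx, zero_mul]
    rw [h2, add_zero, Finsupp.mul_sum]
    exact Finsupp.sum_congr fun σ _ => by rw [hι, mul_smul_comm]
  have hC : ∀ a b, T * (g (a * b) - g (b * a)) = 0 := fun a b => by
    have h := hcomm (formalTrace t (x.mapDomain (· * a))) b
    have h2 : T * g b = g b * T := hcomm _ b
    have h3 : φ (t a) * g b = g b * φ (t a) := hcomm _ b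
    rw [← key] at h
    rw [map_mul, map_mul]
    calc T * (g a * g b - g b * g a)
        = T * (φ (t a) * g b - g b * φ (t a)) - (T * (φ (t a) - g a) * g b -
            T * g b * (φ (t a) - g a)) := by noncomm_ring
      _ = 0 := by rw [h3, sub_self, mul_zero, h, h2, mul_assoc, sub_self, sub_self]
  have hι' : T * ((φ (t (σ * τ * z)) - g (σ * τ * z)) - (φ (t (τ * σ * z)) - g (τ * σ * z))) = 0 := by
    have hcs : φ (t σ) * φ (t τ) = φ (t τ) * φ (t σ) := by rw [← map_mul, mul_comm, map_mul]
    rw [hι (σ * τ) z, hι (τ * σ) z, ← mul_sub, ← mul_assoc, ← hT, mul_assoc, hι σ τ, hι τ σ,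
      show (φ (t τ) - g τ) * (φ (t σ) - g σ) - (φ (t σ) - g σ) * (φ (t τ) - g τ) =
        (φ (t τ) * φ (t σ) - φ (t σ) * φ (t τ)) + (g σ * φ (t τ) - φ (t τ) * g σ) +
          (φ (t σ) * g τ - g τ * φ (t σ)) + (g τ * g σ - g σ * g τ) by noncomm_ring,
      hcs, hcomm, hcomm, sub_self, sub_self, sub_self, add_zero, zero_add, zero_add,
      ← map_mul, ← map_mul, hC, mul_zero]
  rw [map_mul, map_sub]
  calc T * (φ (t (σ * τ * z)) - φ (t (τ * σ * z)))
      = T * ((φ (t (σ * τ * z)) - g (σ * τ * z)) - (φ (t (τ * σ * z)) - g (τ * σ * z))) +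
          T * (g (σ * τ) - g (τ * σ)) * g z := by rw [map_mul, map_mul g (τ * σ)]; noncomm_ring
    _ = 0 := by rw [hι', hC, zero_mul, add_zero]

end FLTAgent.FlatModel
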