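import Fermat.Agent.Specialization.Divisors

/-!
# Riemann–Roch spaces: base points, products and colons
-/

set_option autoImplicit false
set_option linter.style.haveILetI false
set_option linter.unusedSectionVars false

noncomputable section

namespace FLTAgent.FlatModel

open AlgebraicCurve FLTAgent.Curves FLTAgent.Specialization Polynomial IntermediateField

variable {K F : Type*} [Field K] [Field F] [Algebra K F] [IsAlgClosed K] [IsFunctionField K F]

theorem riemann_ineq (G : Divisor K F) : Divisor.degree G + 1 - rGenus K F ≤ ell G :=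
  (exists_riemann (K := K) (F := F)).choose_spec.choose_spec.2.1 G

variable (K F) in
theorem exists_place_notMem (S : Finset (Place K F)) : ∃ Q : Place K F, Q ∉ S := by
  by_contra! hS
  obtain ⟨x, hx, -⟩ := IsFunctionField.exists_transcendental (K := K) (F := F)
  have hxa : ∀ a : K, Transcendental K (x - algebraMap K F a) := fun a h => by
    have h2 := h.add (isAlgebraic_algebraMap (R := K) (A := F) a)
    rw [sub_add_cancel] at h2
    exact hx h2
  choose Q hQ using fun a : K => exists_ord_pos (K := K) (hxa a)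
  obtain ⟨a, b, hab, hQab⟩ := Finite.exists_ne_map_eq_of_infinite
    (fun a : K => (⟨Q a, hS (Q a)⟩ : {v // v ∈ S}))
  have hQab' : Q a = Q b := congrArg Subtype.val hQab
  have h1 : OrdGE (Q a) 1 ((x - algebraMap K F b) - (x - algebraMap K F a)) :=
    (ordGE_of_le (by rw [hQab']; exact hQ b)).sub (ordGE_of_le (hQ a))
  rw [sub_sub_sub_cancel_left, ← map_sub] at h1
  have h2 := h1.le_ord ((_root_.map_ne_zero _).2 (sub_ne_zero.2 hab))
  rw [ord_algebraMap] at h2
  omega

theorem exists_sub_one {E : Divisor K F} (h : 1 ≤ ell E) :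
    ∃ Q : Place K F, ell (E - Finsupp.single Q 1) = ell E - 1 := by
  classical
  obtain ⟨f, hf, hf0⟩ := (Submodule.ne_bot_iff (riemannRochSpace E)).1 fun hb => by
    rw [ell, hb, finrank_bot] at h; omega
  obtain ⟨Q, hQ⟩ := exists_place_notMem K F ((divOf K f).support ∪ E.support)
  simp only [Finset.mem_union, Finsupp.mem_support_iff, divOf_apply, not_or, not_not] at hQ
  refine ⟨Q, ?_⟩
  have hle : E - Finsupp.single Q 1 ≤ E := sub_le_self _ (Finsupp.single_nonneg.2 zero_le_one)
  have h1 := ell_sub_le hle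
  rw [map_sub, degree_single'] at h1
  have h2 : ell (E - Finsupp.single Q 1) < ell E := by
    rw [ell, ell, Nat.cast_lt]
    refine Submodule.finrank_lt_finrank_of_lt (lt_of_le_of_ne (rrSpace_le hle) fun he => ?_)
    have h3 := (mem_rrSpace.1 (he ▸ hf) Q).le_ord hf0
    rw [Finsupp.sub_apply, Finsupp.single_eq_same, hQ.1, hQ.2] at h3
    omega
  omega

/-- Imposing general points cuts a linear system down to one divisor. -/
theorem exists_points {E : Divisor K F} (h : 1 ≤ ell E) :
    ∃ P : Divisor K F, 0 ≤ P ∧ Divisor.degree P = ell E - 1 ∧ ell (E - P) = 1 := by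
  obtain ⟨n, hn⟩ : ∃ n : ℕ, ell E = n + 1 := ⟨(ell E - 1).toNat, by omega⟩
  induction n generalizing E with
  | zero => exact ⟨0, le_rfl, by rw [map_zero, hn]; rfl, by rw [sub_zero, hn]; rfl⟩
  | succ n ih =>
    obtain ⟨Q, hQ⟩ := exists_sub_one h
    obtain ⟨P, hP, hd, hl⟩ := ih (E := E - Finsupp.single Q 1) (by omega) (by rw [hQ, hn]; omega)
    refine ⟨Finsupp.single Q 1 + P, add_nonneg (Finsupp.single_nonneg.2 zero_le_one) hP, ?_, ?_⟩
    · rw [map_add, degree_single', hd, hQ]; ring
    · rw [← sub_sub]; exact hl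

/-- Division by a system without base points. -/
theorem colon_iff {B T : Divisor K F} (hB : rBound K F + 1 ≤ Divisor.degree B) {f : F} :
    (∀ q ∈ riemannRochSpace B, f * q ∈ riemannRochSpace T) ↔ f ∈ riemannRochSpace (T - B) := by
  refine ⟨fun h => mem_rrSpace.2 fun v => ?_, fun hf q hq => ?_⟩
  · obtain ⟨q, hq, hex⟩ := exists_exact hB v
    rcases eq_or_ne f 0 with rfl | hf
    · exact Or.inl rfl
    refine ordGE_of_le ?_
    have h1 := (mem_rrSpace.1 (h q hq) v).le_ord (mul_ne_zero hf hex.ne_zero)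
    rw [v.ord_mul hf hex.ne_zero, ((exact_iff hq).1 hex).2] at h1
    rw [Finsupp.sub_apply]
    omega
  · have := mem_rrSpace_mul hf hq
    rwa [sub_add_cancel] at this

/-- Products of sections span. -/
theorem span_mul {A B : Divisor K F} (hA : rBound K F + 1 ≤ Divisor.degree A)
    (hB : Divisor.degree A + rBound K F ≤ Divisor.degree B) :
    Submodule.span K (Set.image2 (· * ·) (riemannRochSpace A : Set F) (riemannRochSpace B)) =
      riemannRochSpace (A + B) := by
  classical
  refine le_antisymm (Submodule.span_le.2 ?_) ?_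
  · rintro _ ⟨a, ha, b, hb, rfl⟩; exact mem_rrSpace_mul ha hb
  obtain ⟨f₁, hf₁, hf₁0, -⟩ := exists_exact_many hA (∅ : Finset (Place K F))
  obtain ⟨f₂, hf₂, hf₂0, hs⟩ := exists_exact_many hA (divOf K f₁ + A).support
  have hex : ∀ Q, Exact A Q f₁ ∨ Exact A Q f₂ := fun Q => by
    by_cases hQ : Q ∈ (divOf K f₁ + A).support
    · exact Or.inr (hs Q hQ)
    · left
      rw [exact_iff hf₁]
      rw [Finsupp.notMem_support_iff, Finsupp.add_apply, divOf_apply] at hQ
      exact ⟨hf₁0, by omega⟩
  set V := (riemannRochSpace B).map (LinearMap.mulLeft K f₁) ⊔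
    (riemannRochSpace B).map (LinearMap.mulLeft K f₂)
  have hp : 2 * ell B ≤ Module.finrank K V + ell (B - A) := pencil hf₁0 hf₂0 hex hf₁ hf₂
  have hVle : V ≤ riemannRochSpace (A + B) := by
    refine sup_le ?_ ?_ <;> rintro _ ⟨a, ha, rfl⟩
    · exact mem_rrSpace_mul hf₁ ha
    · exact mem_rrSpace_mul hf₂ ha
  haveI : FiniteDimensional K V := Submodule.finiteDimensional_of_le hVle
  have hr := rBound_nonneg (K := K) (F := F)
  rw [ell_eq (by omega), ell_eq (by rw [map_sub]; omega), map_sub] at hp
  have h2 : ell (A + B) ≤ Module.finrank K V := by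
    rw [ell_eq (by rw [map_add]; omega), map_add]; omega
  rw [← Submodule.eq_of_le_of_finrank_le hVle (Nat.cast_le.1 h2)]
  refine sup_le ?_ ?_ <;> rintro _ ⟨a, ha, rfl⟩
  · exact Submodule.subset_span ⟨f₁, hf₁, a, ha, rfl⟩
  · exact Submodule.subset_span ⟨f₂, hf₂, a, ha, rfl⟩

/-- A linear system of dimension at most one contains one divisor. -/
theorem eq_of_linearEquiv {D D' P : Divisor K F} (hD : P ≤ D) (hD' : P ≤ D')
    (h : Divisor.IsPrincipal (D' - D)) (hl : ell (D - P) ≤ 1) : D' = D := by
  obtain ⟨f, hf, he⟩ := isPrincipal_iff.1 h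
  have hone : (1 : F) ∈ riemannRochSpace (D - P) := one_mem_rrSpace (sub_nonneg.2 hD)
  have hfm : f ∈ riemannRochSpace (D - P) := by
    rw [mem_rrSpace_iff_divOf hf, ← he, show D' - D + (D - P) = D' - P by abel]
    exact sub_nonneg.2 hD'
  have h1 : Submodule.span K {(1 : F)} = riemannRochSpace (D - P) := by
    refine Submodule.eq_of_le_of_finrank_le ((Submodule.span_singleton_le_iff_mem _ _).2 hone) ?_
    rw [finrank_span_singleton one_ne_zero]
    rw [ell] at hl
    exact_mod_cast hl
  obtain ⟨a, ha⟩ := Submodule.mem_span_singleton.1 (h1 ▸ hfm)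
  rw [← sub_eq_zero, he, ← ha, Algebra.smul_def, mul_one, divOf_algebraMap]

end FLTAgent.FlatModel
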