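import Fermat.Agent.FlatModel.Order
import Fermat.Agent.Specialization.Inputs
import Fermat.Agent.Places.Basic

/-!
# Descent of orders of functions from a place to `ℤ_(ℓ)`

An algebra of functions with values in the valuation ring of a place over `ℓ`, fixed by the
elements of the decomposition group fixing finitely many residues, comes from a Hopf order.
-/

set_option autoImplicit false
set_option linter.style.haveILetI false
set_option linter.unusedSectionVars false

noncomputable section

open scoped Pointwise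
open IsLocalRing

namespace FLTAgent.FlatModel

open FLTAgent.Frobenius (centre mem_centre_iff integralClosure_le)

local notation "QQb" => AlgebraicClosure ℚ
local notation "GG" => (AlgebraicClosure ℚ ≃ₐ[ℚ] AlgebraicClosure ℚ)
local notation "ZB" => integralClosure ℤ (AlgebraicClosure ℚ)

/-! ### The place -/

section Place

variable {V : ValuationSubring (AlgebraicClosure ℚ)} {ℓ : ℕ} [hl : Fact ℓ.Prime]
  (hV : V.LiesOverPrime ℓ)

/-- The inclusion of the algebraic integers. -/
def intInclusion (V : ValuationSubring (AlgebraicClosure ℚ)) : ZB →+* V :=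
  (ZB).val.toRingHom.codRestrict V.toSubring (integralClosure_le V)

theorem residue_intInclusion_eq_zero {b : ZB} :
    residue V (intInclusion V b) = 0 ↔ b ∈ centre V := by
  rw [residue_eq_zero_iff, ← ValuationSubring.coe_mem_nonunits_iff, mem_centre_iff]
  rfl

include hV

theorem exists_pow_mul_mem {x y : QQb} (hx : x ∈ V.nonunits) :
    ∃ N : ℕ, ∀ n, N ≤ n → x ^ n * y ∈ V.nonunits := by
  have hxV : x ∈ V := V.nonunits_le hx
  suffices h : ∃ N, x ^ N * y ∈ V by
    obtain ⟨N, hN⟩ := h
    refine ⟨N + 1, fun n hn => ?_⟩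
    obtain ⟨d, rfl⟩ := Nat.exists_eq_add_of_le hn
    rw [show x ^ (N + 1 + d) * y = x * (x ^ d * (x ^ N * y)) by ring]
    rw [V.mem_nonunits_iff, map_mul]
    exact mul_lt_one_of_lt_of_le (V.mem_nonunits_iff.1 hx)
      ((V.valuation_le_one_iff _).2 (mul_mem (pow_mem hxV d) hN))
  rcases eq_or_ne y 0 with rfl | hy
  · exact ⟨0, by simp⟩
  rcases eq_or_ne x 0 with rfl | hx0
  · exact ⟨1, by simp⟩
  have hres : residue V ⟨x, hxV⟩ = 0 := by
    rw [residue_eq_zero_iff, ← ValuationSubring.coe_mem_nonunits_iff]; exact hx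
  obtain ⟨n, hn⟩ := Specialization.rankOne_residue hV ⟨x, hxV⟩ y⁻¹ hres
    (fun h => hx0 (congrArg Subtype.val h)) (inv_ne_zero hy)
  refine ⟨n, ?_⟩
  rcases V.mem_or_inv_mem (y⁻¹ / x ^ n) with h | h
  · exact absurd h hn
  · rwa [inv_div, div_inv_eq_mul] at h

theorem exists_pow_residue_one {z : ResidueField V} (hz : z ≠ 0) : ∃ n, 0 < n ∧ z ^ n = 1 := by
  haveI := FrobTrace.charP_residueField (ℓ := ℓ) hV
  letI := ZMod.algebra (ResidueField V) ℓ
  haveI := FrobTrace.isAlgebraic_residueField (ℓ := ℓ) hV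
  have hint : IsIntegral (ZMod ℓ) z := (Algebra.IsAlgebraic.isAlgebraic z).isIntegral
  haveI := IntermediateField.adjoin.finiteDimensional hint
  haveI : Finite (IntermediateField.adjoin (ZMod ℓ) {z}) := Module.finite_of_finite (ZMod ℓ)
  set z' : IntermediateField.adjoin (ZMod ℓ) {z} :=
    ⟨z, IntermediateField.mem_adjoin_simple_self _ z⟩
  have hu : IsUnit z' := isUnit_iff_ne_zero.2 fun h => hz (congrArg Subtype.val h)
  refine ⟨orderOf hu.unit, orderOf_pos _, ?_⟩
  have h1 := congrArg Units.val (pow_orderOf_eq_one hu.unit)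
  rw [Units.val_pow_eq_pow_val, IsUnit.unit_spec, Units.val_one] at h1
  have h2 := congrArg Subtype.val h1
  push_cast [z'] at h2
  exact h2

/-- A rational number integral at the place is in `ℤ_(ℓ)`. -/
theorem mem_Rl_of_mem {q : ℚ} (hq : algebraMap ℚ QQb q ∈ V) : q ∈ Rl ℓ := by
  rcases eq_or_ne q 0 with rfl | hq0
  · exact zero_mem _
  obtain ⟨k, u, rfl⟩ := exists_eq_pow_mul (ℓ := ℓ) q hq0
  rcases le_or_gt 0 k with h | h
  · obtain ⟨n, rfl⟩ := Int.eq_ofNat_of_zero_le h
    rw [zpow_natCast]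
    exact mul_mem (pow_mem (natCast_mem ℓ) n) (u : Rl ℓ).2
  exfalso
  obtain ⟨n, hn⟩ := Int.eq_ofNat_of_zero_le (show (0 : ℤ) ≤ -k by omega)
  have hu' : algebraMap ℚ QQb (((u⁻¹ : (Rl ℓ)ˣ) : Rl ℓ) : ℚ) ∈ V := by
    have hden : ¬ ℓ ∣ (((u⁻¹ : (Rl ℓ)ˣ) : Rl ℓ) : ℚ).den := fun hd =>
      (hl.out.coprime_iff_not_dvd.1 (mem_Rl.1 ((u⁻¹ : (Rl ℓ)ˣ) : Rl ℓ).2).symm) hd
    set r := (((u⁻¹ : (Rl ℓ)ˣ) : Rl ℓ) : ℚ)
    rw [← V.valuation_le_one_iff, ← Rat.num_div_den r, map_div₀, map_div₀, map_natCast,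
      map_intCast, LocalEC.val_natCast_eq_one hV hl.out hden, div_one, V.valuation_le_one_iff]
    exact intCast_mem V _
  have h1 : ((ℓ : QQb) ^ n)⁻¹ ∈ V := by
    have h2 := mul_mem hq hu'
    rw [← map_mul, mul_assoc, show ((u : Rl ℓ) : ℚ) * (((u⁻¹ : (Rl ℓ)ˣ) : Rl ℓ) : ℚ) = 1 from
      congrArg Subtype.val u.mul_inv, mul_one, show k = -(n : ℤ) by omega, zpow_neg, zpow_natCast,
      map_inv₀, map_pow, map_natCast] at h2
    exact h2
  have h3 : V.valuation ((ℓ : QQb) ^ n) < 1 := by
    rw [map_pow]; exact pow_lt_one₀ zero_le' (Specialization.val_ell_lt_one hV) (by omega)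
  have h4 := (V.valuation_le_one_iff _).2 h1
  rw [map_inv₀] at h4
  exact (not_le.2 h3) ((inv_le_one₀ (zero_lt_iff.2 ((_root_.map_ne_zero _).2
    (pow_ne_zero _ (Nat.cast_ne_zero.2 hl.out.ne_zero))))).1 h4)

end Place

/-! ### Twisting functions -/

variable {M : Type*} [AddCommGroup M] [DistribMulAction GG M]

/-- The twist of a function by an automorphism. -/
def twist (σ : GG) : (M → QQb) →+* (M → QQb) where
  toFun f x := σ (f (σ⁻¹ • x))
  map_one' := funext fun _ => map_one σ
  map_mul' _ _ := funext fun _ => map_mul σ _ _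
  map_zero' := funext fun _ => map_zero σ
  map_add' _ _ := funext fun _ => map_add σ _ _

theorem twist_apply (σ : GG) (f : M → QQb) (x : M) : twist σ f x = σ (f (σ⁻¹ • x)) := rfl

theorem twist_mul (σ τ : GG) (f : M → QQb) : twist (σ * τ) f = twist σ (twist τ f) := by
  funext x
  simp [twist_apply, mul_smul, AlgEquiv.mul_apply]

theorem twist_one (f : M → QQb) : twist 1 f = f := by
  funext x; simp [twist_apply]

theorem twist_smul (σ : GG) (a : QQb) (f : M → QQb) : twist σ (a • f) = σ a • twist σ f :=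
  funext fun x => map_mul σ _ _

theorem twist_eq_self_iff {σ : GG} {f : M → QQb} :
    twist σ f = f ↔ ∀ x, f (σ • x) = σ (f x) := by
  constructor
  · intro h x
    conv_lhs => rw [← h]
    rw [twist_apply, inv_smul_smul]
  · intro h
    funext x
    rw [twist_apply, ← h, smul_inv_smul]

theorem span_range_flip_eq_top {κ α : Type*} [Field κ] {r : ℕ} (φ : α → Fin r → κ)
    (h : LinearIndependent κ fun j a => φ a j) : Submodule.span κ (Set.range φ) = ⊤ := by
  classical
  by_contra hne
  obtain ⟨f, hf, hker⟩ := Submodule.exists_le_ker_of_lt_top _ (lt_top_iff_ne_top.2 hne)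
  apply hf
  have hzero : ∀ j, f (Pi.single j 1) = 0 := by
    refine Fintype.linearIndependent_iff.1 h (fun j => f (Pi.single j 1)) (funext fun i => ?_)
    have h1 : f (φ i) = 0 := hker (Submodule.subset_span ⟨i, rfl⟩)
    rw [← Finset.univ_sum_single (φ i), map_sum] at h1
    simp only [Finset.sum_apply, Pi.smul_apply, Pi.zero_apply, smul_eq_mul]
    rw [← h1]
    refine Finset.sum_congr rfl fun j _ => ?_
    rw [show Pi.single j (φ i j) = φ i j • (Pi.single j (1 : κ) : Fin r → κ) by
      simp [← Pi.single_smul, smul_eq_mul], map_smul, smul_eq_mul, mul_comm]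
  refine LinearMap.pi_ext fun j x => ?_
  rw [show (Pi.single j x : Fin r → κ) = x • Pi.single j 1 by simp [← Pi.single_smul, smul_eq_mul],
    map_smul, hzero, smul_zero, LinearMap.zero_apply]

/-! ### Rational coefficients -/

theorem mem_span_Rl_of_mem_span {V : ValuationSubring QQb} {ℓ : ℕ} [hl : Fact ℓ.Prime]
    (hV : V.LiesOverPrime ℓ) {s : Set (M → QQb)} (hfin : s.Finite)
    (hs : ∀ f ∈ s, ∀ (σ : GG) x, f (σ • x) = σ (f x)) {f : M → QQb}
    (hf : ∀ (σ : GG) x, f (σ • x) = σ (f x)) (hmem : f ∈ Submodule.span V s) :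
    f ∈ Submodule.span (Rl ℓ) s := by
  classical
  set P := Submodule.span (Rl ℓ) s with hP
  haveI : Module.Finite (Rl ℓ) P := Module.Finite.iff_fg.2 ⟨hfin.toFinset, by rw [hfin.coe_toFinset]⟩
  haveI : Module.IsTorsionFree (Rl ℓ) P := by
    refine ⟨fun r hr a b hab => ?_⟩
    apply Subtype.ext
    funext x
    have h : r • (a : M → QQb) x = r • (b : M → QQb) x := congrFun (congrArg Subtype.val hab) x
    rw [smul_eq_algebraMap_mul, smul_eq_algebraMap_mul] at h
    exact mul_left_cancel₀ (by rw [Ne, map_eq_zero]; exact fun h => hr.ne_zero (Subtype.ext h)) h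
  haveI : Module.Free (Rl ℓ) P := Module.free_of_finite_type_torsion_free'
  set ι := Module.Free.ChooseBasisIndex (Rl ℓ) P
  haveI : Fintype ι := Fintype.ofFinite ι
  set b : Module.Basis ι (Rl ℓ) P := Module.Free.chooseBasis (Rl ℓ) P
  have hbeq : ∀ i (σ : GG) x, (b i : M → QQb) (σ • x) = σ ((b i : M → QQb) x) := by
    intro i σ x
    have := (b i).2
    revert this
    generalize (b i : M → QQb) = g
    intro hg
    induction hg using Submodule.span_induction with
    | mem g hg => exact hs g hg σ x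
    | zero => simp
    | add g g' _ _ h h' => simp [h, h']
    | smul r g _ h => simp [h, galois_smul_Rl]
  have hli : LinearIndependent QQb fun i => (b i : M → QQb) :=
    linearIndependent_of_equivariant (ℓ := ℓ) M hbeq
      (b.linearIndependent.map' P.subtype (Submodule.ker_subtype _))
  have hle : Submodule.span V s ≤ Submodule.span V (Set.range fun i => (b i : M → QQb)) := by
    refine Submodule.span_le.2 fun g hg => ?_
    have hsum : ∀ v : P, (v : M → QQb) = ∑ i, b.repr v i • (b i : M → QQb) := fun v => by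
      refine (congrArg P.subtype (b.sum_repr v)).symm.trans ?_
      rw [map_sum]
      rfl
    rw [show g = ((⟨g, Submodule.subset_span hg⟩ : P) : M → QQb) from rfl, hsum]
    refine Submodule.sum_mem _ fun i _ => ?_
    set r := b.repr ⟨g, Submodule.subset_span hg⟩ i
    have hr : algebraMap ℚ QQb (r : ℚ) ∈ V := by
      have hden : ¬ ℓ ∣ (r : ℚ).den := hl.out.coprime_iff_not_dvd.1 (mem_Rl.1 r.2).symm
      rw [← V.valuation_le_one_iff, ← Rat.num_div_den (r : ℚ), map_div₀, map_div₀, map_natCast,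
        map_intCast, LocalEC.val_natCast_eq_one hV hl.out hden, div_one, V.valuation_le_one_iff]
      exact intCast_mem V _
    have : r • (b i : M → QQb) = (⟨_, hr⟩ : V) • (b i : M → QQb) := funext fun x => by
      show r • (b i : M → QQb) x = algebraMap ℚ QQb (r : ℚ) * (b i : M → QQb) x
      rw [smul_eq_algebraMap_mul]
    rw [this]
    exact Submodule.smul_mem _ _ (Submodule.subset_span ⟨i, rfl⟩)
  obtain ⟨a, ha⟩ := (Submodule.mem_span_range_iff_exists_fun V).1 (hle hmem)
  have hfix : ∀ (σ : GG) i, σ (a i : QQb) = a i := by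
    intro σ i
    refine sub_eq_zero.1 (Fintype.linearIndependent_iff.1 hli
      (fun i => σ (a i : QQb) - a i) (funext fun y => ?_) i)
    have h1 := congrFun ha y
    have h2 := congrArg σ (congrFun ha (σ⁻¹ • y))
    rw [← hf, smul_inv_smul] at h2
    simp only [Finset.sum_apply, Pi.smul_apply, map_sum] at h1 h2
    simp only [Finset.sum_apply, Pi.smul_apply, smul_eq_mul, Pi.zero_apply, sub_mul,
      Finset.sum_sub_distrib]
    rw [sub_eq_zero]
    refine Eq.trans ?_ (h2.trans h1.symm)
    refine Finset.sum_congr rfl fun j _ => ?_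
    show σ (a j : QQb) * (b j : M → QQb) y = σ ((a j : QQb) * (b j : M → QQb) (σ⁻¹ • y))
    rw [map_mul, ← hbeq, smul_inv_smul]
  rw [← ha]
  refine Submodule.sum_mem _ fun i _ => ?_
  obtain ⟨q, hq⟩ := exists_rat_of_fixed (fun σ => hfix σ i)
  have hqR : q ∈ Rl ℓ := mem_Rl_of_mem hV (hq ▸ (a i).2)
  have : a i • (b i : M → QQb) = (⟨q, hqR⟩ : Rl ℓ) • (b i : M → QQb) := funext fun x => by
    show (a i : QQb) * (b i : M → QQb) x = (⟨q, hqR⟩ : Rl ℓ) • (b i : M → QQb) x
    rw [smul_eq_algebraMap_mul, hq]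
  rw [this]
  exact Submodule.smul_mem _ _ (b i).2

/-! ### The descent -/

local instance isAlgebraicQQb : Algebra.IsAlgebraic ℚ (AlgebraicClosure ℚ) :=
  AlgebraicClosure.isAlgebraic ℚ

local instance isAlgClosureQQb : IsAlgClosure ℚ (AlgebraicClosure ℚ) :=
  ⟨inferInstance, inferInstance⟩

local instance normalQQb : Normal ℚ (AlgebraicClosure ℚ) := IsAlgClosure.normal ℚ _

local instance isGaloisQQb : IsGalois ℚ (AlgebraicClosure ℚ) where

local instance : TopologicalSpace ZB := ⊥
local instance : DiscreteTopology ZB := ⟨rfl⟩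

local instance continuousSMulZB : ContinuousSMul GG ZB := by
  rw [continuousSMul_iff_stabilizer_isOpen]
  intro b
  have : MulAction.stabilizer GG b = MulAction.stabilizer GG (b : QQb) := by
    ext g
    simp only [MulAction.mem_stabilizer_iff, Subtype.ext_iff, integralClosure.coe_smul]
  rw [this]
  exact stabilizer_isOpen_of_isIntegral (b : QQb)

/-- An open normal subgroup of finite index fixing given finite data. -/
theorem exists_fixer [Finite M] (hcont : ∀ x : M, IsOpen (MulAction.stabilizer GG x : Set GG))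
    {s : Set QQb} (hs : s.Finite) :
    ∃ H : Subgroup GG, H.Normal ∧ IsClosed (H : Set GG) ∧ Finite (GG ⧸ H) ∧
      (∀ h ∈ H, ∀ x : M, h • x = x) ∧ ∀ h ∈ H, ∀ a ∈ s, h a = a := by
  set U : Set GG := (⋂ x : M, (MulAction.stabilizer GG x : Set GG)) ∩
    ⋂ a ∈ s, (MulAction.stabilizer GG (a : QQb) : Set GG)
  have hUo : IsOpen U := (isOpen_iInter_of_finite hcont).inter
    (hs.isOpen_biInter fun a _ => stabilizer_isOpen_of_isIntegral (K := ℚ) a)
  have h1 : (1 : GG) ∈ U := by simp [U]
  obtain ⟨E, hfin, hnor, hE⟩ :=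
    (krullTopology_mem_nhds_one_iff_of_normal ℚ QQb U).1 (hUo.mem_nhds h1)
  haveI := hnor
  haveI := hfin
  have hker := (IntermediateField.restrictNormalHom_ker E).symm
  refine ⟨E.fixingSubgroup, hker ▸ inferInstance,
    Subgroup.isClosed_of_isOpen _ E.fixingSubgroup_isOpen, ?_,
    fun h hh x => (Set.mem_iInter.1 (hE hh).1 x : h ∈ MulAction.stabilizer GG x),
    fun h hh a ha => (Set.mem_iInter₂.1 (hE hh).2 a ha : h ∈ MulAction.stabilizer GG a)⟩
  rw [hker]
  exact Finite.of_injective _ (QuotientGroup.kerLift_injective _)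

/-- Invariant integers separate the place from its translates outside `D * H`. -/
theorem exists_invariant_sep {V : ValuationSubring QQb} {ℓ : ℕ} [hl : Fact ℓ.Prime]
    (hV : V.LiesOverPrime ℓ) {H : Subgroup GG} (hclosed : IsClosed (H : Set GG)) {g : GG}
    (hg : ∀ h ∈ H, h * g ∉ V.decompositionSubgroup ℚ) :
    ∃ b : ZB, (∀ h ∈ H, h • b = b) ∧ b ∈ centre (g • V) ∧ b ∉ centre V := by
  let B₀ := FixedPoints.subalgebra ℤ ZB H
  have : Algebra.IsInvariant B₀ ZB H := ⟨fun b hb ↦ ⟨⟨b, hb⟩, rfl⟩⟩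
  have : CompactSpace H := isCompact_iff_compactSpace.mp hclosed.isCompact
  have hsmulC : SMulCommClass H B₀ ZB := ⟨fun k b x ↦ by
    change k • ((b : ZB) * x) = (b : ZB) * k • x
    rw [smul_mul', b.2 k]⟩
  have hcont : ContinuousSMul H ZB :=
    ⟨(continuous_smul (M := GG) (X := ZB)).comp
      ((continuous_subtype_val.comp continuous_fst).prodMk continuous_snd)⟩
  haveI : Algebra.IsIntegral B₀ ZB := Algebra.IsIntegral.tower_top (R := ℤ)
  have hmax : ∀ W : ValuationSubring QQb, W.LiesOverPrime ℓ → ((centre W).under B₀).IsMaximal := by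
    intro W hW
    haveI : (centre W).IsMaximal := by
      refine Ideal.isMaximal_of_isIntegral_of_isMaximal_comap (R := ℤ) _ ?_
      rw [show (centre W).comap (algebraMap ℤ ZB) = (centre W).under ℤ from rfl,
        Places.under_int_eq hl.out (Places.natCast_mem_centre W hW)]
      exact PrincipalIdealRing.isMaximal_of_irreducible
        (Nat.prime_iff_prime_int.mp hl.out).irreducible
    exact Ideal.isMaximal_comap_of_isIntegral_of_isMaximal _
  have hne : ¬ (centre (g • V)).under B₀ ≤ (centre V).under B₀ := by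
    intro hle
    have heq := (hmax _ (Places.liesOverPrime_smul V g hV)).eq_of_le (hmax V hV).ne_top hle
    obtain ⟨h, hh⟩ := Algebra.IsInvariant.exists_smul_of_under_eq_of_profinite (A := B₀) (G := H)
      (centre (g • V)) (centre V) heq
    refine hg h h.2 ?_
    rw [MulAction.mem_stabilizer_iff]
    refine Places.eq_of_centre_eq ?_
    rw [mul_smul, Places.centre_smul _ (h : GG)]
    exact hh.symm
  obtain ⟨b, hb, hb'⟩ := SetLike.not_le_iff_exists.1 hne
  exact ⟨b, fun h hh => b.2 ⟨h, hh⟩, hb, hb'⟩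

theorem exists_finset_orbit {H U : Subgroup GG} [Finite (GG ⧸ H)] {b : ZB}
    (hb : ∀ h ∈ H, h • b = b) :
    ∃ O : Finset ZB, b ∈ O ∧ (∀ z ∈ O, ∃ u ∈ U, z = u • b) ∧
      ∀ u ∈ U, O.image (u • ·) = O := by
  classical
  set S : Set ZB := {z | ∃ u ∈ U, z = u • b}
  have hfin : S.Finite := (Set.finite_range fun q : GG ⧸ H => q.out • b).subset <| by
    rintro _ ⟨u, -, rfl⟩
    obtain ⟨h, hh⟩ := QuotientGroup.mk_out_eq_mul H u
    exact ⟨(u : GG ⧸ H), by simp only [hh]; rw [mul_smul, hb _ h.2]⟩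
  refine ⟨hfin.toFinset, hfin.mem_toFinset.2 ⟨1, one_mem U, (one_smul _ b).symm⟩,
    fun z hz => hfin.mem_toFinset.1 hz, fun u hu => ?_⟩
  ext z
  simp only [Finset.mem_image, Set.Finite.mem_toFinset]
  constructor
  · rintro ⟨y, ⟨v, hv, rfl⟩, rfl⟩; exact ⟨u * v, mul_mem hu hv, (mul_smul _ _ _).symm⟩
  · rintro ⟨v, hv, rfl⟩
    exact ⟨(u⁻¹ * v) • b, ⟨_, mul_mem (inv_mem hu) hv, rfl⟩, by rw [← mul_smul, mul_inv_cancel_left]⟩

theorem smul_mem_centre_iff {V : ValuationSubring QQb} {σ : GG}
    (hσ : σ ∈ V.decompositionSubgroup ℚ) {b : ZB} : σ • b ∈ centre V ↔ b ∈ centre V := by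
  conv_lhs => rw [← MulAction.mem_stabilizer_iff.1 hσ, Places.centre_smul,
    Ideal.mem_pointwise_smul_iff_inv_smul_mem, inv_smul_smul]

/-- Coefficients in the residues fixed by an automorphism force it to fix the residues of a finite
orbit. -/
theorem smul_sub_mem_centre {V : ValuationSubring QQb} {U : Subgroup GG} {φ : GG}
    (hφ : φ ∈ V.decompositionSubgroup ℚ)
    (hfix : ∀ z : ZB, (∀ u ∈ U, u • z = z) → φ • z - z ∈ centre V) {a : ZB} {O : Finset ZB}
    (haO : a ∈ O) (hO : ∀ u ∈ U, O.image (u • ·) = O) (hcong : ∀ z ∈ O, z - a ∈ centre V) :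
    φ • a - a ∈ centre V := by
  classical
  set P : Polynomial ZB := ∏ z ∈ O, (Polynomial.X - Polynomial.C z) with hP
  have hinv : ∀ u ∈ U, ∀ i, u • P.coeff i = P.coeff i := fun u hu i => by
    have h1 : P.map (MulSemiringAction.toRingHom GG ZB u) = P := by
      rw [hP, Polynomial.map_prod]
      conv_rhs => rw [← hO u hu, Finset.prod_image fun x _ y _ h => smul_left_cancel u h]
      simp
    conv_rhs => rw [← h1, Polynomial.coeff_map]
    rfl
  set ψ : ZB →+* ResidueField V := (residue V).comp (intInclusion V)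
  set ψ' : ZB →+* ResidueField V := ψ.comp (MulSemiringAction.toRingHom GG ZB φ)
  have hmap : P.map ψ' = P.map ψ := Polynomial.ext fun i => by
    rw [Polynomial.coeff_map, Polynomial.coeff_map]
    show ψ (φ • P.coeff i) = ψ (P.coeff i)
    rw [← sub_eq_zero, ← map_sub]
    exact residue_intInclusion_eq_zero.2 (hfix _ fun u hu => hinv u hu i)
  have h0 : (P.map ψ').eval (ψ' a) = 0 := by
    rw [Polynomial.eval_map_apply, hP, Polynomial.eval_prod,
      Finset.prod_eq_zero haO (by simp), map_zero]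
  rw [hmap, hP, Polynomial.map_prod, Polynomial.eval_prod, Finset.prod_eq_zero_iff] at h0
  obtain ⟨z, hz, hz0⟩ := h0
  rw [Polynomial.map_sub, Polynomial.map_X, Polynomial.map_C, Polynomial.eval_sub,
    Polynomial.eval_X, Polynomial.eval_C] at hz0
  have h1 : φ • a - z ∈ centre V := residue_intInclusion_eq_zero.1 (by
    rw [show residue V (intInclusion V (φ • a - z)) = ψ' a - ψ z from map_sub ψ _ _]; exact hz0)
  simpa using add_mem h1 (hcong z hz)

theorem prod_smul_eq {U : Subgroup GG} {O : Finset ZB} (hO : ∀ u ∈ U, O.image (u • ·) = O) :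
    ∀ u ∈ U, u • (∏ z ∈ O, z) = ∏ z ∈ O, z := fun u hu => by
  classical
  rw [Finset.smul_prod']
  conv_rhs => rw [← hO u hu, Finset.prod_image fun x _ y _ h => smul_left_cancel u h]

theorem adjoin_mul_span_le {V : ValuationSubring QQb} {S : Subalgebra V (M → QQb)}
    {f g : M × M → QQb}
    (hf : f ∈ Submodule.span V (Set.image2 (fun (a b : M → QQb) (p : M × M) => a p.1 * b p.2) S S))
    (hg : g ∈ Submodule.span V (Set.image2 (fun (a b : M → QQb) (p : M × M) => a p.1 * b p.2) S S)) :
    f * g ∈ Submodule.span V (Set.image2 (fun (a b : M → QQb) (p : M × M) => a p.1 * b p.2) S S) := by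
  have h := Submodule.mul_mem_mul hf hg
  rw [Submodule.span_mul_span] at h
  refine Submodule.span_mono ?_ h
  rintro _ ⟨_, ⟨a, ha, b, hb, rfl⟩, _, ⟨a', ha', b', hb', rfl⟩, rfl⟩
  exact ⟨a * a', mul_mem ha ha', b * b', mul_mem hb hb', funext fun p => by
    simp only [Pi.mul_apply]; ring⟩

set_option maxHeartbeats 1000000 in
/-- An algebra of functions with values in the ring of a place over `ℓ`, closed under
comultiplication and fixed by the automorphisms fixing finitely many residues, gives a Hopf order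
over `ℤ_(ℓ)`. -/
theorem exists_hopfOrder {V : ValuationSubring QQb} {ℓ : ℕ} [hl : Fact ℓ.Prime]
    (hV : V.LiesOverPrime ℓ) [Finite M]
    (hcont : ∀ x : M, IsOpen (MulAction.stabilizer GG x : Set GG))
    (C : Set (M → QQb)) (hC : C.Finite) (hval : ∀ c ∈ C, ∀ x, c x ∈ V) (R₀ : Finset ZB)
    (hinv : ∀ σ ∈ V.decompositionSubgroup ℚ, (∀ a ∈ R₀, σ • a - a ∈ centre V) →
      ∀ c ∈ C, ∀ x, c (σ • x) = σ (c x))
    (hsep : ∀ x y : M, x ≠ y → ∃ c ∈ C, c x ≠ c y)
    (hcomul : ∀ c ∈ C, (fun p : M × M => c (p.1 + p.2)) ∈ Submodule.span V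
      (Set.image2 (fun (a b : M → QQb) (p : M × M) => a p.1 * b p.2)
        (Algebra.adjoin V C) (Algebra.adjoin V C))) :
    Nonempty (HopfOrder ℓ M) := by
  classical
  haveI : Fintype M := Fintype.ofFinite M
  set D := V.decompositionSubgroup ℚ
  obtain ⟨H, hHn, hHc, hHf, hHM, hHs⟩ := exists_fixer hcont
    (s := ((fun a : ZB => (a : QQb)) '' R₀) ∪ ⋃ c ∈ C, Set.range c)
    ((R₀.finite_toSet.image _).union (hC.biUnion fun c _ => Set.finite_range c))
  haveI := hHn
  haveI := hHf
  have hHR : ∀ h ∈ H, ∀ a ∈ R₀, h • a = a := fun h hh a ha =>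
    Subtype.ext (hHs h hh _ (Or.inl ⟨a, ha, rfl⟩))
  have hHC : ∀ h ∈ H, ∀ c ∈ C, twist h c = c := fun h hh c hc => twist_eq_self_iff.2 fun x => by
    rw [hHM h hh, hHs h hh _ (Or.inr (Set.mem_biUnion hc ⟨x, rfl⟩))]
  have hHg : ∀ h ∈ H, ∀ (g : GG) (a : ZB), a ∈ R₀ → h • g • a = g • a := fun h hh g a ha => by
    rw [smul_smul, show h * g = g * (g⁻¹ * h * g) by group, mul_smul,
      hHR _ (by simpa using hHn.conj_mem h hh g⁻¹) a ha]
  -- the part of the decomposition group fixing the residues of all conjugates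
  let D' : Subgroup GG :=
    { carrier := {σ | σ ∈ D ∧ ∀ a ∈ R₀, ∀ g : GG, σ • g • a - g • a ∈ centre V}
      one_mem' := ⟨one_mem D, fun a _ g => by simp⟩
      mul_mem' := by
        rintro σ τ ⟨hσ, hσ'⟩ ⟨hτ, hτ'⟩
        refine ⟨mul_mem hσ hτ, fun a ha g => ?_⟩
        have h := add_mem ((smul_mem_centre_iff hσ).2 (hτ' a ha g)) (hσ' a ha g)
        rwa [smul_sub, sub_add_sub_cancel, ← mul_smul] at h
      inv_mem' := by
        rintro σ ⟨hσ, hσ'⟩
        refine ⟨inv_mem hσ, fun a ha g => ?_⟩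
        have h := neg_mem ((smul_mem_centre_iff (inv_mem hσ)).2 (hσ' a ha g))
        rwa [smul_sub, inv_smul_smul, neg_sub] at h }
  have hD'C : ∀ σ ∈ D', ∀ c ∈ C, twist σ c = c := fun σ hσ c hc =>
    twist_eq_self_iff.2 (hinv σ hσ.1 (fun a ha => by simpa using hσ.2 a ha 1) c hc)
  have hD'conj : ∀ d ∈ D, ∀ σ ∈ D', d⁻¹ * σ * d ∈ D' := fun d hd σ hσ => by
    refine ⟨mul_mem (mul_mem (inv_mem hd) hσ.1) hd, fun a ha g => ?_⟩
    have h := (smul_mem_centre_iff (inv_mem hd)).2 (hσ.2 a ha (d * g))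
    rwa [smul_sub, mul_smul, inv_smul_smul, ← mul_smul, ← mul_smul, ← mul_smul] at h
  set U : Subgroup GG := D' ⊔ H with hU
  have hUmem : ∀ u ∈ U, ∃ d ∈ D', ∃ h ∈ H, d * h = u := fun u hu =>
    Subgroup.mem_sup_of_normal_right.1 hu
  haveI : Finite (GG ⧸ U) := Finite.of_surjective
    (Quotient.map' id fun a b hab => by
      rw [QuotientGroup.leftRel_apply] at hab ⊢
      exact le_sup_right (a := D') hab : GG ⧸ H → GG ⧸ U)
    fun q => Quotient.inductionOn' q fun g => ⟨(g : GG ⧸ H), rfl⟩
  -- the conjugates of the coordinates under the decomposition group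
  set C' : Set (M → QQb) := {f | ∃ d ∈ D, ∃ c ∈ C, f = twist d c}
  have hC' : C'.Finite := ((Set.finite_univ (α := GG ⧸ H)).prod hC).image
    (fun p : (GG ⧸ H) × (M → QQb) => twist p.1.out p.2) |>.subset <| by
      rintro _ ⟨d, -, c, hc, rfl⟩
      obtain ⟨h, hh⟩ := QuotientGroup.mk_out_eq_mul H d
      exact ⟨((d : GG ⧸ H), c), ⟨trivial, hc⟩, by simp only [hh]; rw [twist_mul, hHC _ h.2 c hc]⟩
  have hCC' : C ⊆ C' := fun c hc => ⟨1, one_mem D, c, hc, (twist_one c).symm⟩
  have hC'val : ∀ f ∈ C', ∀ x, f x ∈ V := by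
    rintro _ ⟨d, hd, c, hc, rfl⟩ x
    exact Places.smul_mem_of_decomposition V hd (hval c hc _)
  have hC'U : ∀ u ∈ U, ∀ f ∈ C', twist u f = f := by
    rintro u hu _ ⟨d, hd, c, hc, rfl⟩
    obtain ⟨σ, hσ, h, hh, rfl⟩ := hUmem u hu
    rw [← twist_mul, show σ * h * d = d * ((d⁻¹ * σ * d) * (d⁻¹ * h * d)) by group, twist_mul,
      twist_mul, hHC _ (by simpa using hHn.conj_mem h hh d⁻¹) c hc,
      hD'C _ (hD'conj d hd σ hσ) c hc]
  set HA : Subalgebra V (M → QQb) := Algebra.adjoin V C'
  have hHAval : ∀ f ∈ HA, ∀ x, f x ∈ V := fun f hf x => by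
    induction hf using Algebra.adjoin_induction with
    | mem f hf => exact hC'val f hf x
    | algebraMap a => exact a.2
    | add a b _ _ ha hb => exact add_mem ha hb
    | mul a b _ _ ha hb => exact mul_mem ha hb
  have hfg : HA.toSubmodule.FG := fg_adjoin_of_finite hC' fun f hf => by
    refine ⟨∏ x : M, (Polynomial.X - Polynomial.C (⟨f x, hC'val f hf x⟩ : V)),
      Polynomial.monic_prod_of_monic _ _ fun x _ => Polynomial.monic_X_sub_C _, ?_⟩
    funext x
    rw [← Polynomial.aeval_def]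
    show Pi.evalAlgHom V (fun _ : M => QQb) x (Polynomial.aeval f _) = 0
    rw [← Polynomial.aeval_algHom_apply, map_prod]
    refine Finset.prod_eq_zero (Finset.mem_univ x) ?_
    rw [map_sub, Polynomial.aeval_X, Polynomial.aeval_C]
    exact sub_self _
  have htw : ∀ d ∈ D, ∀ f ∈ HA, twist d f ∈ HA := fun d hd f hf => by
    induction hf using Algebra.adjoin_induction with
    | mem f hf =>
      obtain ⟨d', hd', c, hc, rfl⟩ := hf
      exact Algebra.subset_adjoin ⟨d * d', mul_mem hd hd', c, hc, (twist_mul _ _ _).symm⟩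
    | algebraMap a =>
      rw [show twist d (algebraMap V (M → QQb) a) =
        algebraMap V (M → QQb) ⟨d (a : QQb), Places.smul_mem_of_decomposition V hd a.2⟩ from rfl]
      exact HA.algebraMap_mem _
    | add a b _ _ ha hb => rw [map_add]; exact add_mem ha hb
    | mul a b _ _ ha hb => rw [map_mul]; exact mul_mem ha hb
  set XA := Submodule.span V
    (Set.image2 (fun (a b : M → QQb) (p : M × M) => a p.1 * b p.2) (HA : Set (M → QQb)) HA)
  have hHAcomul : ∀ f ∈ HA, (fun p : M × M => f (p.1 + p.2)) ∈ XA := fun f hf => by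
    induction hf using Algebra.adjoin_induction with
    | mem f hf =>
      obtain ⟨d, hd, c, hc, rfl⟩ := hf
      have key : ∀ g ∈ Submodule.span V (Set.image2 (fun (a b : M → QQb) (p : M × M) =>
          a p.1 * b p.2) (Algebra.adjoin V C : Set (M → QQb)) (Algebra.adjoin V C)),
          twist (M := M × M) d g ∈ XA := by
        intro g hg
        induction hg using Submodule.span_induction with
        | mem g hg =>
          obtain ⟨a, ha, b, hb, rfl⟩ := hg
          refine Submodule.subset_span ⟨twist d a, htw d hd a (Algebra.adjoin_mono hCC' ha),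
            twist d b, htw d hd b (Algebra.adjoin_mono hCC' hb), funext fun p => ?_⟩
          exact (map_mul d _ _).symm
        | zero => rw [map_zero]; exact zero_mem _
        | add g g' _ _ h h' => rw [map_add]; exact add_mem h h'
        | smul r g _ h =>
          rw [show twist (M := M × M) d (r • g) =
            (⟨d (r : QQb), Places.smul_mem_of_decomposition V hd r.2⟩ : V) • twist d g from
              twist_smul d (r : QQb) g]
          exact Submodule.smul_mem _ _ h
      have := key _ (hcomul c hc)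
      convert this using 1
      funext p
      simp only [twist_apply]
      congr 2
      show d⁻¹ • (p.1 + p.2) = d⁻¹ • p.1 + d⁻¹ • p.2
      exact smul_add _ _ _
    | algebraMap a =>
      have h1 : (1 : M → QQb) ∈ HA := one_mem _
      have : (fun p : M × M => algebraMap V (M → QQb) a (p.1 + p.2)) =
          a • fun p : M × M => (1 : M → QQb) p.1 * (1 : M → QQb) p.2 := funext fun p => by
        show (a : QQb) = (a : QQb) * (1 * 1)
        ring
      rw [this]
      exact Submodule.smul_mem _ _ (Submodule.subset_span ⟨1, h1, 1, h1, rfl⟩)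
    | add a b _ _ ha hb => exact add_mem ha hb
    | mul a b _ _ ha hb => exact adjoin_mul_span_le ha hb
  -- functions divisible enough lie in the algebra
  set mA : Submodule V (M → QQb) := maximalIdeal V • HA.toSubmodule
  have hmle : mA ≤ HA.toSubmodule := Submodule.smul_le_right
  choose! sc hscC hscne using hsep
  set P : M → (M → QQb) := fun x => ∏ y ∈ Finset.univ.erase x,
    (sc x y - fun _ => sc x y y)
  have hPmem : ∀ x, P x ∈ HA := fun x => prod_mem fun y hy => by
    have hxy : x ≠ y := (Finset.mem_erase.1 hy).1.symm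
    refine sub_mem (Algebra.subset_adjoin (hCC' (hscC x y hxy))) ?_
    exact HA.algebraMap_mem ⟨_, hval _ (hscC x y hxy) y⟩
  have hP0 : ∀ x z, z ≠ x → P x z = 0 := fun x z hz => by
    simp only [P, Finset.prod_apply]
    exact Finset.prod_eq_zero (Finset.mem_erase.2 ⟨hz, Finset.mem_univ _⟩) (sub_self _)
  have hPx : ∀ x, P x x ≠ 0 := fun x => by
    simp only [P, Finset.prod_apply]
    exact Finset.prod_ne_zero_iff.2 fun y hy => sub_ne_zero.2
      (hscne x y (Finset.mem_erase.1 hy).1.symm)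
  choose Nx hNx using fun x => exists_pow_mul_mem hV (x := (ℓ : QQb)) (y := (P x x)⁻¹) hV
  set N₀ := Finset.univ.sup Nx
  have hl0 : (ℓ : QQb) ≠ 0 := Nat.cast_ne_zero.2 hl.out.ne_zero
  have hdeep : ∀ f : M → QQb, (∀ x, f x * ((ℓ : QQb) ^ N₀)⁻¹ ∈ V.nonunits) → f ∈ mA := by
    intro f hf
    have hmem : ∀ x, f x * (P x x)⁻¹ ∈ V.nonunits := fun x => by
      have h1 := hNx x N₀ (Finset.le_sup (f := Nx) (Finset.mem_univ x))
      rw [show f x * (P x x)⁻¹ =
        (f x * ((ℓ : QQb) ^ N₀)⁻¹) * ((ℓ : QQb) ^ N₀ * (P x x)⁻¹) by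
          field_simp, V.mem_nonunits_iff, map_mul]
      exact mul_lt_one_of_lt_of_le (V.mem_nonunits_iff.1 (hf x))
        (V.mem_nonunits_iff.1 h1).le
    have : f = ∑ x : M, (⟨f x * (P x x)⁻¹, V.nonunits_le (hmem x)⟩ : V) • P x := funext fun z => by
      rw [Finset.sum_apply, Finset.sum_eq_single z]
      · show f z = f z * (P z z)⁻¹ * P z z
        rw [mul_assoc, inv_mul_cancel₀ (hPx z), mul_one]
      · intro x _ hx
        show f x * (P x x)⁻¹ * P x z = 0
        rw [hP0 x z hx.symm, mul_zero]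
      · simp
    rw [this]
    exact Submodule.sum_mem _ fun x _ => Submodule.smul_mem_smul
      (ValuationSubring.coe_mem_nonunits_iff.1 (hmem x)) (hPmem x)
  -- cosets meeting the decomposition group
  set Φ := {q : GG ⧸ U // ∃ d ∈ D, (d : GG ⧸ U) = q}
  choose dq hdqD hdq using fun q : Φ => q.2
  haveI : Fintype Φ := Fintype.ofFinite Φ
  let ε := Fintype.equivFin Φ
  let Bu : Submonoid ZB :=
    { carrier := {z | ∀ u ∈ U, u • z = z}
      one_mem' := fun u _ => smul_one u
      mul_mem' := fun ha hb u hu => by rw [smul_mul', ha u hu, hb u hu] }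
  let χ : Φ → (Bu →* ResidueField V) := fun q =>
    (((residue V).comp (intInclusion V)).comp
      (MulSemiringAction.toRingHom GG ZB (dq q))).toMonoidHom.comp Bu.subtype
  have hχ : Function.Injective χ := by
    intro q q' hqq
    set φ := (dq q')⁻¹ * dq q with hφ
    have hφD : φ ∈ D := mul_mem (inv_mem (hdqD q')) (hdqD q)
    have hfix : ∀ z : ZB, (∀ u ∈ U, u • z = z) → φ • z - z ∈ centre V := fun z hz => by
      have h := DFunLike.congr_fun hqq ⟨z, hz⟩
      have h' : dq q • z - dq q' • z ∈ centre V := residue_intInclusion_eq_zero.1 (by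
        rw [map_sub, map_sub, sub_eq_zero]; exact h)
      have h'' := (smul_mem_centre_iff (inv_mem (hdqD q'))).2 h'
      rwa [smul_sub, inv_smul_smul, ← mul_smul] at h''
    have hφ' : φ ∈ D' := ⟨hφD, fun a ha g => by
      obtain ⟨O, haO, hOu, hO⟩ := exists_finset_orbit (H := H) (U := U) (b := g • a)
        fun h hh => hHg h hh g a ha
      refine smul_sub_mem_centre hφD hfix haO hO fun z hz => ?_
      obtain ⟨u, hu, rfl⟩ := hOu z hz
      obtain ⟨σ, hσ, h, hh, rfl⟩ := hUmem u hu
      rw [mul_smul, hHg h hh g a ha]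
      exact hσ.2 a ha g⟩
    refine Subtype.ext ?_
    rw [← hdq q, ← hdq q']
    exact (QuotientGroup.eq.2 (le_sup_left (b := H) hφ')).symm
  have hspan : Submodule.span (ResidueField V)
      (Set.range fun (b : Bu) (j : Fin (Fintype.card Φ)) => χ (ε.symm j) b) = ⊤ :=
    span_range_flip_eq_top _
      ((linearIndependent_monoidHom Bu (ResidueField V)).comp _ (hχ.comp ε.symm.injective))
  set q₀ : Φ := ⟨((1 : GG) : GG ⧸ U), 1, one_mem D, rfl⟩
  obtain ⟨cf, hcf⟩ := Finsupp.mem_span_range_iff_exists_finsupp.1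
    (hspan ▸ Submodule.mem_top : (Pi.single (ε q₀) (1 : ResidueField V)) ∈ _)
  choose bf hbf using fun j : Bu => residue_surjective (R := V) (cf j)
  -- an invariant element close to one at the place and small at the others
  set Ψ := {q : GG ⧸ U // ¬ ∃ d ∈ D, (d : GG ⧸ U) = q}
  haveI : Fintype Ψ := Fintype.ofFinite Ψ
  have hout : ∀ q : Ψ, ∃ b : ZB, (∀ h ∈ H, h • b = b) ∧
      b ∈ centre (q.1.out⁻¹ • V) ∧ b ∉ centre V := fun q =>
    exists_invariant_sep hV hHc fun h hh hd => q.2
      ⟨q.1.out * h⁻¹, (show (h * q.1.out⁻¹)⁻¹ = q.1.out * h⁻¹ by group) ▸ inv_mem hd, by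
        conv_rhs => rw [← QuotientGroup.out_eq' q.1]
        exact QuotientGroup.eq.2 (by simpa using le_sup_right (a := D') hh)⟩
  choose bo hbH hbm hbn using hout
  set e₀ : ZB := ∏ q, bo q
  have he₀H : ∀ h ∈ H, h • e₀ = e₀ := fun h hh => by
    rw [Finset.smul_prod']; exact Finset.prod_congr rfl fun q _ => hbH q h hh
  have he₀n : e₀ ∉ centre V := fun hc => by
    haveI : (centre V).IsPrime := inferInstance
    obtain ⟨q, -, hq⟩ := (Ideal.IsPrime.prod_mem_iff).1 hc
    exact hbn q hq
  obtain ⟨O, heO, hOu, hO⟩ := exists_finset_orbit (H := H) (U := U) he₀H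
  set e₁ : ZB := ∏ z ∈ O, z
  have he₁U : ∀ u ∈ U, u • e₁ = e₁ := prod_smul_eq hO
  have he₁n : e₁ ∉ centre V := fun hc => by
    obtain ⟨z, hz, hzc⟩ := (Ideal.IsPrime.prod_mem_iff).1 hc
    obtain ⟨u, hu, rfl⟩ := hOu z hz
    obtain ⟨σ, hσ, h, hh, rfl⟩ := hUmem u hu
    rw [mul_smul, he₀H h hh] at hzc
    exact he₀n ((smul_mem_centre_iff hσ.1).1 hzc)
  have he₁m : ∀ q : Ψ, ((q.1.out • e₁ : ZB) : QQb) ∈ V.nonunits := fun q => by
    have h1 : e₁ ∈ centre (q.1.out⁻¹ • V) := by
      show (∏ z ∈ O, z) ∈ centre (q.1.out⁻¹ • V)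
      exact Ideal.prod_mem _ heO (Ideal.prod_mem _ (Finset.mem_univ q) (hbm q))
    rw [Places.centre_smul, Ideal.mem_pointwise_smul_iff_inv_smul_mem, inv_inv, mem_centre_iff] at h1
    exact h1
  obtain ⟨n, hn0, hn⟩ := exists_pow_residue_one hV
    (z := residue V (intInclusion V e₁)) (fun h => he₁n (residue_intInclusion_eq_zero.1 h))
  choose Nm hNm using fun (p : Ψ × hC.toFinset × M) =>
    exists_pow_mul_mem hV (x := ((p.1.1.out • e₁ : ZB) : QQb))
      (y := p.1.1.out ((p.2.1 : M → QQb) (p.1.1.out⁻¹ • p.2.2)) * ((ℓ : QQb) ^ N₀)⁻¹) (he₁m p.1)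
  set Nbig := n * Finset.univ.sup Nm
  set e := e₁ ^ Nbig with he
  have heU : ∀ u ∈ U, u • e = e := fun u hu => by rw [he, smul_pow', he₁U u hu]
  have heres : ∀ d ∈ D, residue V (intInclusion V (d • e)) = 1 := fun d hd => by
    have h0 : residue V (intInclusion V (e - 1)) = 0 := by
      rw [map_sub, map_sub, map_one, map_one, he, map_pow, map_pow, pow_mul, hn, one_pow, sub_self]
    have h1 := (smul_mem_centre_iff hd).2 (residue_intInclusion_eq_zero.1 h0)
    rw [smul_sub, smul_one, ← residue_intInclusion_eq_zero, map_sub, map_sub, map_one, map_one,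
      sub_eq_zero] at h1
    exact h1
  -- equivariant members of the algebra
  set Seq : Set (M → QQb) := {f | f ∈ HA ∧ ∀ (σ : GG) x, f (σ • x) = σ (f x)}
  set NS := Submodule.span V Seq
  have hSeq1 : (1 : M → QQb) ∈ Seq := ⟨one_mem _, fun σ x => (map_one σ).symm⟩
  have hSeqmul : ∀ f ∈ Seq, ∀ g ∈ Seq, f * g ∈ Seq := fun f hf g hg =>
    ⟨mul_mem hf.1 hg.1, fun σ x => by simp [hf.2 σ x, hg.2 σ x]⟩
  have hNle : NS ≤ HA.toSubmodule := Submodule.span_le.2 fun f hf => hf.1
  have hC'mem : ∀ f ∈ C', f ∈ NS ⊔ mA := by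
    intro f hfC'
    obtain ⟨d₁, hd₁, c, hc, rfl⟩ := hfC'
    have hNtw : ∀ y ∈ NS, twist d₁ y ∈ NS := fun y hy => by
      induction hy using Submodule.span_induction with
      | mem g hg =>
        rw [twist_eq_self_iff.2 (hg.2 d₁)]
        exact Submodule.subset_span hg
      | zero => rw [map_zero]; exact zero_mem _
      | add g g' _ _ h h' => rw [map_add]; exact add_mem h h'
      | smul r g _ h =>
        rw [show twist d₁ (r • g) =
          (⟨d₁ (r : QQb), Places.smul_mem_of_decomposition V hd₁ r.2⟩ : V) • twist d₁ g from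
            twist_smul d₁ (r : QQb) g]
        exact Submodule.smul_mem _ _ h
    suffices hcmem : ∀ c ∈ C, c ∈ NS ⊔ mA by
      refine Submodule.mem_sup.2 ?_
      obtain ⟨y, hy, z, hz, hyz⟩ := Submodule.mem_sup.1 (hcmem c hc)
      refine ⟨twist d₁ y, hNtw y hy, twist d₁ z, ?_, by rw [← map_add, hyz]⟩
      clear hyz
      refine Submodule.smul_induction_on hz (fun r hr g hg => ?_) fun g g' h h' => ?_
      · rw [show twist d₁ (r • g) =
          (⟨d₁ (r : QQb), Places.smul_mem_of_decomposition V hd₁ r.2⟩ : V) • twist d₁ g from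
            twist_smul d₁ (r : QQb) g]
        refine Submodule.smul_mem_smul (ValuationSubring.coe_mem_nonunits_iff.1 ?_)
          (htw d₁ hd₁ g hg)
        show d₁ (r : QQb) ∈ V.nonunits
        have h1 : d₁ (r : QQb) ∈ (d₁ • V).nonunits := by
          rw [Places.mem_smul_nonunits_iff,
            show d₁⁻¹ • d₁ (r : QQb) = r from inv_smul_smul d₁ (r : QQb)]
          exact ValuationSubring.coe_mem_nonunits_iff.2 hr
        rwa [MulAction.mem_stabilizer_iff.1 hd₁] at h1
      · rw [map_add]; exact add_mem h h'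
    clear! c
    intro c hc
    set f₀ : Bu → (M → QQb) := fun j => (fun _ => (((j : ZB) * e : ZB) : QQb)) * c
    have hf₀U : ∀ j, ∀ u ∈ U, twist u (f₀ j) = f₀ j := fun j u hu => by
      show twist u ((fun _ => (((j : ZB) * e : ZB) : QQb)) * c) = _
      rw [map_mul, hC'U u hu c (hCC' hc)]
      congr 1
      funext x
      show u (((j : ZB) * e : ZB) : QQb) = _
      have := congrArg (fun z : ZB => (z : QQb))
        (show u • ((j : ZB) * e) = (j : ZB) * e by rw [smul_mul', j.2 u hu, heU u hu])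
      exact this
    have hwd : ∀ j (g g' : GG), (g : GG ⧸ U) = g' → twist g (f₀ j) = twist g' (f₀ j) := by
      intro j g g' hgg
      rw [QuotientGroup.eq] at hgg
      rw [show g' = g * (g⁻¹ * g') by group, twist_mul g, hf₀U j _ hgg]
    haveI : Fintype (GG ⧸ U) := Fintype.ofFinite _
    set T : Bu → (M → QQb) := fun j => ∑ q : GG ⧸ U, twist q.out (f₀ j)
    have hTeq : ∀ j (σ : GG), twist σ (T j) = T j := fun j σ => by
      simp only [T, map_sum]
      refine Fintype.sum_equiv (MulAction.toPerm σ) _ _ fun q => ?_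
      rw [← twist_mul]
      refine hwd j _ _ ?_
      rw [MulAction.toPerm_apply, QuotientGroup.out_eq']
      conv_rhs => rw [← QuotientGroup.out_eq' q]
      rfl
    have houtmem : ∀ j, ∀ q : Ψ, twist q.1.out (f₀ j) ∈ mA := fun j q => by
      refine hdeep _ fun x => ?_
      have h1 := hNm (q, ⟨c, hC.mem_toFinset.2 hc⟩, x) Nbig
        ((Finset.le_sup (f := Nm) (Finset.mem_univ _)).trans (Nat.le_mul_of_pos_left _ hn0))
      have hj : ((q.1.out • (j : ZB) : ZB) : QQb) ∈ V := integralClosure_le V _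
      have e1 : twist q.1.out (f₀ j) x * ((ℓ : QQb) ^ N₀)⁻¹ =
          ((q.1.out • (j : ZB) : ZB) : QQb) * (((q.1.out • e₁ : ZB) : QQb) ^ Nbig *
            (q.1.out (c (q.1.out⁻¹ • x)) * ((ℓ : QQb) ^ N₀)⁻¹)) := by
        show q.1.out ((((j : ZB) : QQb) * ((e₁ : QQb) ^ Nbig)) * c (q.1.out⁻¹ • x)) * _ =
          q.1.out ((j : ZB) : QQb) * ((q.1.out ((e₁ : QQb))) ^ Nbig * _)
        rw [map_mul, map_mul, map_pow]; ring
      rw [e1, V.mem_nonunits_iff, map_mul]
      rw [mul_comm]
      exact mul_lt_one_of_lt_of_le (V.mem_nonunits_iff.1 h1) ((V.valuation_le_one_iff _).2 hj)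
    have hinmem : ∀ j, ∀ q : Φ, twist q.1.out (f₀ j) =
        intInclusion V (dq q • ((j : ZB) * e)) • twist (dq q) c := fun j q => by
      rw [hwd j q.1.out (dq q) (by rw [QuotientGroup.out_eq', hdq]), map_mul]
      rfl
    have hT : ∀ j, T j ∈ Seq := fun j => by
      refine ⟨sum_mem fun q _ => ?_, fun σ => twist_eq_self_iff.1 (hTeq j σ)⟩
      by_cases hq : ∃ d ∈ D, (d : GG ⧸ U) = q
      · rw [show twist q.out (f₀ j) = _ from hinmem j ⟨q, hq⟩]
        exact HA.smul_mem (Algebra.subset_adjoin ⟨_, hdqD _, c, hc, rfl⟩) _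
      · exact hmle (houtmem j ⟨q, hq⟩)
    have hmain : c - ∑ j ∈ cf.support, bf j • T j ∈ mA := by
      have hsplit : ∀ j, T j = ∑ q : Φ, twist q.1.out (f₀ j) + ∑ q : Ψ, twist q.1.out (f₀ j) :=
        fun j => by
          convert (Fintype.sum_subtype_add_sum_subtype
            (fun q : GG ⧸ U => ∃ d ∈ D, (d : GG ⧸ U) = q) fun q => twist q.out (f₀ j)).symm
            using 3 <;> exact Finset.ext fun _ => by simp
      simp only [hsplit, smul_add, Finset.sum_add_distrib, Finset.smul_sum]
      rw [← sub_sub]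
      refine sub_mem ?_ (sum_mem fun j _ => sum_mem fun q _ => Submodule.smul_mem _ _ (houtmem j q))
      rw [Finset.sum_comm]
      have hone : c = ∑ q : Φ, (if q = q₀ then (1 : V) else 0) • twist (dq q) c := by
        rw [Finset.sum_eq_single q₀ (fun q _ hq => by rw [if_neg hq, zero_smul]) (by simp),
          if_pos rfl, one_smul]
        have hu : dq q₀ ∈ U := by
          have h := QuotientGroup.eq.1 (hdq q₀).symm
          simpa using h
        exact (hC'U _ hu c (hCC' hc)).symm
      nth_rewrite 1 [hone]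
      rw [← Finset.sum_sub_distrib]
      refine sum_mem fun q _ => ?_
      simp only [hinmem, smul_smul, ← Finset.sum_smul, ← sub_smul]
      refine Submodule.smul_mem_smul ?_ (htw _ (hdqD q) _ (Algebra.subset_adjoin (hCC' hc)))
      rw [← residue_eq_zero_iff, map_sub, map_sum, sub_eq_zero]
      have hk := congrFun hcf (ε q)
      simp only [Finsupp.sum, Finset.sum_apply, Pi.smul_apply, smul_eq_mul, Equiv.symm_apply_apply,
        Pi.single_apply] at hk
      rw [show (if q = q₀ then (1 : V) else 0) = if ε q = ε q₀ then 1 else 0 by simp, apply_ite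
        (residue V), map_one, map_zero, ← hk]
      refine Finset.sum_congr rfl fun j _ => ?_
      rw [map_mul, hbf, smul_mul', map_mul, map_mul, heres _ (hdqD q), mul_one]
      rfl
    rw [show c = (∑ j ∈ cf.support, bf j • T j) + (c - ∑ j ∈ cf.support, bf j • T j) by abel]
    exact Submodule.add_mem_sup
      (sum_mem fun j _ => Submodule.smul_mem _ _ (Submodule.subset_span (hT j))) hmain
  have hHle : HA.toSubmodule ≤ NS ⊔ maximalIdeal V • HA.toSubmodule := by
    intro f hf
    induction hf using Algebra.adjoin_induction with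
    | mem f hf => exact hC'mem f hf
    | algebraMap a =>
      refine Submodule.mem_sup_left ?_
      rw [Algebra.algebraMap_eq_smul_one]
      exact Submodule.smul_mem _ _ (Submodule.subset_span hSeq1)
    | add a b _ _ ha hb => exact add_mem ha hb
    | mul a b _ hb' ha hb =>
      obtain ⟨y, hy, z, hz, rfl⟩ := Submodule.mem_sup.1 ha
      obtain ⟨y', hy', z', hz', rfl⟩ := Submodule.mem_sup.1 hb
      have hmul : ∀ z ∈ mA, ∀ g ∈ HA, z * g ∈ mA := fun z hz g hg => by
        refine Submodule.smul_induction_on hz (fun r hr w hw => ?_) fun w w' h h' => ?_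
        · rw [smul_mul_assoc]; exact Submodule.smul_mem_smul hr (HA.mul_mem hw hg)
        · rw [add_mul]; exact add_mem h h'
      have hyy : y * y' ∈ NS := by
        have h := Submodule.mul_mem_mul hy hy'
        rw [Submodule.span_mul_span] at h
        exact Submodule.span_mono (by rintro _ ⟨u, hu, v, hv, rfl⟩; exact hSeqmul u hu v hv) h
      rw [show (y + z) * (y' + z') = y * y' + (z' * y + z * (y' + z')) by ring]
      exact Submodule.add_mem_sup hyy (add_mem (hmul z' hz' y (hNle hy)) (hmul z hz _ hb'))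
  have hHN : HA.toSubmodule ≤ NS :=
    Submodule.le_of_le_smul_of_le_jacobson_bot hfg
      (IsLocalRing.maximalIdeal_le_jacobson _) hHle
  obtain ⟨s, hs, hspanS⟩ := (Submodule.fg_span_iff_fg_span_finset_subset Seq).1
    (show NS.FG from le_antisymm hNle hHN ▸ hfg)
  let S : Subalgebra (Rl ℓ) (M → QQb) :=
    { carrier := Seq
      mul_mem' := fun ha hb => hSeqmul _ ha _ hb
      one_mem' := hSeq1
      add_mem' := fun ha hb => ⟨add_mem ha.1 hb.1, fun σ x => by simp [ha.2 σ x, hb.2 σ x]⟩
      zero_mem' := ⟨zero_mem _, fun σ x => (map_zero σ).symm⟩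
      algebraMap_mem' := fun r => ⟨by
        have hr : algebraMap ℚ QQb (r : ℚ) ∈ V := by
          have hden : ¬ ℓ ∣ (r : ℚ).den := hl.out.coprime_iff_not_dvd.1 (mem_Rl.1 r.2).symm
          rw [← V.valuation_le_one_iff, ← Rat.num_div_den (r : ℚ), map_div₀, map_div₀, map_natCast,
            map_intCast, LocalEC.val_natCast_eq_one hV hl.out hden, div_one, V.valuation_le_one_iff]
          exact intCast_mem V _
        rw [show algebraMap (Rl ℓ) (M → QQb) r = algebraMap V (M → QQb) ⟨_, hr⟩ from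
          funext fun x => IsScalarTower.algebraMap_apply (Rl ℓ) ℚ QQb r]
        exact HA.algebraMap_mem _, fun σ x => by
          show algebraMap (Rl ℓ) QQb r = σ (algebraMap (Rl ℓ) QQb r)
          rw [IsScalarTower.algebraMap_apply (Rl ℓ) ℚ QQb r, σ.commutes]⟩ }
  have hSspan : S.toSubmodule = Submodule.span (Rl ℓ) (s : Set (M → QQb)) := by
    refine le_antisymm (fun f hf => ?_) (Submodule.span_le.2 hs)
    exact mem_span_Rl_of_mem_span hV s.finite_toSet (fun g hg => (hs hg).2) hf.2
      (hspanS ▸ hHN hf.1)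
  refine ⟨⟨S, hSspan ▸ ⟨s, rfl⟩, fun f hf => hf.2, ?_, fun f hf => ?_⟩⟩
  · refine eq_top_iff.2 fun f _ => ?_
    have : f = ∑ x : M, (f x * (P x x)⁻¹) • P x := funext fun z => by
      rw [Finset.sum_apply, Finset.sum_eq_single z]
      · show f z = f z * (P z z)⁻¹ * P z z
        rw [mul_assoc, inv_mul_cancel₀ (hPx z), mul_one]
      · intro x _ hx
        show f x * (P x x)⁻¹ * P x z = 0
        rw [hP0 x z hx.symm, mul_zero]
      · simp
    rw [this]
    refine sum_mem fun x _ => Submodule.smul_mem _ _ ?_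
    have hle : NS ≤ (Submodule.span QQb (S : Set (M → QQb))).restrictScalars V :=
      Submodule.span_le.2 fun g hg => Submodule.subset_span hg
    exact hle (hHN (hPmem x))
  · set X := Submodule.span V
      (Set.image2 (fun (a b : M → QQb) (p : M × M) => a p.1 * b p.2) (s : Set (M → QQb)) s)
    have hXA : XA ≤ X := by
      refine Submodule.span_le.2 ?_
      rintro _ ⟨a, ha, b, hb, rfl⟩
      have ha' : a ∈ Submodule.span V (s : Set (M → QQb)) := hspanS ▸ hHN ha
      have hb' : b ∈ Submodule.span V (s : Set (M → QQb)) := hspanS ▸ hHN hb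
      have h := Submodule.apply_mem_map₂
        (LinearMap.mk₂ V (fun (a b : M → QQb) (p : M × M) => a p.1 * b p.2)
          (fun a a' b => funext fun p => add_mul _ _ _) (fun r a b => funext fun p => mul_assoc _ _ _)
          (fun a b b' => funext fun p => mul_add _ _ _)
          (fun r a b => funext fun p => mul_left_comm _ _ _)) ha' hb'
      rw [Submodule.map₂_span_span] at h
      exact h
    have h := mem_span_Rl_of_mem_span hV
      (s := Set.image2 (fun (a b : M → QQb) (p : M × M) => a p.1 * b p.2) (s : Set (M → QQb)) s)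
      (s.finite_toSet.image2 _ s.finite_toSet)
      (by
        rintro _ ⟨a, ha, b, hb, rfl⟩ σ p
        show a (σ • p.1) * b (σ • p.2) = σ (a p.1 * b p.2)
        rw [(hs ha).2, (hs hb).2, map_mul])
      (f := fun p : M × M => f (p.1 + p.2))
      (fun σ p => by show f (σ • p.1 + σ • p.2) = σ (f (p.1 + p.2)); rw [← smul_add, hf.2])
      (hXA (hHAcomul f hf.1))
    refine Submodule.span_mono ?_ h
    exact Set.image2_subset hs hs

end FLTAgent.FlatModel
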