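import Fermat.Agent.FlatModel.Linear
import Fermat.Agent.FlatModel.Curve

/-!
# Families of functions with coefficients in a ring of constant residue
-/

set_option autoImplicit false
set_option linter.style.haveILetI false
set_option linter.unusedSectionVars false

noncomputable section

namespace FLTAgent.FlatModel

open AlgebraicCurve FLTAgent.Curves FLTAgent.Specialization Polynomial IntermediateField

variable {L k : Type*} [Field L] [Field k] {A : ValuationSubring L} {π : A →+* k}
variable {F Fb : Type*} [Field F] [Field Fb] [Algebra L F] [Algebra k Fb]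
variable [IsAlgClosed L] [IsFunctionField L F] [IsAlgClosed k] [IsFunctionField k Fb]

/-- The space of sections with poles of order at most `m` at the poles of the coordinate. -/
abbrev polesSpace (M : Model π F Fb) (m : ℕ) : Submodule L F :=
  riemannRochSpace ((m : ℤ) • poleDiv L M.x)

/-- Integral coordinates on a space of sections, compatible with reduction. -/
structure Coords (M : Model π F Fb) (m : ℕ) where
  /-- The coordinates. -/
  coord : F →ₗ[L] (ℤ → L)
  /-- The reduced coordinates. -/
  coordb : Fb →ₗ[k] (ℤ → k)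
  inj : Function.Injective coordb
  res : ∀ (f : F) (g : Fb), f ∈ polesSpace M m → M.Res f g →
    ∀ n : ℤ, ∃ a : A, (a : L) = coord f n ∧ π a = coordb g n

variable {M : Model π F Fb} {m m' : ℕ}

theorem polesSpace_mono (M : Model π F Fb) (h : m ≤ m') : polesSpace M m ≤ polesSpace M m' :=
  rrSpace_le fun v => by
    have := poleDiv_nonneg (K := L) M.x v
    simp only [Finsupp.smul_apply, smul_eq_mul]
    exact mul_le_mul_of_nonneg_right (by exact_mod_cast h) this

theorem polesSpace_mul {f g : F} (hf : f ∈ polesSpace M m) (hg : g ∈ polesSpace M m') :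
    f * g ∈ polesSpace M (m + m') := by
  have h := mem_rrSpace_mul hf hg
  rwa [← add_smul, ← Nat.cast_add] at h

theorem Coords.eq_zero (C : Coords M m) {f : F} (hf : f ∈ polesSpace M m) (h : C.coord f = 0) :
    f = 0 := by
  by_contra hf0
  obtain ⟨c, g, hg, hcg⟩ := M.scaled f hf0
  refine hg (C.inj (funext fun n => ?_))
  obtain ⟨a, ha, hb⟩ := C.res _ _ (Submodule.smul_mem _ c hf) hcg n
  rw [map_smul, h, smul_zero, Pi.zero_apply, ZeroMemClass.coe_eq_zero] at ha
  rw [← hb, ha, map_zero, map_zero, Pi.zero_apply]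

/-- Restriction of coordinates to a smaller space. -/
def Coords.mono' (C : Coords M m') (h : m ≤ m') : Coords M m :=
  ⟨C.coord, C.coordb, C.inj, fun f g hf => C.res f g (polesSpace_mono M h hf)⟩

variable {Ω : Type*} (H : Subalgebra A (Ω → A)) (M)

/-- Families of sections of bounded poles with coefficients in `H`. -/
def hfSpan (m : ℕ) : Submodule A (Ω → F) :=
  Submodule.span A {e | ∃ h ∈ H, ∃ b ∈ polesSpace M m, b ∈ M.O ∧
    e = fun ω => ((h ω : A) : L) • b}

variable {M H}

theorem const_mem_hfSpan {b : F} (hb : b ∈ polesSpace M m) (hbO : b ∈ M.O) :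
    (fun _ => b) ∈ hfSpan M H m :=
  Submodule.subset_span ⟨1, one_mem H, b, hb, hbO, funext fun ω => by simp⟩

theorem smul_mem_hfSpan {h : Ω → A} (hh : h ∈ H) {e : Ω → F} (he : e ∈ hfSpan M H m) :
    (fun ω => ((h ω : A) : L) • e ω) ∈ hfSpan M H m := by
  induction he using Submodule.span_induction with
  | mem e he =>
    obtain ⟨h', hh', b, hb, hbO, rfl⟩ := he
    exact Submodule.subset_span ⟨h * h', mul_mem hh hh', b, hb, hbO, funext fun ω => by
      simp [smul_smul]⟩
  | zero =>
    rw [show (fun ω => ((h ω : A) : L) • (0 : Ω → F) ω) = 0 from funext fun ω => by simp]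
    exact zero_mem _
  | add e e' _ _ h1 h2 =>
    rw [show (fun ω => ((h ω : A) : L) • (e + e') ω) =
      (fun ω => ((h ω : A) : L) • e ω) + fun ω => ((h ω : A) : L) • e' ω from
      funext fun ω => smul_add _ _ _]
    exact add_mem h1 h2
  | smul a e _ h1 =>
    rw [show (fun ω => ((h ω : A) : L) • (a • e) ω) = a • fun ω => ((h ω : A) : L) • e ω from
      funext fun ω => smul_comm _ _ _]
    exact Submodule.smul_mem _ _ h1

theorem hfSpan_mono (h : m ≤ m') : hfSpan M H m ≤ hfSpan M H m' :=
  Submodule.span_mono fun _ ⟨g, hg, b, hb, hbO, he⟩ => ⟨g, hg, b, polesSpace_mono M h hb, hbO, he⟩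

theorem mul_mem_hfSpan {e e' : Ω → F} (he : e ∈ hfSpan M H m) (he' : e' ∈ hfSpan M H m') :
    e * e' ∈ hfSpan M H (m + m') := by
  have h := Submodule.mul_mem_mul he he'
  rw [hfSpan, hfSpan, Submodule.span_mul_span] at h
  refine Submodule.span_mono ?_ h
  rintro _ ⟨_, ⟨g, hg, b, hb, hbO, rfl⟩, _, ⟨g', hg', b', hb', hbO', rfl⟩, rfl⟩
  exact ⟨g * g', mul_mem hg hg', b * b', polesSpace_mul hb hb', mul_mem hbO hbO', funext fun ω => by
    simp [Algebra.smul_def]; ring⟩

theorem mem_polesSpace_of_hfSpan {e : Ω → F} (he : e ∈ hfSpan M H m) (ω : Ω) :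
    e ω ∈ polesSpace M m := by
  induction he using Submodule.span_induction with
  | mem e he =>
    obtain ⟨h, -, b, hb, -, rfl⟩ := he
    exact Submodule.smul_mem _ _ hb
  | zero => exact zero_mem _
  | add e e' _ _ h1 h2 => exact add_mem h1 h2
  | smul a e _ h1 => exact Submodule.smul_mem _ (a : L) h1

theorem res_of_hfSpan (hH : ConstRes π H) {e : Ω → F} (he : e ∈ hfSpan M H m) :
    ∃ g : Fb, ∀ ω, M.Res (e ω) g := by
  rcases isEmpty_or_nonempty Ω with hΩ | ⟨⟨ω₀⟩⟩
  · exact ⟨0, isEmptyElim⟩
  induction he using Submodule.span_induction with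
  | mem e he =>
    obtain ⟨h, hh, b, -, hbO, rfl⟩ := he
    obtain ⟨g, hg⟩ := M.exists_res_of_mem hbO
    refine ⟨π (h ω₀) • g, fun ω => ?_⟩
    rw [← hH h hh ω ω₀]
    exact hg.smul (h ω)
  | zero => exact ⟨0, fun _ => M.res_zero⟩
  | add e e' _ _ h1 h2 =>
    obtain ⟨g, hg⟩ := h1
    obtain ⟨g', hg'⟩ := h2
    exact ⟨g + g', fun ω => (hg ω).add (hg' ω)⟩
  | smul a e _ h1 =>
    obtain ⟨g, hg⟩ := h1
    exact ⟨π a • g, fun ω => (hg ω).smul a⟩

theorem exists_vec (C : Coords M m) {e : Ω → F} (he : e ∈ hfSpan M H m) :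
    ∃ v : ℤ → H, ∀ ω, evVec H v ω = C.coord (e ω) := by
  induction he using Submodule.span_induction with
  | mem e he =>
    obtain ⟨h, hh, b, hb, hbO, rfl⟩ := he
    obtain ⟨g, hg⟩ := M.exists_res_of_mem hbO
    choose a ha _ using C.res b g hb hg
    refine ⟨fun n => a n • (⟨h, hh⟩ : H), fun ω => funext fun n => ?_⟩
    rw [map_smul, Pi.smul_apply, ← ha n, smul_eq_mul, mul_comm]
    rfl
  | zero => exact ⟨0, fun ω => funext fun n => by simp [evVec]⟩
  | add e e' _ _ h1 h2 =>
    obtain ⟨v, hv⟩ := h1
    obtain ⟨v', hv'⟩ := h2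
    exact ⟨v + v', fun ω => by rw [Pi.add_apply, map_add, ← hv, ← hv']; rfl⟩
  | smul a e _ h1 =>
    obtain ⟨v, hv⟩ := h1
    refine ⟨a • v, fun ω => ?_⟩
    rw [show (a • e) ω = (a : L) • e ω from rfl, map_smul, ← hv]
    rfl

theorem resVec_eq (C : Coords M m) {v : ℤ → H} {f : F} {g : Fb} {ω : Ω}
    (hv : evVec H v ω = C.coord f) (hf : f ∈ polesSpace M m) (hg : M.Res f g) :
    resVec H π v ω = C.coordb g := funext fun n => by
  obtain ⟨a, ha, hb⟩ := C.res f g hf hg n
  have h1 : a = (v n : Ω → A) ω := Subtype.ext (ha.trans (congrFun hv n).symm)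
  rw [← hb, h1]; rfl

variable (M H) in
/-- A basis of a family of subspaces, with coefficients in `H` and independent residues. -/
structure HBasis (m : ℕ) (V : Ω → Submodule L F) (Vb : Submodule k Fb) where
  /-- The rank. -/
  r : ℕ
  /-- The sections. -/
  e : Fin r → Ω → F
  /-- Their residues. -/
  g : Fin r → Fb
  hf : ∀ j, e j ∈ hfSpan M H m
  res : ∀ j ω, M.Res (e j ω) (g j)
  li : LinearIndependent k g
  span_res : Submodule.span k (Set.range g) = Vb
  span_eq : ∀ ω, Submodule.span L (Set.range fun j => e j ω) = V ω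

variable [IsLocalHom π] [Finite Ω]

theorem linearIndependent_of_res (hH : ConstRes π H) (C : Coords M m) {r : ℕ}
    {e : Fin r → Ω → F} {g : Fin r → Fb} (hf : ∀ j, e j ∈ hfSpan M H m)
    (res : ∀ j ω, M.Res (e j ω) (g j)) (li : LinearIndependent k g) (ω : Ω) :
    LinearIndependent L fun j => e j ω := by
  choose v hv using fun j => exists_vec C (hf j)
  have hres : LinearIndependent k fun j => resVec H π (v j) ω := by
    rw [show (fun j => resVec H π (v j) ω) = C.coordb ∘ g from funext fun j =>
      resVec_eq C (hv j ω) (mem_polesSpace_of_hfSpan (hf j) ω) (res j ω)]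
    exact li.map' _ (LinearMap.ker_eq_bot.2 C.inj)
  have h := linearIndependent_of_resVec hH hres ω
  rw [show (fun j => evVec H (v j) ω) = C.coord ∘ fun j => e j ω from funext fun j => hv j ω] at h
  exact h.of_comp

variable {V : Ω → Submodule L F} {Vb : Submodule k Fb}

theorem HBasis.finrank_eq (hH : ConstRes π H) (C : Coords M m) (B : HBasis M H m V Vb) (ω : Ω) :
    Module.finrank L (V ω) = B.r ∧ Module.finrank k Vb = B.r := by
  have h1 := finrank_span_eq_card (linearIndependent_of_res hH C B.hf B.res B.li ω)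
  have h2 := finrank_span_eq_card B.li
  rw [B.span_eq, Fintype.card_fin] at h1
  rw [B.span_res, Fintype.card_fin] at h2
  exact ⟨h1, h2⟩

theorem HBasis.g_mem (B : HBasis M H m V Vb) (j : Fin B.r) : B.g j ∈ Vb :=
  B.span_res.le (Submodule.subset_span ⟨j, rfl⟩)

theorem HBasis.e_mem (B : HBasis M H m V Vb) (j : Fin B.r) (ω : Ω) : B.e j ω ∈ V ω :=
  (B.span_eq ω).le (Submodule.subset_span ⟨j, rfl⟩)

theorem HBasis.finiteDimensional (B : HBasis M H m V Vb) (ω : Ω) : FiniteDimensional L (V ω) := by
  rw [← B.span_eq ω]; exact FiniteDimensional.span_of_finite L (Set.finite_range _)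

/-- Families spanning spaces of the dimension of their residual span. -/
theorem exists_hbasis_of_span (hH : ConstRes π H) (C : Coords M m) {ι : Type*} [Finite ι]
    (q : ι → Ω → F) (gq : ι → Fb) (hf : ∀ i, q i ∈ hfSpan M H m)
    (res : ∀ i ω, M.Res (q i ω) (gq i)) (hVb : Submodule.span k (Set.range gq) = Vb)
    [∀ ω, FiniteDimensional L (V ω)] (hq : ∀ i ω, q i ω ∈ V ω)
    (hd : ∀ ω, Module.finrank L (V ω) ≤ Module.finrank k Vb) : Nonempty (HBasis M H m V Vb) := by
  haveI := FiniteDimensional.span_of_finite k (Set.finite_range gq)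
  obtain ⟨f, hfm, hfspan, hli⟩ := Submodule.exists_fun_fin_finrank_span_eq k (Set.range gq)
  choose idx hidx using hfm
  have hg : (fun j => gq (idx j)) = f := funext hidx
  refine ⟨⟨_, fun j => q (idx j), f, fun j => hf _, fun j ω => hidx j ▸ res _ ω, hli, hfspan.trans hVb,
    fun ω => ?_⟩⟩
  refine Submodule.eq_of_le_of_finrank_le (Submodule.span_le.2 ?_) ?_
  · rintro _ ⟨j, rfl⟩; exact hq _ ω
  · rw [finrank_span_eq_card (linearIndependent_of_res hH C (fun j => hf (idx j))
      (fun j ω => hidx j ▸ res _ ω) hli ω), Fintype.card_fin, hVb]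
    exact hd ω

theorem exists_hbasis_const (hH : ConstRes π H) (C : Coords M m) {U : Submodule L F}
    [FiniteDimensional L U] (hU : U ≤ polesSpace M m) (hVb : M.image U = Vb) :
    Nonempty (HBasis M H m (fun _ => U) Vb) := by
  haveI : FiniteDimensional k Vb := hVb ▸ M.hasOrth.finiteDimensional_image M.surj U
  set b := Module.finBasis k Vb
  choose u hu hr using fun j => (Reduction.mem_image M.surj).1
    (hVb.symm ▸ (b j).2 : ((b j : Fb)) ∈ M.image U)
  refine exists_hbasis_of_span hH C (fun j _ => u j) (fun j => (b j : Fb))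
    (fun j => const_mem_hfSpan (hU (hu j)) (hr j).mem) (fun j _ => hr j) ?_ (fun j _ => hu j)
    fun _ => by rw [← hVb, M.finrank_image]
  rw [show (fun j => (b j : Fb)) = Vb.subtype ∘ b from rfl, Set.range_comp, ← Submodule.map_span,
    b.span_eq, Submodule.map_subtype_top]

section Rel

variable {K E : Type*} [Field K] [Field E] [Algebra K E] {r t J : ℕ} (e : Fin r → E) (y : Fin t → E)
  (q : Fin J → E)

variable (K) in
/-- The relations describing a condition `f * q j ∈ span y`. -/
def relMap : (Fin r ⊕ Fin J × Fin t → K) →ₗ[K] (Fin J → E) :=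
  LinearMap.pi fun j =>
    Fintype.linearCombination K (fun i => e i * q j) ∘ₗ LinearMap.funLeft K K Sum.inl +
      Fintype.linearCombination K y ∘ₗ LinearMap.funLeft K K fun l => Sum.inr (j, l)

variable (K) in
/-- The element described by a relation. -/
def relElt : (Fin r ⊕ Fin J × Fin t → K) →ₗ[K] E :=
  Fintype.linearCombination K e ∘ₗ LinearMap.funLeft K K Sum.inl

theorem relMap_apply (a : Fin r ⊕ Fin J × Fin t → K) (j : Fin J) :
    relMap K e y q a j = relElt K (J := J) (t := t) e a * q j + ∑ l, a (Sum.inr (j, l)) • y l := by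
  simp [relMap, relElt, Fintype.linearCombination_apply, LinearMap.funLeft_apply, Finset.sum_mul]

theorem rel_spec (he : LinearIndependent K e) (hy : LinearIndependent K y) {V : Submodule K E}
    (hV : ∀ f, f ∈ V ↔ f ∈ Submodule.span K (Set.range e) ∧
      ∀ j, f * q j ∈ Submodule.span K (Set.range y)) :
    (LinearMap.ker (relMap K e y q)).map (relElt K (J := J) (t := t) e) = V ∧
      Module.finrank K (LinearMap.ker (relMap K e y q)) = Module.finrank K V := by
  classical
  have hmap : (LinearMap.ker (relMap K e y q)).map (relElt K (J := J) (t := t) e) = V := by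
    refine le_antisymm ?_ fun f hf => ?_
    · rintro _ ⟨a, ha, rfl⟩
      refine (hV _).2 ⟨?_, fun j => ?_⟩
      · exact (Submodule.mem_span_range_iff_exists_fun K).2
          ⟨fun i => a (Sum.inl i), by simp [relElt, Fintype.linearCombination_apply]⟩
      · have h1 := congrFun (LinearMap.mem_ker.1 ha) j
        rw [relMap_apply, Pi.zero_apply, add_eq_zero_iff_eq_neg] at h1
        rw [h1]
        exact neg_mem (sum_mem fun l _ => Submodule.smul_mem _ _ (Submodule.subset_span ⟨l, rfl⟩))
    · obtain ⟨hfs, hfq⟩ := (hV f).1 hf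
      obtain ⟨a, ha⟩ := (Submodule.mem_span_range_iff_exists_fun K).1 hfs
      choose c hc using fun j => (Submodule.mem_span_range_iff_exists_fun K).1 (hfq j)
      set w : Fin r ⊕ Fin J × Fin t → K := Sum.elim a fun p => -c p.1 p.2
      have hw : relElt K (J := J) (t := t) e w = f := by
        rw [← ha]; simp [relElt, Fintype.linearCombination_apply, w]
      refine ⟨w, LinearMap.mem_ker.2 (funext fun j => ?_), hw⟩
      rw [relMap_apply, hw, ← hc j]
      simp [w]
  refine ⟨hmap, ?_⟩
  set P := (relElt K (J := J) (t := t) e).domRestrict (LinearMap.ker (relMap K e y q))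
  have hinj : Function.Injective P := by
    refine (injective_iff_map_eq_zero P).2 fun a ha => Subtype.ext (funext fun p => ?_)
    have h0 : relElt K (J := J) (t := t) e (a : Fin r ⊕ Fin J × Fin t → K) = 0 := ha
    have hl : ∀ i, (a : Fin r ⊕ Fin J × Fin t → K) (Sum.inl i) = 0 :=
      Fintype.linearIndependent_iff.1 he _ (by
        simpa [relElt, Fintype.linearCombination_apply] using h0)
    rcases p with i | ⟨j, l⟩
    · exact hl i
    · have h1 := congrFun (LinearMap.mem_ker.1 a.2) j
      rw [relMap_apply, h0, zero_mul, zero_add] at h1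
      exact Fintype.linearIndependent_iff.1 hy (fun l => (a : Fin r ⊕ Fin J × Fin t → K)
        (Sum.inr (j, l))) h1 l
  rw [← LinearMap.finrank_range_of_inj hinj, LinearMap.range_domRestrict, hmap]

end Rel

/-- Relations, for families indexed by a finite type. -/
theorem exists_relations_fintype (hH : ConstRes π H) {U ι : Type*} [Fintype U] (q : U → ι → H)
    (ω₀ : Ω)
    (hker : ∀ ω, Module.finrank k (LinearMap.ker (Fintype.linearCombination k fun u =>
      resVec H π (q u) ω₀)) ≤ Module.finrank L (LinearMap.ker (Fintype.linearCombination L fun u =>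
      evVec H (q u) ω))) :
    ∃ (δ : ℕ) (r : Fin δ → U → H),
      LinearIndependent k (fun j => resVec H π (r j) ω₀) ∧
      ∀ ω, Submodule.span L (Set.range fun j => evVec H (r j) ω) =
        LinearMap.ker (Fintype.linearCombination L fun u => evVec H (q u) ω) := by
  let ε := Fintype.equivFin U
  set φk := LinearEquiv.funCongrLeft k k ε
  set φL := LinearEquiv.funCongrLeft L L ε
  have hk : Fintype.linearCombination k (fun j => resVec H π (q (ε.symm j)) ω₀) =
      (Fintype.linearCombination k fun u => resVec H π (q u) ω₀) ∘ₗ φk.toLinearMap :=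
    LinearMap.ext fun a => by
      simp only [LinearMap.comp_apply, Fintype.linearCombination_apply, LinearEquiv.coe_coe, φk,
        LinearEquiv.funCongrLeft_apply, LinearMap.funLeft_apply]
      exact Fintype.sum_equiv ε.symm _ _ fun j => by simp
  have hL : ∀ ω, Fintype.linearCombination L (fun j => evVec H (q (ε.symm j)) ω) =
      (Fintype.linearCombination L fun u => evVec H (q u) ω) ∘ₗ φL.toLinearMap := fun ω =>
    LinearMap.ext fun a => by
      simp only [LinearMap.comp_apply, Fintype.linearCombination_apply, LinearEquiv.coe_coe, φL,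
        LinearEquiv.funCongrLeft_apply, LinearMap.funLeft_apply]
      exact Fintype.sum_equiv ε.symm _ _ fun j => by simp
  obtain ⟨δ, r, hli, hspan⟩ := exists_relations hH (fun j => q (ε.symm j)) ω₀ fun ω => by
    have h1 := LinearMap.finrank_range_add_finrank_ker
      (Fintype.linearCombination k fun j => resVec H π (q (ε.symm j)) ω₀)
    have h2 := LinearMap.finrank_range_add_finrank_ker
      (Fintype.linearCombination L fun j => evVec H (q (ε.symm j)) ω)
    have h3 := hker ω
    rw [Fintype.range_linearCombination, hk, LinearMap.ker_comp,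
      ← φk.finrank_map_eq, Submodule.map_comap_eq_of_surjective φk.surjective,
      Module.finrank_fin_fun] at h1
    rw [Fintype.range_linearCombination, hL, LinearMap.ker_comp,
      ← φL.finrank_map_eq, Submodule.map_comap_eq_of_surjective φL.surjective,
      Module.finrank_fin_fun] at h2
    omega
  refine ⟨δ, fun j u => r j (ε u), ?_, fun ω => ?_⟩
  · exact hli.map' φk.toLinearMap φk.ker
  · have h := congrArg (Submodule.map φL.toLinearMap) (hspan ω)
    rw [Submodule.map_span, ← Set.range_comp, hL, LinearMap.ker_comp,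
      Submodule.map_comap_eq_of_surjective φL.surjective] at h
    exact h

section Colon

variable {r t J : ℕ}

theorem evVec_rel {mB : ℕ} (C : Coords M mB) (e : Fin r → F) (y : Fin t → F) (q : Fin J → F)
    (v₁ : Fin r → Fin J → ℤ → H) (v₂ : Fin t → ℤ → H) (ω : Ω)
    (h₁ : ∀ i j, evVec H (v₁ i j) ω = C.coord (e i * q j))
    (h₂ : ∀ l, evVec H (v₂ l) ω = C.coord (y l)) (a : Fin r ⊕ Fin J × Fin t → L) (p : Fin J × ℤ) :
    Fintype.linearCombination L (fun u => evVec H ((Sum.elim (fun i p => v₁ i p.1 p.2)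
      fun u p => if p.1 = u.1 then v₂ u.2 p.2 else 0 : Fin r ⊕ Fin J × Fin t → Fin J × ℤ → H) u) ω)
      a p = C.coord (relMap L e y q a p.1) p.2 := by
  rw [relMap_apply, Fintype.linearCombination_apply, Fintype.sum_sum_type, Fintype.sum_prod_type,
    relElt, LinearMap.comp_apply, Fintype.linearCombination_apply, Finset.sum_mul, map_add, map_sum,
    map_sum, Pi.add_apply, Pi.add_apply, Finset.sum_apply, Finset.sum_apply, Finset.sum_apply,
    Finset.sum_apply]
  refine congrArg₂ (· + ·) (Finset.sum_congr rfl fun i _ => ?_) ?_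
  · rw [smul_mul_assoc, map_smul, ← h₁]; rfl
  · rw [Finset.sum_eq_single p.1 (fun j _ hj => ?_) (by simp)]
    · rw [Finset.sum_apply]
      refine Finset.sum_congr rfl fun l _ => ?_
      rw [map_smul, ← h₂]
      simp [evVec]
    · rw [Finset.sum_apply]
      exact Finset.sum_eq_zero fun l _ => by simp [evVec, Ne.symm hj]

theorem resVec_rel {mB : ℕ} (C : Coords M mB) (e : Fin r → Fb) (y : Fin t → Fb) (q : Fin J → Fb)
    (v₁ : Fin r → Fin J → ℤ → H) (v₂ : Fin t → ℤ → H) (ω : Ω)
    (h₁ : ∀ i j, resVec H π (v₁ i j) ω = C.coordb (e i * q j))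
    (h₂ : ∀ l, resVec H π (v₂ l) ω = C.coordb (y l)) (a : Fin r ⊕ Fin J × Fin t → k)
    (p : Fin J × ℤ) :
    Fintype.linearCombination k (fun u => resVec H π ((Sum.elim (fun i p => v₁ i p.1 p.2)
      fun u p => if p.1 = u.1 then v₂ u.2 p.2 else 0 : Fin r ⊕ Fin J × Fin t → Fin J × ℤ → H) u) ω)
      a p = C.coordb (relMap k e y q a p.1) p.2 := by
  rw [relMap_apply, Fintype.linearCombination_apply, Fintype.sum_sum_type, Fintype.sum_prod_type,
    relElt, LinearMap.comp_apply, Fintype.linearCombination_apply, Finset.sum_mul, map_add, map_sum,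
    map_sum, Pi.add_apply, Pi.add_apply, Finset.sum_apply, Finset.sum_apply, Finset.sum_apply,
    Finset.sum_apply]
  refine congrArg₂ (· + ·) (Finset.sum_congr rfl fun i _ => ?_) ?_
  · rw [smul_mul_assoc, map_smul, ← h₁]; rfl
  · rw [Finset.sum_eq_single p.1 (fun j _ hj => ?_) (by simp)]
    · rw [Finset.sum_apply]
      refine Finset.sum_congr rfl fun l _ => ?_
      rw [map_smul, ← h₂]
      simp [resVec]
    · rw [Finset.sum_apply]
      exact Finset.sum_eq_zero fun l _ => by simp [resVec, Ne.symm hj]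

end Colon

/-- Subspaces cut out by multiplication conditions. -/
theorem exists_hbasis_colon (hH : ConstRes π H) [Nonempty Ω] {mB mq : ℕ} (hm : m + mq ≤ mB)
    (C : Coords M mB) (B : HBasis M H m V Vb) {Y : Ω → Submodule L F} {Yb : Submodule k Fb}
    (T : HBasis M H mB Y Yb) {J : ℕ} (q : Fin J → Ω → F) (gq : Fin J → Fb)
    (hq : ∀ j, q j ∈ hfSpan M H mq) (hqr : ∀ j ω, M.Res (q j ω) (gq j))
    {W : Ω → Submodule L F} {Wb : Submodule k Fb}
    (hW : ∀ ω f, f ∈ W ω ↔ f ∈ V ω ∧ ∀ j, f * q j ω ∈ Y ω)
    (hWb : ∀ f, f ∈ Wb ↔ f ∈ Vb ∧ ∀ j, f * gq j ∈ Yb)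
    (hd : ∀ ω, Module.finrank L (W ω) = Module.finrank k Wb) :
    Nonempty (HBasis M H m W Wb) := by
  classical
  obtain ⟨ω₀⟩ := ‹Nonempty Ω›
  have hmB : m ≤ mB := le_trans (Nat.le_add_right _ _) hm
  have hφ : ∀ i j, B.e i * q j ∈ hfSpan M H mB := fun i j =>
    hfSpan_mono hm (mul_mem_hfSpan (B.hf i) (hq j))
  choose v₁ hv₁ using fun i j => exists_vec C (hφ i j)
  choose v₂ hv₂ using fun l => exists_vec C (T.hf l)
  set vec : Fin B.r ⊕ Fin J × Fin T.r → Fin J × ℤ → H := Sum.elim (fun i p => v₁ i p.1 p.2)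
    fun u p => if p.1 = u.1 then v₂ u.2 p.2 else 0
  have hkerL : ∀ ω, LinearMap.ker (Fintype.linearCombination L fun u => evVec H (vec u) ω) =
      LinearMap.ker (relMap L (fun i => B.e i ω) (fun l => T.e l ω) fun j => q j ω) := fun ω => by
    have hev := evVec_rel C (fun i => B.e i ω) (fun l => T.e l ω) (fun j => q j ω) v₁ v₂ ω
      (fun i j => hv₁ i j ω) fun l => hv₂ l ω
    ext a
    rw [LinearMap.mem_ker, LinearMap.mem_ker]
    constructor
    · intro h
      refine funext fun j => C.eq_zero ?_ (funext fun i => ?_)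
      · rw [relMap_apply, relElt, LinearMap.comp_apply, Fintype.linearCombination_apply,
          Finset.sum_mul]
        exact add_mem (sum_mem fun i _ => by
            rw [smul_mul_assoc]
            exact Submodule.smul_mem _ _ (mem_polesSpace_of_hfSpan (hφ i j) ω))
          (sum_mem fun l _ => Submodule.smul_mem _ _ (mem_polesSpace_of_hfSpan (T.hf l) ω))
      · rw [← hev a (j, i), h]; rfl
    · intro h
      refine funext fun p => ?_
      rw [hev a p, h, Pi.zero_apply, map_zero]; rfl
  have hkerk : LinearMap.ker (Fintype.linearCombination k fun u => resVec H π (vec u) ω₀) =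
      LinearMap.ker (relMap k B.g T.g gq) := by
    have hev := resVec_rel C B.g T.g gq v₁ v₂ ω₀
      (fun i j => resVec_eq C (hv₁ i j ω₀) (mem_polesSpace_of_hfSpan (hφ i j) ω₀)
        ((B.res i ω₀).mul (hqr j ω₀)))
      fun l => resVec_eq C (hv₂ l ω₀) (mem_polesSpace_of_hfSpan (T.hf l) ω₀) (T.res l ω₀)
    ext a
    rw [LinearMap.mem_ker, LinearMap.mem_ker]
    constructor
    · intro h
      refine funext fun j => C.inj (funext fun i => ?_)
      rw [← hev a (j, i), h]; simp
    · intro h
      refine funext fun p => ?_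
      rw [hev a p, h, Pi.zero_apply, map_zero]; rfl
  have hspecL : ∀ ω, (LinearMap.ker (relMap L (fun i => B.e i ω) (fun l => T.e l ω) fun j =>
      q j ω)).map (relElt L (J := J) (t := T.r) fun i => B.e i ω) = W ω ∧ Module.finrank L (LinearMap.ker
        (relMap L (fun i => B.e i ω) (fun l => T.e l ω) fun j => q j ω)) =
          Module.finrank L (W ω) := fun ω =>
    rel_spec _ _ _ (linearIndependent_of_res hH (⟨C.coord, C.coordb, C.inj, fun f g hf =>
      C.res f g (polesSpace_mono M hmB hf)⟩ : Coords M m) B.hf B.res B.li ω)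
      (linearIndependent_of_res hH C T.hf T.res T.li ω) fun f => by
        rw [B.span_eq, T.span_eq]; exact hW ω f
  have hspeck := rel_spec B.g T.g gq B.li T.li (V := Wb) fun f => by
    rw [B.span_res, T.span_res]; exact hWb f
  obtain ⟨δ, rl, hli, hspan⟩ := exists_relations_fintype hH vec ω₀ fun ω => by
    rw [hkerL ω, hkerk, (hspecL ω).2, hspeck.2, hd ω]
  set E : Fin δ → Ω → F := fun d ω => ∑ i, (((rl d (Sum.inl i) : Ω → A) ω : A) : L) • B.e i ω
  set gE : Fin δ → Fb := fun d => ∑ i, resVec H π (rl d) ω₀ (Sum.inl i) • B.g i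
  have hEf : ∀ d, E d ∈ hfSpan M H m := fun d => by
    rw [show E d = ∑ i, fun ω => (((rl d (Sum.inl i) : Ω → A) ω : A) : L) • B.e i ω from
      funext fun ω => by simp [E, Finset.sum_apply]]
    exact sum_mem fun i _ => smul_mem_hfSpan (rl d (Sum.inl i)).2 (B.hf i)
  have hEr : ∀ d ω, M.Res (E d ω) (gE d) := fun d ω => Reduction.Res.sum fun i _ => by
    show M.Res _ (π ((rl d (Sum.inl i) : Ω → A) ω₀) • B.g i)
    rw [hH _ (rl d (Sum.inl i)).2 ω₀ ω]
    exact (B.res i ω).smul _
  have hrk : ∀ d, resVec H π (rl d) ω₀ ∈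
      LinearMap.ker (Fintype.linearCombination k fun u => resVec H π (vec u) ω₀) := fun d => by
    have h1 : evVec H (rl d) ω₀ ∈
        LinearMap.ker (Fintype.linearCombination L fun u => evVec H (vec u) ω₀) :=
      hspan ω₀ ▸ Submodule.subset_span ⟨d, rfl⟩
    rw [LinearMap.mem_ker, Fintype.linearCombination_apply] at h1 ⊢
    funext p
    have h2 : ∑ u, (rl d u : Ω → A) ω₀ * (vec u p : Ω → A) ω₀ = 0 := Subtype.ext (by
      have h3 := congrFun h1 p
      simp only [Finset.sum_apply, Pi.smul_apply, smul_eq_mul, Pi.zero_apply, evVec] at h3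
      push_cast
      exact h3)
    have h4 := congrArg π h2
    rw [map_sum, map_zero] at h4
    simp only [map_mul] at h4
    rw [Finset.sum_apply, Pi.zero_apply]
    simp only [Pi.smul_apply, smul_eq_mul, resVec]
    exact h4
  have hEk : ∀ d, gE d = relElt k (J := J) (t := T.r) B.g (resVec H π (rl d) ω₀) := fun d => by
    simp [gE, relElt, Fintype.linearCombination_apply, LinearMap.funLeft_apply]
  have hgW : ∀ d, gE d ∈ Wb := fun d => by
    rw [hEk, ← hspeck.1]
    exact Submodule.mem_map_of_mem (hkerk ▸ hrk d)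
  have hgli : LinearIndependent k gE := by
    rw [Fintype.linearIndependent_iff]
    intro c hc
    have hm : ∑ d, c d • resVec H π (rl d) ω₀ ∈ LinearMap.ker (relMap k B.g T.g gq) :=
      hkerk ▸ sum_mem fun d _ => Submodule.smul_mem _ (c d) (hrk d)
    have h0 : relElt k (J := J) (t := T.r) B.g (∑ d, c d • resVec H π (rl d) ω₀) = 0 := by
      rw [map_sum, ← hc]
      exact Finset.sum_congr rfl fun d _ => by rw [map_smul, hEk]
    refine Fintype.linearIndependent_iff.1 hli c (funext fun p => ?_)
    rcases p with i | ⟨j, l⟩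
    · refine Fintype.linearIndependent_iff.1 B.li
        (fun i => (∑ d, c d • resVec H π (rl d) ω₀) (Sum.inl i)) ?_ i
      simp only [relElt, LinearMap.comp_apply, Fintype.linearCombination_apply,
        LinearMap.funLeft_apply] at h0
      exact h0
    · have h1 := congrFun (LinearMap.mem_ker.1 hm) j
      rw [relMap_apply, h0, zero_mul, zero_add, Pi.zero_apply] at h1
      exact Fintype.linearIndependent_iff.1 T.li
        (fun l => (∑ d, c d • resVec H π (rl d) ω₀) (Sum.inr (j, l))) h1 l
  have hδ : δ = Module.finrank k Wb := by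
    rw [← hd ω₀, ← (hspecL ω₀).2, ← hkerL ω₀, ← hspan ω₀,
      finrank_span_eq_card (linearIndependent_of_resVec hH hli ω₀), Fintype.card_fin]
  haveI : FiniteDimensional k Vb :=
    B.span_res ▸ FiniteDimensional.span_of_finite k (Set.finite_range B.g)
  haveI : FiniteDimensional k Wb := Submodule.finiteDimensional_of_le fun f hf => ((hWb f).1 hf).1
  refine ⟨⟨δ, E, gE, hEf, hEr, hgli, ?_, fun ω => ?_⟩⟩
  · refine Submodule.eq_of_le_of_finrank_le
      (Submodule.span_le.2 (by rintro _ ⟨d, rfl⟩; exact hgW d)) ?_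
    rw [finrank_span_eq_card hgli, Fintype.card_fin, hδ]
  · rw [← (hspecL ω).1, ← hkerL ω, ← hspan ω, Submodule.map_span, ← Set.range_comp]
    exact congrArg _ (congrArg Set.range (funext fun d => by
      simp [E, relElt, Fintype.linearCombination_apply, LinearMap.funLeft_apply, evVec]))

theorem exists_pivots (C : Coords M m) [FiniteDimensional k Vb] :
    ∃ (s : Fin (Module.finrank k Vb) → ℤ) (gE : Fin (Module.finrank k Vb) → Fb),
      (∀ j, gE j ∈ Vb) ∧ (∀ i j, C.coordb (gE j) (s i) = if i = j then 1 else 0) ∧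
      ∀ g ∈ Vb, (∀ i, C.coordb g (s i) = 0) → g = 0 := by
  classical
  set r := Module.finrank k Vb
  set b := Module.finBasis k Vb
  set φ : ℤ → Fin r → k := fun n j => C.coordb (b j : Fb) n
  have hspan : Submodule.span k (Set.range φ) = ⊤ := by
    by_contra hne
    obtain ⟨f, hf, hker⟩ := Submodule.exists_le_ker_of_lt_top _ (lt_top_iff_ne_top.2 hne)
    apply hf
    have hli : LinearIndependent k fun j => C.coordb (b j : Fb) :=
      (b.linearIndependent.map' Vb.subtype (Submodule.ker_subtype _)).map' _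
        (LinearMap.ker_eq_bot.2 C.inj)
    have hzero : ∀ j, f (Pi.single j 1) = 0 := by
      refine Fintype.linearIndependent_iff.1 hli (fun j => f (Pi.single j 1)) (funext fun i => ?_)
      have h1 : f (φ i) = 0 := hker (Submodule.subset_span ⟨i, rfl⟩)
      rw [← Finset.univ_sum_single (φ i), map_sum] at h1
      simp only [Finset.sum_apply, Pi.smul_apply, Pi.zero_apply, smul_eq_mul]
      rw [← h1]
      refine Finset.sum_congr rfl fun j _ => ?_
      rw [show Pi.single j (φ i j) = φ i j • (Pi.single j (1 : k) : Fin r → k) by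
        simp [← Pi.single_smul, smul_eq_mul], map_smul, smul_eq_mul, mul_comm]
    refine LinearMap.pi_ext fun j x => ?_
    rw [show (Pi.single j x : Fin r → k) = x • Pi.single j 1 by
      simp [← Pi.single_smul, smul_eq_mul], map_smul, hzero, smul_zero, LinearMap.zero_apply]
  obtain ⟨f, hfm, hfspan, -⟩ := Submodule.exists_fun_fin_finrank_span_eq k (Set.range φ)
  have hr : r = Module.finrank k (Submodule.span k (Set.range φ)) := by
    rw [hspan, finrank_top, Module.finrank_fin_fun]
  choose s hs using hfm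
  set ev : Vb →ₗ[k] (Fin r → k) :=
    (LinearMap.funLeft k k fun i => s (Fin.cast hr i)) ∘ₗ C.coordb ∘ₗ Vb.subtype
  have hinj : Function.Injective ev := (injective_iff_map_eq_zero ev).2 fun v hv => by
    have h0 : ∀ x ∈ Submodule.span k (Set.range φ), ∑ j, b.repr v j * x j = 0 := by
      intro x hx
      rw [← hfspan] at hx
      induction hx using Submodule.span_induction with
      | mem x hx =>
        obtain ⟨i, rfl⟩ := hx
        have h1 := congrFun hv (Fin.cast hr.symm i)
        rw [← hs i]
        have e1 : C.coordb (v : Fb) = ∑ j, b.repr v j • C.coordb (b j : Fb) := by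
          conv_lhs => rw [← Vb.subtype_apply v, ← b.sum_repr v, map_sum, map_sum]
          simp only [map_smul, Submodule.subtype_apply]
        simp only [ev, LinearMap.comp_apply, LinearMap.funLeft_apply, Submodule.subtype_apply, e1,
          Finset.sum_apply, Pi.smul_apply, smul_eq_mul, Pi.zero_apply] at h1
        exact h1
      | zero => simp
      | add x y _ _ hx hy => simp [mul_add, Finset.sum_add_distrib, hx, hy]
      | smul c x _ hx => simp [mul_left_comm _ c, ← Finset.mul_sum, hx]
    refine b.repr.injective (Finsupp.ext fun j => ?_)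
    have := h0 (Pi.single j 1) (hspan ▸ Submodule.mem_top)
    simpa [Pi.single_apply] using this
  have hbij : Function.Bijective ev :=
    ⟨hinj, (LinearMap.injective_iff_surjective_of_finrank_eq_finrank
      (by rw [Module.finrank_fin_fun])).1 hinj⟩
  let evE := LinearEquiv.ofBijective ev hbij
  refine ⟨fun i => s (Fin.cast hr i), fun j => (evE.symm (Pi.single j 1) : Fb), fun j => SetLike.coe_mem _,
    fun i j => ?_, fun g hg h0 => ?_⟩
  · have := congrFun (evE.apply_symm_apply (Pi.single j (1 : k))) i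
    rw [Pi.single_apply] at this
    exact this
  · exact congrArg Subtype.val (hinj (a₁ := ⟨g, hg⟩) (a₂ := 0) (by rw [map_zero]; exact funext h0))

/-- The echelon basis with respect to given pivots. -/
theorem exists_echelon (hH : ConstRes π H) (C : Coords M m) (B : HBasis M H m V Vb) {r : ℕ}
    (s : Fin r → ℤ) (gE : Fin r → Fb) (hgm : ∀ j, gE j ∈ Vb)
    (hg : ∀ i j, C.coordb (gE j) (s i) = if i = j then 1 else 0)
    (hg0 : ∀ g ∈ Vb, (∀ i, C.coordb g (s i) = 0) → g = 0) :
    ∃ E : Fin r → Ω → F, (∀ j, E j ∈ hfSpan M H m) ∧ (∀ j ω, E j ω ∈ V ω) ∧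
      (∀ j ω, M.Res (E j ω) (gE j)) ∧
      (∀ j ω i, C.coord (E j ω) (s i) = if i = j then 1 else 0) ∧
      ∀ ω, ∀ f ∈ V ω, f = ∑ j, C.coord f (s j) • E j ω := by
  classical
  have hcomb : ∀ j, B.g j = ∑ i, C.coordb (B.g j) (s i) • gE i := fun j => by
    refine sub_eq_zero.1 (hg0 _ (sub_mem (B.g_mem j)
      (sum_mem fun i _ => Submodule.smul_mem _ _ (hgm i))) fun i => ?_)
    simp [map_sub, map_sum, map_smul, hg]
  have hgEli : LinearIndependent k gE := Fintype.linearIndependent_iff.2 fun c hc i => by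
    have h := congrFun (congrArg C.coordb hc) (s i)
    simpa [map_sum, map_smul, hg] using h
  have hgEspan : Submodule.span k (Set.range gE) = Vb := by
    refine le_antisymm (Submodule.span_le.2 (by rintro _ ⟨i, rfl⟩; exact hgm i)) ?_
    rw [← B.span_res, Submodule.span_le]
    rintro _ ⟨j, rfl⟩
    rw [hcomb j]
    exact sum_mem fun i _ => Submodule.smul_mem _ _ (Submodule.subset_span ⟨i, rfl⟩)
  have hr : r = B.r := by
    have h1 := finrank_span_eq_card hgEli
    rw [hgEspan, ← B.span_res, finrank_span_eq_card B.li, Fintype.card_fin, Fintype.card_fin] at h1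
    exact h1.symm
  choose v hv using fun j => exists_vec C (B.hf j)
  set N : Matrix (Fin r) (Fin r) H := Matrix.of fun i j => v (Fin.cast hr j) (s i)
  let ev : Ω → (H →+* A) := fun ω => (Pi.evalRingHom (fun _ : Ω => A) ω).comp H.val.toRingHom
  have hunit : ∀ ω, IsUnit ((ev ω) N.det) := fun ω => by
    refine isUnit_of_map_unit π _ ?_
    rw [RingHom.map_det, RingHom.map_det, ← Matrix.isUnit_iff_isUnit_det,
      ← Matrix.linearIndependent_cols_iff_isUnit]
    refine Fintype.linearIndependent_iff.2 fun c hc j => ?_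
    have hzero : ∑ j, c j • B.g (Fin.cast hr j) = 0 := by
      refine hg0 _ (sum_mem fun j _ => Submodule.smul_mem _ _
        (B.g_mem _)) fun i => ?_
      have h1 := congrFun hc i
      rw [map_sum, Finset.sum_apply]
      simp only [Finset.sum_apply, Pi.smul_apply, smul_eq_mul, Pi.zero_apply, map_smul] at h1 ⊢
      rw [← h1]
      refine Finset.sum_congr rfl fun j _ => ?_
      rw [← resVec_eq C (hv _ ω) (mem_polesSpace_of_hfSpan (B.hf _) ω) (B.res _ ω)]
      rfl
    exact Fintype.linearIndependent_iff.1 (B.li.comp _ (Fin.cast_injective hr)) c hzero j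
  have hdet : IsUnit N.det := by
    obtain ⟨h', hh', hmul⟩ := exists_inv_of_isUnit H N.det.2 hunit
    exact IsUnit.of_mul_eq_one (⟨h', hh'⟩ : H) (Subtype.ext (funext hmul))
  set E : Fin r → Ω → F := fun l ω =>
    ∑ j, (((N⁻¹ j l : Ω → A) ω : A) : L) • B.e (Fin.cast hr j) ω
  have hEf : ∀ l, E l ∈ hfSpan M H m := fun l => by
    rw [show E l = ∑ j, fun ω => (((N⁻¹ j l : Ω → A) ω : A) : L) • B.e (Fin.cast hr j) ω from
      funext fun ω => by simp [E, Finset.sum_apply]]
    exact sum_mem fun j _ => smul_mem_hfSpan (N⁻¹ j l).2 (B.hf _)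
  have hEV : ∀ l ω, E l ω ∈ V ω := fun l ω =>
    sum_mem fun j _ => Submodule.smul_mem _ _ (B.e_mem _ ω)
  have hEs : ∀ l ω i, C.coord (E l ω) (s i) = if i = l then 1 else 0 := fun l ω i => by
    have h1 := congrArg (fun z : H => (((z : Ω → A) ω : A) : L))
      (congrFun (congrFun (Matrix.mul_nonsing_inv N hdet) i) l)
    simp only [Matrix.mul_apply, Matrix.one_apply] at h1
    rw [map_sum, Finset.sum_apply]
    have e1 : ((((if i = l then (1 : H) else 0) : H) : Ω → A) ω : L) = if i = l then 1 else 0 := by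
      split_ifs <;> simp
    rw [← e1, ← h1]
    simp only [map_smul, Pi.smul_apply, ← hv]
    push_cast [Finset.sum_apply, Pi.mul_apply, N, Matrix.of_apply, smul_eq_mul]
    exact Finset.sum_congr rfl fun j _ => mul_comm _ _
  have hEr : ∀ l ω, M.Res (E l ω) (gE l) := fun l ω => by
    obtain ⟨g, hg'⟩ := res_of_hfSpan hH (hEf l)
    suffices g = gE l from this ▸ hg' ω
    obtain ⟨x, hx, hxr⟩ : ∃ x, x ∈ Submodule.span k (Set.range B.g) ∧ M.Res (E l ω) x := by
      refine ⟨∑ j, π ((N⁻¹ j l : Ω → A) ω) • B.g (Fin.cast hr j), sum_mem fun j _ =>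
        Submodule.smul_mem _ _ (Submodule.subset_span ⟨_, rfl⟩),
        Reduction.Res.sum fun j _ => (B.res _ ω).smul _⟩
    rw [(hg' ω).unique hxr]
    refine sub_eq_zero.1 (hg0 _ (sub_mem (B.span_res.le hx) (hgm l)) fun i => ?_)
    obtain ⟨a, ha, hb⟩ := C.res _ _ (mem_polesSpace_of_hfSpan (hEf l) ω) hxr (s i)
    rw [hEs] at ha
    rw [map_sub, Pi.sub_apply, ← hb, hg, sub_eq_zero]
    split_ifs with h
    · rw [if_pos h] at ha; rw [show a = 1 from Subtype.ext ha, map_one]
    · rw [if_neg h] at ha; rw [show a = 0 from Subtype.ext ha, map_zero]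
  refine ⟨E, hEf, hEV, hEr, hEs, fun ω f hf => ?_⟩
  haveI := B.finiteDimensional ω
  have hspan : Submodule.span L (Set.range fun l => E l ω) = V ω := by
    refine Submodule.eq_of_le_of_finrank_le
      (Submodule.span_le.2 (by rintro _ ⟨l, rfl⟩; exact hEV l ω)) ?_
    rw [finrank_span_eq_card (linearIndependent_of_res hH C hEf hEr hgEli ω),
      (B.finrank_eq hH C ω).1, Fintype.card_fin, hr]
  obtain ⟨a, rfl⟩ := (Submodule.mem_span_range_iff_exists_fun L).1 (hspan ▸ hf)
  refine Finset.sum_congr rfl fun j _ => ?_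
  simp [map_sum, map_smul, Finset.sum_apply, hEs]

end FLTAgent.FlatModel
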