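import Fermat.Agent.FlatModel.Family
import Fermat.Agent.FlatModel.Descent

/-!
# Galois action on sections, fixed bases and fixed lifts of reduced divisors
-/

set_option autoImplicit false
set_option linter.style.haveILetI false
set_option linter.unusedSectionVars false

noncomputable section

open scoped Pointwise
open IsLocalRing

namespace FLTAgent.FlatModel

open AlgebraicCurve FLTAgent.Curves FLTAgent.Specialization
open FLTAgent.Frobenius (centre)

local notation "QQb" => AlgebraicClosure ℚ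
local notation "GG" => (AlgebraicClosure ℚ ≃ₐ[ℚ] AlgebraicClosure ℚ)
local notation "ZB" => integralClosure ℤ (AlgebraicClosure ℚ)

/-! ### Lifts of residues fixed by their stabilisers -/

section Teichmuller

variable {A : ValuationSubring QQb} {ℓ : ℕ} [hl : Fact ℓ.Prime] (hA : A.LiesOverPrime ℓ)

include hA

theorem exists_fixed_lift (z : ResidueField A) : ∃ ζ : ZB, residue A (intInclusion A ζ) = z ∧
    ∀ σ ∈ A.decompositionSubgroup ℚ, σ • ζ - ζ ∈ centre A → σ • ζ = ζ := by
  classical
  rcases eq_or_ne z 0 with rfl | hz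
  · exact ⟨0, by rw [map_zero, map_zero], fun σ _ _ => smul_zero σ⟩
  haveI := FrobTrace.charP_residueField (ℓ := ℓ) hA
  obtain ⟨n', hn'0, hn'⟩ := exists_pow_residue_one hA hz
  set n := orderOf z
  have hn0 : 0 < n := (isOfFinOrder_iff_pow_eq_one.2 ⟨n', hn'0, hn'⟩).orderOf_pos
  haveI : NeZero n := ⟨hn0.ne'⟩
  have hnl : ¬ ℓ ∣ n := by
    rintro ⟨q, hq⟩
    have hq0 : 0 < q := pos_of_mul_pos_right (hq ▸ hn0) (Nat.zero_le _)
    have h1 : (z ^ q - 1) ^ ℓ = 0 := by
      rw [sub_pow_char, one_pow, ← pow_mul, mul_comm, ← hq, pow_orderOf_eq_one, sub_self]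
    have h2 : z ^ q = 1 := sub_eq_zero.1 (pow_eq_zero_iff hl.out.ne_zero |>.1 h1)
    have h3 := orderOf_le_of_pow_eq_one hq0 h2
    have h4 : q * 2 ≤ n := by
      rw [hq, mul_comm ℓ q]; exact Nat.mul_le_mul_left q hl.out.two_le
    omega
  have hnk : (n : ResidueField A) ≠ 0 := fun h => hnl ((CharP.cast_eq_zero_iff _ ℓ n).1 h)
  obtain ⟨μ, hμ⟩ := IsAlgClosed.exists_aeval_eq_zero QQb (Polynomial.cyclotomic n ℚ)
    (Polynomial.degree_cyclotomic_pos n ℚ hn0).ne'
  rw [Polynomial.aeval_def, Polynomial.eval₂_eq_eval_map, Polynomial.map_cyclotomic,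
    ← Polynomial.IsRoot.def, Polynomial.isRoot_cyclotomic_iff] at hμ
  have hint : IsIntegral ℤ μ := hμ.isIntegral hn0
  set μ' : ZB := ⟨μ, hint⟩
  have hμ' : IsPrimitiveRoot μ' n := IsPrimitiveRoot.of_map_of_injective
    (f := (ZB).val.toRingHom) (by exact hμ) Subtype.val_injective
  set ψ : ZB →+* ResidueField A := (residue A).comp (intInclusion A)
  have hfac : (Polynomial.X ^ n - 1 : Polynomial (ResidueField A)) =
      ∏ ζ ∈ Polynomial.nthRootsFinset n (1 : ZB), (Polynomial.X - Polynomial.C (ψ ζ)) := by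
    have h := congrArg (Polynomial.map ψ) (Polynomial.X_pow_sub_one_eq_prod hn0 hμ')
    simpa [Polynomial.map_prod] using h
  have hsep : (Polynomial.X ^ n - 1 : Polynomial (ResidueField A)).Separable :=
    Polynomial.X_pow_sub_one_separable_iff.2 hnk
  have hinj : Set.InjOn ψ (Polynomial.nthRootsFinset n (1 : ZB)) := by
    have hroots : (Polynomial.X ^ n - 1 : Polynomial (ResidueField A)).roots =
        ((Polynomial.nthRootsFinset n (1 : ZB)).val.map ψ) := by
      rw [← Polynomial.roots_multiset_prod_X_sub_C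
        ((Polynomial.nthRootsFinset n (1 : ZB)).val.map ψ), Multiset.map_map, hfac]
      rfl
    exact fun a ha b hb h =>
      Multiset.inj_on_of_nodup_map (hroots ▸ Polynomial.nodup_roots hsep) a ha b hb h
  have hzroot : (Polynomial.X ^ n - 1 : Polynomial (ResidueField A)).eval z = 0 := by
    simp [n, pow_orderOf_eq_one]
  rw [hfac, Polynomial.eval_prod, Finset.prod_eq_zero_iff] at hzroot
  obtain ⟨ζ, hζ, hζz⟩ := hzroot
  rw [Polynomial.eval_sub, Polynomial.eval_X, Polynomial.eval_C, sub_eq_zero] at hζz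
  refine ⟨ζ, hζz.symm, fun σ _ hσ => hinj ?_ hζ ?_⟩
  · simp only [Finset.mem_coe, Polynomial.mem_nthRootsFinset hn0] at hζ ⊢
    rw [← smul_pow', hζ, smul_one]
  · rw [← sub_eq_zero, ← map_sub]
    exact residue_intInclusion_eq_zero.2 hσ

end Teichmuller

/-! ### The action on sections -/

section Action

variable {F : Type*} [Field F] [Algebra QQb F] (ρ : GG →* SemilinearAut QQb F)

/-- The base automorphisms are the given ones. -/
def IsArith : Prop := ∀ (σ : GG) (a : QQb), ρ σ • algebraMap QQb F a = algebraMap QQb F (σ a)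

variable {ρ}

theorem IsArith.smul_smul (h : IsArith ρ) (σ : GG) (c : QQb) (f : F) :
    ρ σ • (c • f) = σ c • (ρ σ • f) := by
  rw [Algebra.smul_def, Algebra.smul_def, ← h σ c]
  exact smul_mul' (ρ σ) _ _

theorem smul_mem_rrSpace [IsAlgClosed QQb] [IsFunctionField QQb F] {D : Divisor QQb F} {f : F}
    (hf : f ∈ riemannRochSpace D) (g : SemilinearAut QQb F) : g • f ∈ riemannRochSpace (g • D) := by
  refine mem_rrSpace.2 fun v => ?_
  rcases eq_or_ne f 0 with rfl | hf0
  · exact Or.inl (smul_zero g)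
  refine ordGE_of_le ?_
  rw [SemilinearAut.divisor_smul_apply, ← smul_inv_smul g v, SemilinearAut.ord_smul, inv_smul_smul]
  exact (mem_rrSpace.1 hf _).le_ord hf0

theorem divOf_smul [IsAlgClosed QQb] [IsFunctionField QQb F] (g : SemilinearAut QQb F) (f : F) :
    divOf QQb (g • f) = g • divOf QQb f := Finsupp.ext fun v => by
  rw [divOf_apply, SemilinearAut.divisor_smul_apply, divOf_apply]
  conv_lhs => rw [← smul_inv_smul g v, SemilinearAut.ord_smul]

theorem poleDiv_smul [IsAlgClosed QQb] [IsFunctionField QQb F] (g : SemilinearAut QQb F) (f : F) :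
    g • poleDiv QQb f = poleDiv QQb (g • f) := Finsupp.ext fun v => by
  rw [SemilinearAut.divisor_smul_apply, poleDiv_apply, poleDiv_apply]
  conv_rhs => rw [← smul_inv_smul g v, SemilinearAut.ord_smul]

theorem smul_nonneg_divisor {D : Divisor QQb F} (hD : 0 ≤ D) (g : SemilinearAut QQb F) :
    0 ≤ g • D := fun v => by
  rw [SemilinearAut.divisor_smul_apply]
  exact hD _

end Action

/-! ### The model with its action -/

section Setting

variable {A : ValuationSubring QQb} [IsAlgClosed (ResidueField A)] [IsAlgClosed QQb]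
variable {F Fb : Type*} [Field F] [Field Fb] [Algebra QQb F] [Algebra (ResidueField A) Fb]
  [IsFunctionField QQb F] [IsFunctionField (ResidueField A) Fb]

variable (M : Model (residue A) F Fb) (ρ : GG →* SemilinearAut QQb F)

/-- Coordinates compatible with the Galois action. -/
structure EqCoords (m : ℕ) extends Coords M m where
  equiv : ∀ (σ : GG) (f : F) (n : ℤ), coord (ρ σ • f) n = σ (coord f n)

variable {M ρ}

theorem constRes_subsingleton {Ω : Type*} [Subsingleton Ω] {L k : Type*} [Field L] [Field k]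
    {V : ValuationSubring L} {π : V →+* k} (H : Subalgebra V (Ω → V)) : ConstRes π H :=
  fun h _ ω ω' => by rw [Subsingleton.elim ω ω']

variable (M ρ) in
/-- An integral basis of a space of sections fixed by the Galois group. -/
structure FixedBasis {m : ℕ} (C : EqCoords M ρ m) where
  r : ℕ
  piv : Fin r → ℤ
  b : Fin r → F
  g : Fin r → Fb
  mem : ∀ j, b j ∈ polesSpace M m
  res : ∀ j, M.Res (b j) (g j)
  fixed : ∀ σ j, ρ σ • b j = b j
  expand : ∀ f ∈ polesSpace M m, f = ∑ j, C.coord f (piv j) • b j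
  span_res : Submodule.span (ResidueField A) (Set.range g) =
    riemannRochSpace ((m : ℤ) • poleDiv (ResidueField A) M.xb)

theorem image_polesSpace (hM : M.Smooth) {m : ℕ} (hm : M.bound ≤ (m : ℤ) * M.deg) :
    M.image (polesSpace M m) = riemannRochSpace ((m : ℤ) • poleDiv (ResidueField A) M.xb) := by
  rw [Model.image_rrSpace hM (by rwa [M.degree_poles]), map_zsmul, Model.divMap_poleDiv hM]

theorem smul_poles (hx : ∀ σ, ρ σ • M.x = M.x) (σ : GG) (m : ℤ) :
    ρ σ • (m • poleDiv QQb M.x) = m • poleDiv QQb M.x := by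
  rw [← DistribSMul.toAddMonoidHom_apply, map_zsmul, DistribSMul.toAddMonoidHom_apply,
    poleDiv_smul, hx]

theorem smul_mem_polesSpace (hx : ∀ σ, ρ σ • M.x = M.x) (σ : GG) {m : ℕ} {f : F}
    (hf : f ∈ polesSpace M m) : ρ σ • f ∈ polesSpace M m :=
  (congrArg riemannRochSpace (smul_poles hx σ m)).le (smul_mem_rrSpace hf (ρ σ))

theorem exists_fixedBasis (hM : M.Smooth) (hρ : IsArith ρ) (hx : ∀ σ, ρ σ • M.x = M.x) {m : ℕ}
    (hm : M.bound ≤ (m : ℤ) * M.deg) (C : EqCoords M ρ m) : Nonempty (FixedBasis M ρ C) := by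
  classical
  have hH := constRes_subsingleton (π := residue A) (⊤ : Subalgebra A (Unit → A))
  obtain ⟨B⟩ := exists_hbasis_const (H := (⊤ : Subalgebra A (Unit → A))) hH C.toCoords le_rfl
    (image_polesSpace hM hm)
  haveI : FiniteDimensional (ResidueField A)
      (riemannRochSpace ((m : ℤ) • poleDiv (ResidueField A) M.xb)) := inferInstance
  obtain ⟨s, gE, hgm, hg, hg0⟩ :=
    exists_pivots C.toCoords (Vb := riemannRochSpace ((m : ℤ) • poleDiv (ResidueField A) M.xb))
  obtain ⟨E, hEf, -, hEr, hEs, hexp⟩ := exists_echelon hH C.toCoords B s gE hgm hg hg0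
  have hmem : ∀ j, E j () ∈ polesSpace M m := fun j => mem_polesSpace_of_hfSpan (hEf j) ()
  refine ⟨⟨_, s, fun j => E j (), gE, hmem, fun j => hEr j (), fun σ j => ?_, fun f hf => hexp () f hf,
    le_antisymm (Submodule.span_le.2 (by rintro _ ⟨j, rfl⟩; exact hgm j)) fun g hg' => ?_⟩⟩
  · rw [hexp () _ (smul_mem_polesSpace hx σ (hmem j))]
    conv_rhs => rw [hexp () _ (hmem j)]
    refine Finset.sum_congr rfl fun i _ => ?_
    rw [C.equiv, hEs]
    split_ifs <;> simp
  · rw [show g = ∑ j, C.coordb g (s j) • gE j from sub_eq_zero.1 (hg0 _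
      (sub_mem hg' (sum_mem fun j _ => Submodule.smul_mem _ _ (hgm j))) fun i => by
        simp [map_sub, map_sum, map_smul, hg])]
    exact sum_mem fun j _ => Submodule.smul_mem _ _ (Submodule.subset_span ⟨j, rfl⟩)

theorem smul_residue_eq {σ : GG} (hσ : σ ∈ A.decompositionSubgroup ℚ) {ζ : ZB}
    (hζ : σ • ζ - ζ ∈ centre A) {a : A} (ha : residue A a = residue A (intInclusion A ζ)) :
    residue A ⟨σ (a : QQb), Places.smul_mem_of_decomposition A hσ a.2⟩ = residue A a := by
  have h1 : (a : QQb) - ζ ∈ A.nonunits := by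
    rw [← sub_eq_zero, ← map_sub, residue_eq_zero_iff, ← ValuationSubring.coe_mem_nonunits_iff] at ha
    exact ha
  have h2 : σ ((a : QQb) - ζ) ∈ (σ • A).nonunits := by
    rw [Places.mem_smul_nonunits_iff, show σ⁻¹ • σ ((a : QQb) - ζ) = (a : QQb) - ζ from
      inv_smul_smul σ _]
    exact h1
  rw [MulAction.mem_stabilizer_iff.1 hσ, map_sub] at h2
  rw [ha]
  have h3 : residue A ⟨σ (a : QQb), Places.smul_mem_of_decomposition A hσ a.2⟩ =
      residue A (intInclusion A (σ • ζ)) := by
    rw [← sub_eq_zero, ← map_sub, residue_eq_zero_iff, ← ValuationSubring.coe_mem_nonunits_iff]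
    exact h2
  rw [h3, ← sub_eq_zero, ← map_sub, ← map_sub]
  exact residue_intInclusion_eq_zero.2 hζ

variable {ℓ : ℕ} [hl : Fact ℓ.Prime] (hA : A.LiesOverPrime ℓ)

include hA

/-- Finitely many residues control the reduced divisors of the conjugates. -/
theorem exists_residue_data (hM : M.Smooth) (hρ : IsArith ρ) (hx : ∀ σ, ρ σ • M.x = M.x) {m : ℕ}
    {d : ℤ} (hm : M.bound + d ≤ (m : ℤ) * M.deg) (hd : 0 ≤ d) {C : EqCoords M ρ m}
    (BG : FixedBasis M ρ C) (Eb : Divisor (ResidueField A) Fb) :
    ∃ R : Finset ZB, ∀ E : Divisor QQb F, 0 ≤ E → Divisor.degree E ≤ d →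
      Model.divMap hM E = Eb → ∀ σ ∈ A.decompositionSubgroup ℚ,
        (∀ a ∈ R, σ • a - a ∈ centre A) → Model.divMap hM (ρ σ • E) = Eb := by
  classical
  set W := riemannRochSpace ((m : ℤ) • poleDiv (ResidueField A) M.xb - Eb)
  set b := Module.finBasis (ResidueField A) W
  choose ζ hζ _ using fun p : Fin (Module.finrank (ResidueField A) W) × Fin BG.r =>
    exists_fixed_lift hA (C.coordb (b p.1 : Fb) (BG.piv p.2))
  refine ⟨Finset.univ.image ζ, fun E hE hdeg hEb σ hσ hR => ?_⟩
  have hgm : M.bound ≤ Divisor.degree ((m : ℤ) • poleDiv QQb M.x - E) := by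
    rw [map_sub, M.degree_poles]; omega
  have himg := Model.image_rrSpace hM hgm
  rw [map_sub, map_zsmul, Model.divMap_poleDiv hM, hEb] at himg
  have hgm' : M.bound ≤ Divisor.degree ((m : ℤ) • poleDiv QQb M.x - ρ σ • E) := by
    rw [map_sub, M.degree_poles, SemilinearAut.degree_smul]; omega
  have himg' := Model.image_rrSpace hM hgm'
  rw [map_sub, map_zsmul, Model.divMap_poleDiv hM] at himg'
  have hle : W ≤ riemannRochSpace ((m : ℤ) • poleDiv (ResidueField A) M.xb -
      Model.divMap hM (ρ σ • E)) := by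
    rw [← Submodule.map_subtype_top W, ← b.span_eq, Submodule.map_span, Submodule.span_le, ← himg']
    rintro _ ⟨_, ⟨j, rfl⟩, rfl⟩
    obtain ⟨f, hf, hfr⟩ := (Reduction.mem_image M.surj).1
      (himg.ge (b j).2 : ((b j : Fb)) ∈ M.image (riemannRochSpace ((m : ℤ) • poleDiv QQb M.x - E)))
    have hfG : f ∈ polesSpace M m := rrSpace_le (sub_le_self _ hE) hf
    choose a ha hab using C.res f _ hfG hfr
    refine Reduction.mem_image_of_res (f := ρ σ • f) ?_ ?_
    · have := smul_mem_rrSpace hf (ρ σ)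
      rwa [smul_sub, smul_poles hx] at this
    · show M.Res (ρ σ • f) (b j : Fb)
      have hsum := Reduction.Res.sum (s := (Finset.univ : Finset (Fin BG.r)))
        (a := fun i => (a (BG.piv i) : QQb) • BG.b i)
        (b := fun i => residue A (a (BG.piv i)) • BG.g i) fun i _ => (BG.res i).smul _
      have hf' : f = ∑ i, (a (BG.piv i) : QQb) • BG.b i :=
        (BG.expand f hfG).trans (Finset.sum_congr rfl fun i _ => by rw [ha])
      rw [← hf'] at hsum
      have hb := hfr.unique hsum
      rw [hf', Finset.smul_sum, hb]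
      refine Reduction.Res.sum fun i _ => ?_
      rw [hρ.smul_smul, BG.fixed, ← smul_residue_eq hσ
        (hR _ (Finset.mem_image.2 ⟨(j, i), Finset.mem_univ _, rfl⟩))
        (a := a (BG.piv i)) (by rw [hab, hζ])]
      exact (BG.res i).smul (⟨σ (a (BG.piv i) : QQb), Places.smul_mem_of_decomposition A hσ (a (BG.piv i)).2⟩ : A)
  have hbig : rBound (ResidueField A) Fb + 1 ≤
      Divisor.degree ((m : ℤ) • poleDiv (ResidueField A) M.xb - Eb) := by
    rw [map_sub, M.degree_poles_red, ← hEb, Model.degree_divMap]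
    have : rBound (ResidueField A) Fb + 1 ≤ M.bound := by rw [Model.bound]; omega
    omega
  have hbig' : rBound (ResidueField A) Fb + 1 ≤
      Divisor.degree ((m : ℤ) • poleDiv (ResidueField A) M.xb - Model.divMap hM (ρ σ • E)) := by
    rw [map_sub, M.degree_poles_red, Model.degree_divMap, SemilinearAut.degree_smul]
    have : rBound (ResidueField A) Fb + 1 ≤ M.bound := by rw [Model.bound]; omega
    omega
  have heq := eq_of_le_of_degree_le (le_of_rrSpace_le hle hbig) (by
    rw [map_sub, map_sub, ← hEb, Model.degree_divMap, Model.degree_divMap, SemilinearAut.degree_smul])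
  exact (sub_right_injective heq).symm

/-- Every reduced place has a lift fixed by the automorphisms fixing finitely many residues. -/
theorem exists_fixed_place (hM : M.Smooth) (hρ : IsArith ρ) (hx : ∀ σ, ρ σ • M.x = M.x) {m : ℕ}
    (hm : M.bound + 1 ≤ (m : ℤ) * M.deg) {C : EqCoords M ρ m} (BG : FixedBasis M ρ C)
    (Q : Place (ResidueField A) Fb) :
    ∃ (P : Place QQb F) (R : Finset ZB), Model.place hM P = Q ∧
      ∀ σ ∈ A.decompositionSubgroup ℚ, (∀ a ∈ R, σ • a - a ∈ centre A) → ρ σ • P = P := by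
  classical
  have hrb : rBound (ResidueField A) Fb + 1 ≤ M.bound := by rw [Model.bound]; omega
  set Gb := (m : ℤ) • poleDiv (ResidueField A) M.xb
  obtain ⟨u, hu, hex⟩ := exists_exact (G := Gb - Finsupp.single Q 1)
    (by rw [map_sub, M.degree_poles_red, degree_single']; omega) Q
  have hu0 := hex.ne_zero
  have huG : u ∈ riemannRochSpace Gb :=
    rrSpace_le (sub_le_self _ (Finsupp.single_nonneg.2 zero_le_one)) hu
  obtain ⟨c, hc⟩ := (Submodule.mem_span_range_iff_exists_fun _).1 (BG.span_res.ge huG)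
  choose ζ hζ hfix using fun i => exists_fixed_lift hA (c i)
  set v : F := ∑ i, ((ζ i : ZB) : QQb) • BG.b i
  have hv : M.Res v u := by
    rw [← hc]
    exact Reduction.Res.sum fun i _ => hζ i ▸ (BG.res i).smul (intInclusion A (ζ i))
  have hv0 : v ≠ 0 := hv.ne_zero hu0
  have hvG : v ∈ polesSpace M m := sum_mem fun i _ => Submodule.smul_mem _ _ (BG.mem i)
  set E := divOf QQb v + (m : ℤ) • poleDiv QQb M.x with hEdef
  have hE : 0 ≤ E := (mem_rrSpace_iff_divOf hv0).1 hvG
  have hEb : Model.divMap hM E = divOf (ResidueField A) u + Gb := by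
    rw [hEdef, map_add, Model.divMap_divOf hM hv hu0, map_zsmul, Model.divMap_poleDiv hM]
  have hEQ : Model.divMap hM E Q = 1 := by
    rw [hEb, Finsupp.add_apply, divOf_apply, ((exact_iff hu).1 hex).2, Finsupp.sub_apply,
      Finsupp.single_eq_same]
    ring
  have hpair : ∀ P P' : Place QQb F, P ≠ P' → Model.place hM P = Q → Model.place hM P' = Q →
      E P + E P' ≤ 1 := by
    intro P P' hne hP hP'
    have hle : Finsupp.single P (E P) + Finsupp.single P' (E P') ≤ E := fun v => by
      rw [Finsupp.add_apply, Finsupp.single_apply, Finsupp.single_apply]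
      split_ifs with h1 h2 h2
      · exact absurd (h1.trans h2.symm) hne
      · subst h1; omega
      · subst h2; omega
      · simpa using hE v
    have h := Model.divMap_mono hM hle Q
    rw [map_add, Model.divMap_single, Model.divMap_single, hP, hP', Finsupp.add_apply,
      Finsupp.single_eq_same, Finsupp.single_eq_same, hEQ] at h
    exact h
  obtain ⟨P, hPs, hPQ⟩ : ∃ P ∈ E.support, Model.place hM P = Q := by
    by_contra! hn
    rw [Model.divMap_apply, Finsupp.mapDomain, Finsupp.sum_apply, Finsupp.sum,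
      Finset.sum_eq_zero (fun P hP => Finsupp.single_eq_of_ne (hn P hP).symm)] at hEQ
    omega
  have hEP : 1 ≤ E P := by
    have : 0 ≤ E P := hE P
    have := Finsupp.mem_support_iff.1 hPs
    omega
  obtain ⟨R, hR⟩ := exists_residue_data hA hM hρ hx (d := 1) hm zero_le_one BG (Finsupp.single Q 1)
  refine ⟨P, R ∪ Finset.univ.image ζ, hPQ, fun σ hσ hfixR => ?_⟩
  have hvσ : ρ σ • v = v := by
    rw [Finset.smul_sum]
    refine Finset.sum_congr rfl fun i _ => ?_
    rw [hρ.smul_smul, BG.fixed]
    congr 1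
    exact congrArg Subtype.val (hfix i σ hσ (hfixR _ (Finset.mem_union_right _
      (Finset.mem_image.2 ⟨i, Finset.mem_univ _, rfl⟩))))
  have hEσ : ρ σ • E = E := by
    rw [hEdef, smul_add, ← divOf_smul, hvσ, smul_poles hx]
  have hσP : Model.place hM (ρ σ • P) = Q := by
    have h := hR (Finsupp.single P 1) (Finsupp.single_nonneg.2 zero_le_one)
      (by rw [degree_single']) (by rw [Model.divMap_single, hPQ]) σ hσ
      fun a ha => hfixR a (Finset.mem_union_left _ ha)
    rw [SemilinearAut.smul_single, Model.divMap_single] at h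
    exact Finsupp.single_left_injective one_ne_zero h
  by_contra hne
  have h2 := hpair _ _ hne hσP hPQ
  have h3 : E (ρ σ • P) = E P := by
    conv_lhs => rw [← hEσ, SemilinearAut.divisor_smul_apply_smul]
  omega

/-- Every effective reduced divisor has a lift fixed by the automorphisms fixing finitely many
residues. -/
theorem exists_fixed_divisor (hM : M.Smooth) (hρ : IsArith ρ) (hx : ∀ σ, ρ σ • M.x = M.x) {m : ℕ}
    (hm : M.bound + 1 ≤ (m : ℤ) * M.deg) {C : EqCoords M ρ m} (BG : FixedBasis M ρ C)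
    {Pb : Divisor (ResidueField A) Fb} (hPb : 0 ≤ Pb) :
    ∃ (P : Divisor QQb F) (R : Finset ZB), 0 ≤ P ∧ Model.divMap hM P = Pb ∧
      ∀ σ ∈ A.decompositionSubgroup ℚ, (∀ a ∈ R, σ • a - a ∈ centre A) → ρ σ • P = P := by
  classical
  choose p R hp hR using fun Q => exists_fixed_place hA hM hρ hx hm BG Q
  refine ⟨Finsupp.mapDomain p Pb, Pb.support.biUnion R, ?_, ?_, fun σ hσ h => ?_⟩
  · rw [Finsupp.mapDomain, Finsupp.sum]
    exact Finset.sum_nonneg fun Q _ => Finsupp.single_nonneg.2 (hPb Q)
  · rw [Model.divMap_apply, ← Finsupp.mapDomain_comp,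
      show Model.place hM ∘ p = id from funext hp, Finsupp.mapDomain_id]
  · rw [SemilinearAut.divisor_smul_def, ← Finsupp.mapDomain_comp]
    exact Finsupp.mapDomain_congr fun Q hQ => hR Q σ hσ fun a ha =>
      h a (Finset.mem_biUnion.2 ⟨Q, hQ, ha⟩)

end Setting

end FLTAgent.FlatModel
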