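import Fermat.Agent.FlatModel.Modular
import Fermat.Agent.FlatModel.Annihilator
import Fermat.Agent.FlatModel.Commutators
import Fermat.Agent.EigenReps.Approx
import Fermat.Agent.Deformation.Bridge
import Fermat.Prelude.Def_CuspForm_HeckeGaloisRepDatum
import Fermat.Prelude.Def_GaloisRep_Flat

/-!
# Representations carried by the Hecke algebra are flat away from the level

Modulo an ideal of finite index such a representation is killed by every relation of a torsion
module of `J₀(N)`, so it is finite flat.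
-/

set_option autoImplicit false
set_option linter.style.haveILetI false
set_option linter.unusedSectionVars false
set_option synthInstance.maxHeartbeats 400000
set_option maxHeartbeats 1000000

noncomputable section

open IsLocalRing ModularCurve AlgebraicCurve Matrix Polynomial

namespace FLTAgent.FlatModel

local notation "QQb" => AlgebraicClosure ℚ
local notation "GG" => (AlgebraicClosure ℚ ≃ₐ[ℚ] AlgebraicClosure ℚ)

/-- An ideal of finite index contains a power of the maximal ideal. -/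
theorem exists_maximalIdeal_pow_le {A : Type*} [CommRing A] [IsLocalRing A] [IsNoetherianRing A]
    (I : Ideal A) [Finite (A ⧸ I)] : ∃ e : ℕ, maximalIdeal A ^ e ≤ I := by
  refine Ideal.exists_pow_le_of_le_radical_of_fg (fun a ha => ?_) (IsNoetherian.noetherian _)
  obtain ⟨i, j, hij, he⟩ :=
    Finite.exists_ne_map_eq_of_infinite fun i : ℕ => Ideal.Quotient.mk I (a ^ i)
  wlog hlt : i < j generalizing i j
  · exact this j i hij.symm he.symm (by omega)
  obtain ⟨d, rfl⟩ := Nat.exists_eq_add_of_lt hlt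
  have hu : IsUnit (1 - a ^ (d + 1)) :=
    isUnit_one_sub_self_of_mem_nonunits _
      ((mem_maximalIdeal _).1 (Ideal.pow_mem_of_mem _ ha _ (Nat.succ_pos d)))
  have hmem : a ^ i * (1 - a ^ (d + 1)) ∈ I := by
    rw [mul_sub, mul_one, ← pow_add, ← Ideal.Quotient.eq]
    simpa [add_assoc] using he
  exact ⟨i, (Ideal.mul_unit_mem_iff_mem _ hu).1 hmem⟩

theorem map_trace' {A B : Type*} [CommRing A] [CommRing B] (f : A →+* B) (M : Deformation.M2 A) :
    f M.trace = (M.map f).trace := by
  simp [Matrix.trace_fin_two]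

variable {p : ℕ} [Fact p.Prime] {N : ℕ} [NeZero N] {S : Finset ℕ}
  {T : Type} [CommRing T] [IsLocalRing T]
  (π : CuspForm.heckeAlgebra N 2 (↑S : Set ℕ) →+* T) (r : GG →* Deformation.M2 T)

/-- Lifts with the expected trace exist. -/
theorem exists_lift_trace (hpS : p ∈ S) (hNS : ∀ q : ℕ, q.Prime → q ∣ N → q ∈ S)
    (hr : Deformation.MatCts r)
    (hchar : ∀ (ℓ : ℕ) (hℓ : ℓ.Prime) (hℓN : ¬ ℓ ∣ N) (hℓS : ℓ ∉ (↑S : Set ℕ)),
      ∀ V : ValuationSubring QQb, V.LiesOverPrime ℓ → ∀ τ : GG, V.IsFrobeniusAt τ ℓ →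
        (r τ).charpoly = X ^ 2 - C (π (CuspForm.heckeAlgebra.T hℓ hℓN hℓS)) * X + C ((ℓ : T)))
    {I : Ideal T} {e : ℕ} (he : maximalIdeal T ^ e ≤ I) (n : ℕ) (σ : GG) :
    ∃ (c : ℕ) (t : CuspForm.heckeAlgebra N 2 (↑S : Set ℕ)),
      EigenReps.IsLift N S p n σ c t ∧ π t - (r σ).trace ∈ I := by
  haveI : NeZero (p ^ n) := ⟨pow_ne_zero _ (Fact.out : p.Prime).ne_zero⟩
  obtain ⟨L, hL, hfix⟩ := EigenReps.exists_torsion_level N (p ^ n)
  obtain ⟨L', hL', hfix'⟩ := hr e
  obtain ⟨ζ, hζ⟩ := DetCyclo.exists_primitive_root_pow p n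
  haveI : FiniteDimensional ℚ (IntermediateField.adjoin ℚ ({ζ} : Set QQb)) :=
    IntermediateField.adjoin.finiteDimensional
      ((AlgebraicClosure.isAlgebraic ℚ).isAlgebraic ζ).isIntegral
  haveI := hL
  haveI := hL'
  obtain ⟨ℓ, V, τ, k, hℓ, hℓS, hV, hτ, hk⟩ := Frobenius.exists_frobenius_pow_eqOn
    (L ⊔ L' ⊔ IntermediateField.adjoin ℚ ({ζ} : Set QQb)) σ S
  have hℓN : ¬ ℓ ∣ N := fun h => hℓS (hNS ℓ hℓ h)
  have hℓS' : ℓ ∉ (↑S : Set ℕ) := hℓS
  set U := CuspForm.heckeAlgebra.T hℓ hℓN hℓS'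
  obtain ⟨hcy, hact⟩ :=
    EigenReps.isLift_pow N S p (EigenReps.isLift_frobenius N S p hpS n hℓ hℓN hℓS' hV hτ) k
  refine ⟨ℓ ^ k, EigenReps.powOp N S U ℓ k, ⟨fun η hη => ?_, fun x => ?_⟩, ?_⟩
  · obtain ⟨i, -, rfl⟩ := hζ.eq_pow_of_pow_eq_one hη
    rw [← hcy _ hη, map_pow, map_pow, hk ζ ((le_sup_right : _ ≤ L ⊔ L' ⊔ _)
      (IntermediateField.subset_adjoin ℚ _ rfl))]
  · have heq : ∀ y : JZero N, p ^ n • y = 0 → σ • y = τ ^ k • y := fun y hy => by
      have h1 := hfix ((τ ^ k)⁻¹ * σ) (fun a ha => by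
        show (τ ^ k)⁻¹ (σ a) = a
        rw [hk a ((le_sup_left.trans le_sup_left : L ≤ L ⊔ L' ⊔ _) ha)]
        exact (τ ^ k).symm_apply_apply a) y hy
      rwa [mul_smul, inv_smul_eq_iff] at h1
    have hx := (EigenReps.mem_torsion_iff_nsmul N).1 x.2
    have hinv : σ⁻¹ • (x : JZero N) = (τ ^ k)⁻¹ • (x : JZero N) := by
      have h1 := heq (σ⁻¹ • (x : JZero N))
        (by rw [EigenReps.nsmul_galois_smul, hx, EigenReps.galois_smul_zero])
      rw [smul_inv_smul] at h1
      rw [eq_inv_smul_iff, ← h1]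
    rw [hact x, heq _ hx, hinv]
  · have hquad : r τ * r τ = π U • r τ - (ℓ : T) • 1 := by
      have h := Matrix.aeval_self_charpoly (r τ)
      rw [hchar ℓ hℓ hℓN hℓS' V hV τ hτ] at h
      simp only [map_add, map_sub, map_mul, map_pow, aeval_X, aeval_C, Algebra.algebraMap_eq_smul_one,
        smul_mul_assoc, one_mul] at h
      rw [← sub_eq_zero, ← h, sq]
      abel
    have htr : (r τ).trace = π U := by
      have h := Matrix.trace_eq_neg_charpoly_coeff (r τ)
      rw [hchar ℓ hℓ hℓN hℓS' V hV τ hτ] at h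
      simpa [Fintype.card_fin, coeff_X, coeff_one] using h
    have hpow : ∀ j, π (EigenReps.powOp N S U ℓ j) = (r τ ^ j).trace := fun j => by
      induction j using Nat.twoStepInduction with
      | zero => simp [EigenReps.powOp, map_ofNat]
      | one => simp [EigenReps.powOp, htr]
      | more j h0 h1 =>
        rw [EigenReps.powOp, map_sub, map_mul, map_nsmul, h0, h1, pow_add (r τ) j 2, sq, hquad,
          mul_sub, Matrix.mul_smul, Matrix.mul_smul, ← pow_succ, mul_one, trace_sub, trace_smul,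
          trace_smul, smul_eq_mul, smul_eq_mul, nsmul_eq_mul]
    rw [hpow, ← map_pow, ← Ideal.Quotient.eq, map_trace', map_trace']
    refine congrArg Matrix.trace ?_
    have h1 : (Ideal.Quotient.mk I).mapMatrix (r ((τ ^ k)⁻¹ * σ)) = 1 := by
      rw [← (Ideal.Quotient.mk I).mapMatrix.map_one]
      ext i j
      rw [RingHom.mapMatrix_apply, RingHom.mapMatrix_apply, Matrix.map_apply, Matrix.map_apply,
        Ideal.Quotient.eq, ← Matrix.sub_apply]
      exact he (hfix' _ (fun a ha => by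
        show (τ ^ k)⁻¹ (σ a) = a
        rw [hk a ((le_sup_right.trans le_sup_left : L' ≤ L ⊔ L' ⊔ _) ha)]
        exact (τ ^ k).symm_apply_apply a) i j)
    rw [← RingHom.mapMatrix_apply, ← RingHom.mapMatrix_apply,
      show r σ = r (τ ^ k) * r ((τ ^ k)⁻¹ * σ) by rw [← map_mul, mul_inv_cancel_left],
      map_mul, h1, mul_one]

/-- The residual commutators generate the unit ideal. -/
theorem exists_trace_sub_isUnit (hspan : Deformation.SpansResidue r) :
    ∃ σ τ z : GG, IsUnit ((r (σ * τ * z)).trace - (r (τ * σ * z)).trace) := by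
  by_contra! hcon
  let R : GG → Deformation.M2 (ResidueField T) := fun σ => (r σ).map (residue T)
  have hR : ∀ σ τ, R (σ * τ) = R σ * R τ := fun σ τ => by simp [R, Matrix.map_mul]
  have h0 : ∀ σ τ z, ((R σ * R τ - R τ * R σ) * R z).trace = 0 := fun σ τ z => by
    have h := (residue_eq_zero_iff _).2 ((mem_maximalIdeal _).2 (hcon σ τ z))
    rw [map_sub, map_trace', map_trace'] at h
    rw [sub_mul, trace_sub, ← hR, ← hR, ← hR, ← hR]
    exact h
  have hcomm : ∀ σ τ, R σ * R τ = R τ * R σ := fun σ τ => by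
    refine sub_eq_zero.1 (Matrix.ext_iff_trace_mul_right.2 fun y => ?_)
    rw [Matrix.zero_mul, trace_zero]
    have hy : y ∈ Submodule.span (ResidueField T) (Set.range R) := hspan ▸ trivial
    induction hy using Submodule.span_induction with
    | mem _ hx => obtain ⟨z, rfl⟩ := hx; exact h0 σ τ z
    | zero => simp
    | add _ _ _ _ ha hb => rw [mul_add, trace_add, ha, hb, add_zero]
    | smul c u _ hu => rw [Matrix.mul_smul, trace_smul, hu, smul_zero]
  have hcen : ∀ a b : Deformation.M2 (ResidueField T), a * b = b * a := fun a b => by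
    have ha : a ∈ Submodule.span (ResidueField T) (Set.range R) := hspan ▸ trivial
    have hb : b ∈ Submodule.span (ResidueField T) (Set.range R) := hspan ▸ trivial
    induction ha using Submodule.span_induction with
    | mem _ hx =>
      obtain ⟨σ, rfl⟩ := hx
      induction hb using Submodule.span_induction with
      | mem _ hy => obtain ⟨τ, rfl⟩ := hy; exact hcomm σ τ
      | zero => simp
      | add _ _ _ _ h1 h2 => rw [mul_add, add_mul, h1, h2]
      | smul c u _ hu => rw [Matrix.mul_smul, Matrix.smul_mul, hu]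
    | zero => simp
    | add _ _ _ _ h1 h2 => rw [mul_add, add_mul, h1, h2]
    | smul c u _ hu => rw [Matrix.mul_smul, Matrix.smul_mul, hu]
  have h := congrFun (congrFun (hcen (Matrix.single 0 1 1) (Matrix.single 1 0 1)) 0) 0
  simp at h

/-- The torsion of `J₀(N)` with its Galois action. -/
@[reducible]
def torsionAction (m : ℕ) : DistribMulAction GG (Pic0.torsion QQb (modularFunctionFieldBar N) m) :=
  stableSub _ fun σ x hx => by
    rw [EigenReps.mem_torsion_iff_nsmul, EigenReps.nsmul_galois_smul,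
      (EigenReps.mem_torsion_iff_nsmul N).1 hx, EigenReps.galois_smul_zero]

/-- The relations of a module with commuting Hecke action and antimultiplicative adjoints. -/
theorem act_formalTrace_eq_zero {M H : Type*} [AddCommGroup M] [DistribMulAction GG M] [CommRing H]
    (φ : H →+* AddMonoid.End M) (t : GG → H)
    (hcomm : ∀ u (σ : GG) (y : M), φ u (σ • y) = σ • φ u y)
    (hι : ∀ (σ τ : GG) (y : M), φ (t (σ * τ)) y - (σ * τ) • y =
      φ (t τ) (φ (t σ) y - σ • y) - τ • (φ (t σ) y - σ • y))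
    {x : GG →₀ ℤ} (hx : formalAct M x = 0) (σ τ z : GG) (y : M) :
    φ (formalTrace t x * (t (σ * τ * z) - t (τ * σ * z))) y = 0 := by
  have h := map_formalTrace_mul_eq_zero φ (DistribMulAction.toAddMonoidEnd GG M) t
    (fun u σ => DFunLike.ext _ _ fun y => hcomm u σ y)
    (fun σ τ => DFunLike.ext _ _ fun y => hι σ τ y)
    (x := x) (by rw [← hx, formalAct, Finsupp.liftAddHom_apply]; rfl) σ τ z
  exact DFunLike.congr_fun h y

theorem torsion_smul_coe (m : ℕ) (σ : GG) (y : Pic0.torsion QQb (modularFunctionFieldBar N) m) :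
    letI := torsionAction (N := N) m
    ((σ • y : Pic0.torsion QQb (modularFunctionFieldBar N) m) : JZero N) = σ • (y : JZero N) :=
  rfl

/-- The relations of the torsion, as Hecke operators. -/
theorem act_torsion_eq_zero (hpS : p ∈ S) (hNS : ∀ q : ℕ, q.Prime → q ∣ N → q ∈ S) {n : ℕ}
    {c : GG → ℕ} {t : GG → CuspForm.heckeAlgebra N 2 (↑S : Set ℕ)}
    (hlift : ∀ σ, EigenReps.IsLift N S p n σ (c σ) (t σ)) {x : GG →₀ ℤ}
    (hx : letI := torsionAction (N := N) (p ^ n)
      formalAct (Pic0.torsion QQb (modularFunctionFieldBar N) (p ^ n)) x = 0) (σ τ z : GG) :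
    haveI : NeZero (p ^ n) := ⟨pow_ne_zero _ (Fact.out : p.Prime).ne_zero⟩
    ∀ y, EigenReps.act N S (p ^ n) (formalTrace t x * (t (σ * τ * z) - t (τ * σ * z))) y = 0 := by
  haveI : NeZero (p ^ n) := ⟨pow_ne_zero _ (Fact.out : p.Prime).ne_zero⟩
  letI := torsionAction (N := N) (p ^ n)
  refine fun y => act_formalTrace_eq_zero (EigenReps.act N S (p ^ n)) t (fun u σ y => ?_)
    (fun σ τ y => ?_) hx σ τ z y
  · exact Subtype.ext ((EigenReps.act_comm N S p hpS hNS n u σ y _ (torsion_smul_coe _ σ y)).trans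
      (torsion_smul_coe _ σ _).symm)
  · refine Subtype.ext ?_
    have hc : ∀ (g : GG) (y : Pic0.torsion QQb (modularFunctionFieldBar N) (p ^ n)),
        ((g • y : Pic0.torsion QQb (modularFunctionFieldBar N) (p ^ n)) : JZero N) =
          g • (y : JZero N) := fun g y => torsion_smul_coe (p ^ n) g y
    simp only [AddSubgroup.coe_sub, hc]
    rw [(hlift (σ * τ)).2 y, (hlift τ).2, AddSubgroup.coe_sub, hc, (hlift σ).2 y,
      add_sub_cancel_left, add_sub_cancel_left, add_sub_cancel_left,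
      ← EigenReps.nsmul_galois_smul, smul_smul, ← mul_smul, _root_.mul_inv_rev]
    refine EigenReps.nsmul_eq_of_modEq N ((hlift (σ * τ)).1.modEq ?_) ?_
    · rw [mul_comm]; exact (hlift σ).1.mul (hlift τ).1
    · rw [EigenReps.nsmul_galois_smul, (EigenReps.mem_torsion_iff_nsmul N).1 y.2,
        EigenReps.galois_smul_zero]

/-- A representation carried by the Hecke algebra is killed by the relations of the torsion. -/
theorem trace_mul_mem (hp : (p : T) ∈ maximalIdeal T) (hpS : p ∈ S)
    (hNS : ∀ q : ℕ, q.Prime → q ∣ N → q ∈ S) (hr : Deformation.MatCts r)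
    (hchar : ∀ (ℓ : ℕ) (hℓ : ℓ.Prime) (hℓN : ¬ ℓ ∣ N) (hℓS : ℓ ∉ (↑S : Set ℕ)),
      ∀ V : ValuationSubring QQb, V.LiesOverPrime ℓ → ∀ τ : GG, V.IsFrobeniusAt τ ℓ →
        (r τ).charpoly = X ^ 2 - C (π (CuspForm.heckeAlgebra.T hℓ hℓN hℓS)) * X + C ((ℓ : T)))
    (hspan : Deformation.SpansResidue r) {I : Ideal T} {e : ℕ} (he : maximalIdeal T ^ e ≤ I)
    {x : GG →₀ ℤ}
    (hx : letI := torsionAction (N := N) (p ^ (EigenReps.shift N S p + e))
      formalAct (Pic0.torsion QQb (modularFunctionFieldBar N) (p ^ (EigenReps.shift N S p + e))) x = 0) :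
    (x.sum fun σ a => a • (r σ).trace) ∈ I := by
  set n := EigenReps.shift N S p + e
  haveI : NeZero (p ^ n) := ⟨pow_ne_zero _ (Fact.out : p.Prime).ne_zero⟩
  letI := torsionAction (N := N) (p ^ n)
  choose c t hlift htr using exists_lift_trace (p := p) π r hpS hNS hr hchar he n
  obtain ⟨σ, τ, z, hu⟩ := exists_trace_sub_isUnit r hspan
  obtain ⟨s, hs⟩ := EigenReps.shift_spec N S p n _ (Nat.le_add_right _ _)
    (act_torsion_eq_zero hpS hNS hlift hx σ τ z)
  have hmem : π (formalTrace t x) * (π (t (σ * τ * z)) - π (t (τ * σ * z))) ∈ I := by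
    rw [← map_sub, ← map_mul, hs, map_nsmul, nsmul_eq_mul, Nat.add_sub_cancel_left, Nat.cast_pow]
    exact Ideal.mul_mem_right _ _ (he (Ideal.pow_mem_pow hp e))
  have hsum : π (formalTrace t x) - (x.sum fun σ a => a • (r σ).trace) ∈ I := by
    rw [formalTrace, Finsupp.liftAddHom_apply, map_finsuppSum, ← Finsupp.sum_sub]
    refine sum_mem fun σ _ => ?_
    simp only [zmultiplesHom_apply, map_zsmul, ← smul_sub]
    exact zsmul_mem (htr σ) _
  have hd : (π (t (σ * τ * z)) - π (t (τ * σ * z))) -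
      ((r (σ * τ * z)).trace - (r (τ * σ * z)).trace) ∈ I := by
    rw [sub_sub_sub_comm]; exact sub_mem (htr _) (htr _)
  have hmem' : π (formalTrace t x) * ((r (σ * τ * z)).trace - (r (τ * σ * z)).trace) ∈ I := by
    have := sub_mem hmem (Ideal.mul_mem_left _ (π (formalTrace t x)) hd)
    rwa [← mul_sub, sub_sub_cancel] at this
  have := sub_mem ((Ideal.mul_unit_mem_iff_mem _ hu).1 hmem') hsum
  rwa [sub_sub_cancel] at this

end FLTAgent.FlatModel
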