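import Fermat.Agent.FlatModel.HeckeFlat
import Fermat.Agent.Frobenius.Global

/-!
# Flatness of the representations carried by the Hecke algebra
-/

set_option autoImplicit false
set_option linter.style.haveILetI false
set_option linter.unusedSectionVars false
set_option synthInstance.maxHeartbeats 400000
set_option maxHeartbeats 1000000

noncomputable section

open IsLocalRing ModularCurve AlgebraicCurve Matrix Polynomial

namespace FLTAgent.FlatModel

local notation "QQb" => AlgebraicClosure ℚ
local notation "GG" => (AlgebraicClosure ℚ ≃ₐ[ℚ] AlgebraicClosure ℚ)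

variable {T : Type} [CommRing T] [IsLocalRing T]

/-- The residual matrices of an absolutely irreducible representation span. -/
theorem spansResidue_matOf (ρ : GaloisRepAdic T) (b : Module.Basis (Fin 2) T ρ.V)
    (habs : ρ.residual.IsAbsolutelyIrreducible) :
    Deformation.SpansResidue (Deformation.matOf ρ b) := by
  let bb : Module.Basis (Fin 2) (ResidueField T) ρ.residual.V :=
    Algebra.TensorProduct.basis (ResidueField T) b
  have h1 := Deformation.span_resMat_eq_top ρ.residual bb habs
  have h2 : (fun σ => (Deformation.matOf ρ b σ).map (residue T)) =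
      Deformation.resMat ρ.residual bb := by
    funext σ
    ext i j
    rw [Matrix.map_apply, Deformation.matOf_apply]
    show _ = LinearMap.toMatrixAlgEquiv bb (ρ.residual.ρ σ) i j
    rw [LinearMap.toMatrixAlgEquiv_apply]
    show _ = (Algebra.TensorProduct.basis (ResidueField T) b).repr ((ρ.ρ σ).baseChange
      (ResidueField T) (Algebra.TensorProduct.basis (ResidueField T) b j)) i
    rw [Algebra.TensorProduct.basis_apply, LinearMap.baseChange_tmul,
      Algebra.TensorProduct.basis_repr_tmul]
    simp [ResidueField.algebraMap_eq]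
  rw [Deformation.SpansResidue, h2]
  exact h1

theorem formalAct_mul {M : Type*} [AddCommGroup M] [DistribMulAction GG M] (τ : GG) (x : GG →₀ ℤ)
    (y : M) : formalAct M (x.mapDomain (· * τ)) y = formalAct M x (τ • y) := by
  induction x using Finsupp.induction_linear with
  | zero => simp
  | add u v hu hv =>
    rw [Finsupp.mapDomain_add, map_add, map_add]
    exact congrArg₂ (· + ·) hu hv
  | single σ a =>
    rw [Finsupp.mapDomain_single, formalAct_single, formalAct_single, mul_smul]

/-- The action on a level. -/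
@[reducible]
def levelMulAction (ρ : GaloisRepAdic T) (I : Ideal T) :
    DistribMulAction GG (ρ.V ⧸ (I • (⊤ : Submodule T ρ.V))) where
  smul σ v := ρ.levelAction I σ v
  one_smul v := by
    obtain ⟨v, rfl⟩ := Submodule.Quotient.mk_surjective _ v
    show Submodule.Quotient.mk (ρ.ρ 1 v) = Submodule.Quotient.mk v
    rw [map_one, Module.End.one_apply]
  mul_smul σ τ v := by
    obtain ⟨v, rfl⟩ := Submodule.Quotient.mk_surjective _ v
    show Submodule.Quotient.mk (ρ.ρ (σ * τ) v) = Submodule.Quotient.mk (ρ.ρ σ (ρ.ρ τ v))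
    rw [map_mul, Module.End.mul_apply]
  smul_zero σ := map_zero (ρ.levelAction I σ)
  smul_add σ v w := map_add (ρ.levelAction I σ) v w

theorem formalAct_mk (ρ : GaloisRepAdic T) (I : Ideal T) (x : GG →₀ ℤ) (v : ρ.V) :
    letI := levelMulAction ρ I
    formalAct (ρ.V ⧸ (I • (⊤ : Submodule T ρ.V))) x (Submodule.Quotient.mk v) =
      Submodule.Quotient.mk (x.sum fun σ a => a • ρ.ρ σ v) := by
  letI := levelMulAction ρ I
  induction x using Finsupp.induction_linear with
  | zero => simp
  | add u w hu hw =>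
    rw [Finsupp.sum_add_index' (h := fun σ (a : ℤ) => a • ρ.ρ σ v) (fun _ => zero_smul _ _)
      (fun _ _ _ => add_smul _ _ _), map_add, Submodule.Quotient.mk_add]
    exact congrArg₂ (· + ·) hu hw
  | single σ a =>
    rw [formalAct_single, Finsupp.sum_single_index (h := fun σ (a : ℤ) => a • ρ.ρ σ v) (zero_smul _ _)]
    exact (map_zsmul (Submodule.mkQ (I • (⊤ : Submodule T ρ.V))) a _).symm

/-- Flatness at one level from a trace condition on the relations of a finite flat module. -/
theorem exists_flat_level {ℓ : ℕ} [Fact ℓ.Prime] (ρ : GaloisRepAdic T)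
    (b : Module.Basis (Fin 2) T ρ.V) (hspan : Deformation.SpansResidue (Deformation.matOf ρ b))
    (I : Ideal T) [Finite (T ⧸ I)] {W : Type*} [AddCommGroup W] [DistribMulAction GG W] [Finite W]
    (OW : HopfOrder ℓ W)
    (hW : ∀ x : GG →₀ ℤ, formalAct W x = 0 →
      (x.sum fun σ a => a • (Deformation.matOf ρ b σ).trace) ∈ I) :
    ∃ (H : Type) (_ : CommRing H) (_ : HopfAlgebra (GaloisRep.ratLocalizedAt ℓ) H),
      Module.Finite (GaloisRep.ratLocalizedAt ℓ) H ∧
      Module.Flat (GaloisRep.ratLocalizedAt ℓ) H ∧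
      Coalgebra.IsCocomm (GaloisRep.ratLocalizedAt ℓ) H ∧
      ∃ e : WithConv (H →ₐ[GaloisRep.ratLocalizedAt ℓ] QQb) ≃
          (ρ.V ⧸ (I • (⊤ : Submodule T ρ.V))),
        (∀ f g : WithConv (H →ₐ[GaloisRep.ratLocalizedAt ℓ] QQb), e (f * g) = e f + e g) ∧
        ∀ (σ : GG) (f g : WithConv (H →ₐ[GaloisRep.ratLocalizedAt ℓ] QQb)),
          (∀ h : H, g h = σ (f h)) → e g = ρ.levelAction I σ (e f) := by
  classical
  set r := Deformation.matOf ρ b
  -- the action on the level
  set Q := ρ.V ⧸ (I • (⊤ : Submodule T ρ.V))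
  haveI : Finite Q := Module.finite_of_finite (T ⧸ I)
  letI := levelMulAction ρ I
  have key : ∀ x : GG →₀ ℤ,
      formalAct W x = 0 → formalAct Q x = 0 := by
    intro x hx
    set Xm : Deformation.M2 T := x.sum fun σ a => a • r σ
    have htr : ∀ τ, (Xm * r τ).trace ∈ I := fun τ => by
      have h := hW (x.mapDomain (· * τ)) (DFunLike.ext _ _ fun y => by
        rw [formalAct_mul, hx]; rfl)
      rw [Finsupp.sum_mapDomain_index (h := fun σ a => a • (r σ).trace) (fun _ => zero_smul _ _)
        (fun _ _ _ => add_smul _ _ _)] at h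
      simp only [Xm, Finsupp.sum, Finset.sum_mul, trace_sum, smul_mul_assoc, trace_smul, ← map_mul]
      exact h
    have hall : ∀ y : Deformation.M2 T, (Xm * y).trace ∈ I := fun y => by
      have hy : y ∈ Submodule.span T (Set.range r) := Deformation.span_range_eq_top hspan ▸ trivial
      induction hy using Submodule.span_induction with
      | mem _ h => obtain ⟨τ, rfl⟩ := h; exact htr τ
      | zero => simp
      | add _ _ _ _ h1 h2 => rw [mul_add, trace_add]; exact I.add_mem h1 h2
      | smul c u _ hu => rw [Matrix.mul_smul, trace_smul]; exact I.mul_mem_left c hu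
    have hentry : ∀ i j, Xm i j ∈ I := fun i j => by
      have h := hall (Matrix.single j i 1)
      simpa [Matrix.trace_fin_two, Matrix.mul_apply, Fin.sum_univ_two, Matrix.single, Fin.forall_fin_two] using (by fin_cases i <;> fin_cases j <;> simpa [Matrix.trace_fin_two, Matrix.mul_apply, Fin.sum_univ_two] using h : Xm i j ∈ I)
    have hlin : ∀ v : ρ.V, (x.sum fun σ a => a • ρ.ρ σ v) ∈ I • (⊤ : Submodule T ρ.V) := fun v => by
      have hL : (x.sum fun σ a => a • ρ.ρ σ v) = Matrix.toLinAlgEquiv b Xm v := by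
        simp only [Xm, Finsupp.sum, map_sum, map_zsmul, LinearMap.sum_apply, LinearMap.smul_apply]
        refine Finset.sum_congr rfl fun σ _ => ?_
        congr 1
        show _ = Matrix.toLinAlgEquiv b (LinearMap.toMatrixAlgEquiv b (ρ.ρ σ)) v
        rw [Matrix.toLinAlgEquiv_toMatrixAlgEquiv]
      rw [hL, Matrix.toLinAlgEquiv_apply]
      refine Submodule.sum_mem _ fun i _ => Submodule.smul_mem_smul ?_ Submodule.mem_top
      simp only [Matrix.mulVec, dotProduct]
      exact I.sum_mem fun j _ => I.mul_mem_right _ (hentry i j)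
    refine DFunLike.ext _ _ fun q => ?_
    obtain ⟨v, rfl⟩ := Submodule.Quotient.mk_surjective _ q
    have hq : formalAct Q x (Submodule.Quotient.mk v) =
        Submodule.Quotient.mk (x.sum fun σ a => a • ρ.ρ σ v) := formalAct_mk ρ I x v
    rw [hq]
    exact (Submodule.Quotient.mk_eq_zero _).2 (hlin v)
  obtain ⟨O⟩ := exists_hopfOrder_of_annihilator OW key
  obtain ⟨H, hR, hH, h1, h2, h3, f, hf, hfσ⟩ := O.isFlatModule
  exact ⟨H, hR, hH, h1, h2, h3, f, hf, fun σ g g' h => hfσ σ g g' h⟩

variable {p : ℕ} [Fact p.Prime] {N : ℕ} [NeZero N] {S : Finset ℕ} [IsNoetherianRing T]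
  [Finite (ResidueField T)]

/-- **Representations carried by the Hecke algebra are flat at `p ∤ N`.** -/
theorem isFlatAt_of_heckeAlgebra (π : CuspForm.heckeAlgebra N 2 (↑S : Set ℕ) →+* T)
    (ρ : GaloisRepAdic T) (hp : (p : T) ∈ maximalIdeal T) (hpN : ¬ p ∣ N) (hpS : p ∈ S)
    (hNS : ∀ q : ℕ, q.Prime → q ∣ N → q ∈ S)
    (hchar : ∀ (ℓ : ℕ) (hℓ : ℓ.Prime) (hℓN : ¬ ℓ ∣ N) (hℓS : ℓ ∉ (↑S : Set ℕ)),
      ∀ V : ValuationSubring QQb, V.LiesOverPrime ℓ → ∀ τ : GG, V.IsFrobeniusAt τ ℓ →
        LinearMap.charpoly (ρ.ρ τ) =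
          X ^ 2 - C (π (CuspForm.heckeAlgebra.T hℓ hℓN hℓS)) * X + C ((ℓ : T)))
    (habs : ρ.residual.IsAbsolutelyIrreducible) : ρ.IsFlatAt p := by
  classical
  refine ⟨inferInstance, fun I hI => ?_⟩
  haveI := hI
  obtain ⟨e, he⟩ := exists_maximalIdeal_pow_le I
  obtain ⟨b⟩ := Deformation.nonempty_basis ρ
  set r := Deformation.matOf ρ b
  have hspan : Deformation.SpansResidue r := spansResidue_matOf ρ b habs
  set n := EigenReps.shift N S p + e
  haveI : NeZero (p ^ n) := ⟨pow_ne_zero _ (Fact.out : p.Prime).ne_zero⟩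
  letI := torsionAction (N := N) (p ^ n)
  haveI : Finite (Pic0.torsion QQb (modularFunctionFieldBar N) (p ^ n)) :=
    EigenReps.finite_torsion N _
  -- the torsion is finite flat
  obtain ⟨A, hA⟩ := Frobenius.exists_liesOverPrime p Fact.out
  obtain ⟨OW⟩ : Nonempty (HopfOrder p (Pic0.torsion QQb (modularFunctionFieldBar N) (p ^ n))) := by
    obtain ⟨O⟩ := exists_hopfOrder_jZero (ℓ := p) N hpN hA n
    letI := torsionByAction N ((p : ℤ) ^ n)
    have hmem : ∀ y : Pic0.torsion QQb (modularFunctionFieldBar N) (p ^ n),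
        (y : JZero N) ∈ Submodule.torsionBy ℤ (JZero N) ((p : ℤ) ^ n) := fun y => by
      rw [← Nat.cast_pow]; exact y.2
    exact ⟨O.restrict
      { toFun := fun y => ⟨y, hmem y⟩, map_zero' := rfl, map_add' := fun _ _ => rfl }
      (fun y z h => Subtype.ext (congrArg Subtype.val h :)) fun σ y => rfl⟩
  exact exists_flat_level ρ b hspan I OW fun x hx =>
    trace_mul_mem π r hp hpS hNS (Deformation.matCts_matOf ρ b)
      (fun ℓ hℓ hℓN hℓS V hV τ hτ => by
        rw [← Frobenius.charpoly_eq_charpoly_matOf ρ b]; exact hchar ℓ hℓ hℓN hℓS V hV τ hτ)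
      hspan he hx

end FLTAgent.FlatModel
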