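import Mathlib

/-!
# Linear algebra over rings of functions with constant residue

`H` is a ring of functions with values in a valuation ring whose residues do not depend on the
point. Families of vectors with entries in `H` and independent residues behave like constant ones.
-/

set_option autoImplicit false
set_option linter.unusedSectionVars false

noncomputable section

namespace FLTAgent.FlatModel

variable {L k : Type*} [Field L] [Field k] {A : ValuationSubring L} {π : A →+* k} {Ω : Type*}

/-- Functions have constant residue on the domain. -/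
def ConstRes (π : A →+* k) (H : Subalgebra A (Ω → A)) : Prop :=
  ∀ h ∈ H, ∀ ω ω' : Ω, π (h ω) = π (h ω')

theorem constRes_adjoin {s : Set (Ω → A)} (hs : ∀ h ∈ s, ∀ ω ω' : Ω, π (h ω) = π (h ω')) :
    ConstRes π (Algebra.adjoin A s) := by
  intro h hh ω ω'
  induction hh using Algebra.adjoin_induction with
  | mem h hh => exact hs h hh ω ω'
  | algebraMap a => rfl
  | add a b _ _ ha hb => simp [ha, hb]
  | mul a b _ _ ha hb => simp [ha, hb]

/-- A member of `H` with unit values has its inverse in `H`. -/
theorem exists_inv_of_isUnit [Finite Ω] (H : Subalgebra A (Ω → A)) {h : Ω → A} (hh : h ∈ H)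
    (hu : ∀ ω, IsUnit (h ω)) : ∃ h' ∈ H, ∀ ω, h ω * h' ω = 1 := by
  classical
  haveI : Fintype Ω := Fintype.ofFinite Ω
  set P : Polynomial A := ∏ ω : Ω, (Polynomial.X - Polynomial.C (h ω)) with hP
  have hP0 : IsUnit (P.coeff 0) := by
    rw [hP, Polynomial.coeff_zero_prod]
    exact IsUnit.prod_iff.2 fun ω _ => by simpa using (hu ω).neg
  obtain ⟨u, hu0⟩ := hP0
  have heval : Polynomial.aeval h P = 0 := by
    funext ω
    rw [Polynomial.aeval_fn_apply, Pi.zero_apply]
    rw [hP, map_prod]
    exact Finset.prod_eq_zero (Finset.mem_univ ω) (by simp)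
  rw [← Polynomial.divX_mul_X_add P, map_add, map_mul, Polynomial.aeval_X, Polynomial.aeval_C] at heval
  set q : Ω → A := Polynomial.aeval h P.divX
  refine ⟨(-(↑u⁻¹ : A)) • q, H.smul_mem ?_ _, fun ω => ?_⟩
  · have hq := (Polynomial.aeval (⟨h, hh⟩ : H) P.divX).2
    rwa [Polynomial.aeval_subalgebra_coe] at hq
  · have h1 := congrFun heval ω
    rw [Pi.add_apply, Pi.mul_apply, Pi.algebraMap_apply, Algebra.algebraMap_self,
      RingHom.id_apply, Pi.zero_apply, ← hu0] at h1
    rw [Pi.smul_apply, smul_eq_mul]
    have h2 : h ω * q ω = -(u : A) := by rw [mul_comm]; exact eq_neg_of_add_eq_zero_left h1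
    calc h ω * (-(↑u⁻¹ : A) * q ω) = -(↑u⁻¹ : A) * (h ω * q ω) := by ring
      _ = 1 := by rw [h2, neg_mul_neg, Units.inv_mul]

variable (H : Subalgebra A (Ω → A)) {ι : Type*}

/-- The value of a family of entries. -/
def evVec (v : ι → H) (ω : Ω) : ι → L := fun i => (((v i : Ω → A) ω : A) : L)

/-- The residue of a family of entries, read at a point. -/
def resVec (π : A →+* k) (v : ι → H) (ω₀ : Ω) : ι → k := fun i => π ((v i : Ω → A) ω₀)

variable {H}

theorem linearIndependent_evVec [IsLocalHom π] (hH : ConstRes π H) {r : ℕ}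
    {w : Fin r → ι → H} {ω₀ : Ω} (hw : LinearIndependent k fun j => resVec H π (w j) ω₀) :
    ∃ s : Fin r → ι, ∀ ω, IsUnit ((Matrix.of fun i j => (w j (s i) : Ω → A) ω).det) := by
  classical
  set φ : ι → (Fin r → k) := fun i j => resVec H π (w j) ω₀ i
  have hspan : Submodule.span k (Set.range φ) = ⊤ := by
    by_contra hne
    obtain ⟨f, hf, hker⟩ := Submodule.exists_le_ker_of_lt_top _
      (lt_top_iff_ne_top.2 hne)
    apply hf
    have hzero : ∀ j, f (Pi.single j 1) = 0 := by
      refine Fintype.linearIndependent_iff.1 hw (fun j => f (Pi.single j 1)) (funext fun i => ?_)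
      have h1 : f (φ i) = 0 := hker (Submodule.subset_span ⟨i, rfl⟩)
      rw [← Finset.univ_sum_single (φ i), map_sum] at h1
      simp only [Finset.sum_apply, Pi.smul_apply, Pi.zero_apply, smul_eq_mul]
      rw [← h1]
      refine Finset.sum_congr rfl fun j _ => ?_
      rw [show Pi.single j (φ i j) = φ i j • (Pi.single j (1 : k) : Fin r → k) by
        simp [← Pi.single_smul, smul_eq_mul], map_smul, smul_eq_mul, mul_comm]
    refine LinearMap.pi_ext fun j x => ?_
    rw [show (Pi.single j x : Fin r → k) = x • Pi.single j 1 by simp [← Pi.single_smul, smul_eq_mul],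
      map_smul, hzero, smul_zero, LinearMap.zero_apply]
  obtain ⟨f, hfmem, -, hli⟩ := Submodule.exists_fun_fin_finrank_span_eq k (Set.range φ)
  have hr : r = Module.finrank k (Submodule.span k (Set.range φ)) := by
    rw [hspan, finrank_top, Module.finrank_fin_fun]
  choose s hs using hfmem
  refine ⟨fun i => s (Fin.cast hr i), fun ω => isUnit_of_map_unit π _ ?_⟩
  rw [RingHom.map_det, ← Matrix.isUnit_iff_isUnit_det, ← Matrix.linearIndependent_rows_iff_isUnit]
  refine (linearIndependent_equiv' (finCongr hr) (funext fun i => funext fun j => ?_)).2 hli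
  show f (Fin.cast hr i) j = π ((w j (s (Fin.cast hr i)) : Ω → A) ω)
  rw [← hs (Fin.cast hr i), hH _ (w j _).2 ω ω₀]
  rfl

/-- Vectors with independent residues are independent at every point. -/
theorem linearIndependent_of_resVec [IsLocalHom π] (hH : ConstRes π H) {r : ℕ}
    {w : Fin r → ι → H} {ω₀ : Ω} (hw : LinearIndependent k fun j => resVec H π (w j) ω₀) (ω : Ω) :
    LinearIndependent L fun j => evVec H (w j) ω := by
  classical
  obtain ⟨s, hs⟩ := linearIndependent_evVec hH hw
  have hdet : IsUnit ((Matrix.of fun i j => (w j (s i) : Ω → A) ω).map A.subtype).det := by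
    rw [← RingHom.mapMatrix_apply, ← RingHom.map_det]; exact (hs ω).map A.subtype
  have hcol := Matrix.linearIndependent_cols_iff_isUnit.2 ((Matrix.isUnit_iff_isUnit_det _).2 hdet)
  refine LinearIndependent.of_comp (LinearMap.funLeft L L s) ?_
  exact hcol

/-- Coordinates on a family with independent residues are again in `H`. -/
theorem exists_coeff [Finite Ω] [IsLocalHom π] (hH : ConstRes π H) {r : ℕ} {w : Fin r → ι → H}
    {ω₀ : Ω} (hw : LinearIndependent k fun j => resVec H π (w j) ω₀) {v : ι → H}
    (hv : ∀ ω, evVec H v ω ∈ Submodule.span L (Set.range fun j => evVec H (w j) ω)) :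
    ∃ c : Fin r → H, ∀ ω, evVec H v ω = ∑ j, (((c j : Ω → A) ω : A) : L) • evVec H (w j) ω := by
  classical
  obtain ⟨s, hs⟩ := linearIndependent_evVec hH hw
  set N : Matrix (Fin r) (Fin r) H := Matrix.of fun i j => w j (s i)
  let ev : Ω → (H →+* A) := fun ω => (Pi.evalRingHom (fun _ : Ω => A) ω).comp H.val.toRingHom
  have hN : ∀ ω, (ev ω).mapMatrix N = Matrix.of fun i j => (w j (s i) : Ω → A) ω := fun ω => rfl
  have hdet : IsUnit N.det := by
    obtain ⟨h', hh', hmul⟩ := exists_inv_of_isUnit H N.det.2 fun ω => by
      have := hs ω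
      rw [← hN, ← RingHom.map_det] at this
      exact this
    exact IsUnit.of_mul_eq_one (⟨h', hh'⟩ : H) (Subtype.ext (funext hmul))
  set c : Fin r → H := N⁻¹.mulVec fun i => v (s i)
  refine ⟨c, fun ω => ?_⟩
  have hc : N.mulVec c = fun i => v (s i) := by
    rw [Matrix.mulVec_mulVec, Matrix.mul_nonsing_inv N hdet, Matrix.one_mulVec]
  obtain ⟨a, ha⟩ := (Submodule.mem_span_range_iff_exists_fun L).1 (hv ω)
  have hli : LinearIndependent L fun j => fun i => evVec H (w j) ω (s i) := by
    have hu : IsUnit (((ev ω).mapMatrix N).map A.subtype).det := by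
      rw [← RingHom.mapMatrix_apply, ← RingHom.map_det]
      exact ((RingHom.map_det (ev ω) N) ▸ hdet.map (ev ω)).map A.subtype
    exact Matrix.linearIndependent_cols_iff_isUnit.2 ((Matrix.isUnit_iff_isUnit_det _).2 hu)
  have key : a = fun j => (((c j : Ω → A) ω : A) : L) := by
    refine funext fun j => sub_eq_zero.1 (Fintype.linearIndependent_iff.1 hli
      (fun j => a j - (((c j : Ω → A) ω : A) : L)) (funext fun i => ?_) j)
    have h1 := congrFun ha (s i)
    have h2 := congrArg (fun z : H => (((z : Ω → A) ω : A) : L)) (congrFun hc i)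
    simp only [Matrix.mulVec, dotProduct] at h2
    simp only [Finset.sum_apply, Pi.smul_apply, smul_eq_mul, Pi.zero_apply, sub_mul,
      Finset.sum_sub_distrib] at h1 ⊢
    rw [h1, sub_eq_zero]
    simp only [evVec]
    rw [← h2]
    push_cast [Finset.sum_apply, Pi.mul_apply, N, Matrix.of_apply]
    exact Finset.sum_congr rfl fun j _ => mul_comm _ _
  rw [← ha, key]

/-- A family spanning spaces of the dimension of its residual span contains a basis. -/
theorem exists_subfamily [IsLocalHom π] (hH : ConstRes π H) {n : ℕ} (q : Fin n → ι → H) (ω₀ : Ω) :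
    ∃ (e : Fin (Module.finrank k (Submodule.span k (Set.range fun j => resVec H π (q j) ω₀))) →
        Fin n),
      LinearIndependent k (fun j => resVec H π (q (e j)) ω₀) ∧
      ∀ ω, ∀ V : Submodule L (ι → L), FiniteDimensional L V → (∀ j, evVec H (q j) ω ∈ V) →
        Module.finrank L V ≤
          Module.finrank k (Submodule.span k (Set.range fun j => resVec H π (q j) ω₀)) →
        Submodule.span L (Set.range fun j => evVec H (q (e j)) ω) = V := by
  haveI := FiniteDimensional.span_of_finite k (Set.finite_range fun j => resVec H π (q j) ω₀)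
  obtain ⟨f, hf, -, hli⟩ := Submodule.exists_fun_fin_finrank_span_eq k
    (Set.range fun j => resVec H π (q j) ω₀)
  choose e he using hf
  have hli' : LinearIndependent k (fun j => resVec H π (q (e j)) ω₀) := by
    rw [show (fun j => resVec H π (q (e j)) ω₀) = f from funext he]; exact hli
  refine ⟨e, hli', fun ω V hV hq hd => ?_⟩
  have hle : Submodule.span L (Set.range fun j => evVec H (q (e j)) ω) ≤ V :=
    Submodule.span_le.2 (by rintro _ ⟨j, rfl⟩; exact hq _)
  refine Submodule.eq_of_le_of_finrank_le hle ?_
  rw [finrank_span_eq_card (linearIndependent_of_resVec hH hli' ω), Fintype.card_fin]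
  exact hd

/-- Relations among a family whose rank does not drop on reduction are spanned by relations with
entries in `H`. -/
theorem exists_relations [Finite Ω] [IsLocalHom π] (hH : ConstRes π H) {n : ℕ}
    (q : Fin n → ι → H) (ω₀ : Ω)
    (hrank : ∀ ω, Module.finrank L (Submodule.span L (Set.range fun j => evVec H (q j) ω)) ≤
      Module.finrank k (Submodule.span k (Set.range fun j => resVec H π (q j) ω₀))) :
    ∃ (δ : ℕ) (r : Fin δ → Fin n → H),
      LinearIndependent k (fun j => resVec H π (r j) ω₀) ∧
      ∀ ω, Submodule.span L (Set.range fun j => evVec H (r j) ω) =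
        LinearMap.ker (Fintype.linearCombination L fun i => evVec H (q i) ω) := by
  classical
  obtain ⟨e, hli, hspan⟩ := exists_subfamily hH q ω₀
  have hinj : Function.Injective e := fun a b h =>
    hli.injective (congrArg (fun i => resVec H π (q i) ω₀) h)
  have hc : ∀ i, ∃ c : Fin _ → H, ∀ ω, evVec H (q i) ω =
      ∑ j, (((c j : Ω → A) ω : A) : L) • evVec H (q (e j)) ω := fun i =>
    exists_coeff hH hli fun ω => by
      rw [hspan ω _ (FiniteDimensional.span_of_finite L (Set.finite_range _))
        (fun j => Submodule.subset_span ⟨j, rfl⟩) (hrank ω)]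
      exact Submodule.subset_span ⟨i, rfl⟩
  choose c hc using hc
  set T := {i : Fin n // i ∉ Set.range e}
  set g : T → Fin n → H := fun i => Pi.single (i : Fin n) 1 - ∑ j, Pi.single (e j) (c i j) with hg
  let ε : Fin (Fintype.card T) ≃ T := (Fintype.equivFin T).symm
  refine ⟨Fintype.card T, fun j => g (ε j), ?_, fun ω => ?_⟩
  · have hT : LinearIndependent k fun i => resVec H π (g i) ω₀ := by
      refine LinearIndependent.of_comp (LinearMap.funLeft k k fun i : T => (i : Fin n)) ?_
      convert (Pi.basisFun k T).linearIndependent using 1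
      funext i i'
      simp only [Function.comp_apply, LinearMap.funLeft_apply, resVec, hg, Pi.sub_apply,
        Finset.sum_apply, Pi.basisFun_apply]
      rw [Finset.sum_eq_zero fun j _ => ?_, sub_zero]
      · by_cases h : i' = i
        · subst h; simp
        · rw [Pi.single_eq_of_ne (fun e => h (Subtype.ext e)), Pi.single_eq_of_ne h]; simp
      · rw [Pi.single_eq_of_ne]
        exact fun e' => i'.2 ⟨j, e'.symm⟩
    exact hT.comp ε ε.injective
  · rw [show (fun j => evVec H (g (ε j)) ω) = (fun i => evVec H (g i) ω) ∘ ε from rfl,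
      ε.surjective.range_comp]
    set Λ := Fintype.linearCombination L fun i => evVec H (q i) ω
    have hev : ∀ i : T, evVec H (g i) ω = Pi.single (i : Fin n) 1 -
        ∑ j, Pi.single (e j) ((((c i j : Ω → A) ω : A)) : L) := fun i => by
      funext x
      let φ : H →+* L :=
        (A.subtype.comp (Pi.evalRingHom (fun _ : Ω => A) ω)).comp H.val.toRingHom
      show φ (g i x) = _
      simp only [hg, Pi.sub_apply, Finset.sum_apply, Pi.single_apply, map_sub, map_sum, apply_ite φ,
        map_one, map_zero]
      rfl
    have hΛ : ∀ (x : Fin n) (a : L), Λ (Pi.single x a) = a • evVec H (q x) ω := fun x a => by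
      rw [Fintype.linearCombination_apply_single]
    have hker : ∀ i : T, evVec H (g i) ω ∈ LinearMap.ker Λ := fun i => by
      rw [LinearMap.mem_ker, hev, map_sub, map_sum]
      simp only [hΛ, one_smul]
      rw [← hc, sub_self]
    refine le_antisymm (Submodule.span_le.2 (by rintro _ ⟨i, rfl⟩; exact hker i)) fun a ha => ?_
    set a' := a - ∑ i : T, a i • evVec H (g i) ω with ha'
    have hT0 : ∀ i : T, a' i = 0 := fun i => by
      rw [ha', Pi.sub_apply, Finset.sum_apply, Finset.sum_eq_single i, hev, sub_eq_zero]
      · simp only [Pi.smul_apply, Pi.sub_apply, Pi.single_eq_same, Finset.sum_apply, smul_eq_mul]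
        rw [Finset.sum_eq_zero fun j _ => Pi.single_eq_of_ne (fun e' => i.2 ⟨j, e'.symm⟩) _,
          sub_zero, mul_one]
      · intro i' _ hne
        simp only [Pi.smul_apply, hev, Pi.sub_apply, Finset.sum_apply, smul_eq_mul]
        rw [Pi.single_eq_of_ne (fun e' => hne (Subtype.ext e').symm),
          Finset.sum_eq_zero fun j _ => Pi.single_eq_of_ne (fun e' => i.2 ⟨j, e'.symm⟩) _,
          sub_zero, mul_zero]
      · simp
    have ha'0 : a' = 0 := by
      have h1 : Λ a' = 0 := by
        rw [ha', map_sub, map_sum, LinearMap.mem_ker.1 ha]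
        simp [map_smul, fun i => LinearMap.mem_ker.1 (hker i)]
      have h2 : ∑ j, a' (e j) • evVec H (q (e j)) ω = 0 := by
        rw [Fintype.linearCombination_apply] at h1
        rw [← h1, ← Finset.sum_image (f := fun x => a' x • evVec H (q x) ω)
          (s := (Finset.univ : Finset _)) fun a _ b _ h => hinj h]
        refine Finset.sum_subset (Finset.subset_univ _) fun x _ hx => ?_
        rw [hT0 ⟨x, fun ⟨j, hj⟩ => hx (Finset.mem_image.2 ⟨j, Finset.mem_univ _, hj⟩)⟩, zero_smul]
      funext x
      by_cases hx : x ∈ Set.range e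
      · obtain ⟨j, rfl⟩ := hx
        exact Fintype.linearIndependent_iff.1 (linearIndependent_of_resVec hH hli ω) _ h2 j
      · exact hT0 ⟨x, hx⟩
    rw [sub_eq_zero.1 (ha'.symm.trans ha'0)]
    exact Submodule.sum_mem _ fun i _ => Submodule.smul_mem _ _ (Submodule.subset_span ⟨i, rfl⟩)

end FLTAgent.FlatModel
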