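import Fermat.Agent.FlatModel.ModularCoords
import Fermat.Agent.FlatModel.Transfer
import Fermat.Agent.EigenReps.Level
import Fermat.Agent.GoodModel.Final
import Fermat.Agent.Specialization.Inputs

/-!
# The torsion of `J₀(N)` is finite flat away from the level
-/

set_option autoImplicit false
set_option linter.style.haveILetI false
set_option linter.unusedSectionVars false
set_option synthInstance.maxHeartbeats 400000
set_option maxHeartbeats 1000000

noncomputable section

open IsLocalRing

namespace FLTAgent.FlatModel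

open AlgebraicCurve FLTAgent.Curves FLTAgent.Specialization ModularCurve

local notation "QQb" => AlgebraicClosure ℚ
local notation "GG" => (AlgebraicClosure ℚ ≃ₐ[ℚ] AlgebraicClosure ℚ)

variable {ℓ : ℕ} [Fact ℓ.Prime] {A : ValuationSubring QQb}

/-- Finite stable subgroups of `J₀(N)` at a level with a smooth model. -/
theorem exists_hopfOrder_of_smooth (hA : A.LiesOverPrime ℓ) (N : ℕ) [NeZero N]
    [IsAlgClosed (ResidueField A)] (hN : (N : ResidueField A) ≠ 0)
    [IsFunctionField (ResidueField A) (modularFunctionFieldFullC (ResidueField A) N)]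
    (hM : (modularModel residue_surjective N hN).Smooth)
    (T : AddSubgroup (JZero N)) (hT : ∀ (σ : GG), ∀ x ∈ T, σ • x ∈ T) [Finite T] :
    letI := stableSub T hT
    Nonempty (HopfOrder ℓ T) := by
  letI := stableSub T hT
  exact exists_hopfOrder_pic0 hA hM isArith_galois (smul_jq hN) (exists_eqCoords hN) T.subtype
    T.subtype_injective fun σ x => rfl

theorem card_torsion_pow (N : ℕ) [NeZero N] (n : ℕ) :
    Nat.card (Submodule.torsionBy ℤ (JZero N) ((ℓ : ℤ) ^ n)) =
      (ℓ ^ n) ^ (2 * Module.finrank ℂ (CuspForm (CongruenceSubgroup.Gamma0 N) 2)) := by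
  haveI : NeZero (ℓ ^ n) := ⟨pow_ne_zero _ (Fact.out : ℓ.Prime).ne_zero⟩
  rw [← TorsionHom.card_torsion (N := N) Kronecker.complexEmb (ℓ ^ n)]
  exact Nat.card_congr (Equiv.subtypeEquivRight fun x => by
    rw [Pic0.mem_torsion, Submodule.mem_torsionBy_iff, Nat.cast_pow])

/-- The Galois action on the torsion of `J₀(N)`. -/
@[reducible]
def torsionByAction (N : ℕ) (m : ℤ) : DistribMulAction GG (Submodule.torsionBy ℤ (JZero N) m) where
  smul σ x := ⟨σ • (x : JZero N), (Submodule.mem_torsionBy_iff _ _).2 (by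
    refine (map_zsmul (DistribSMul.toAddMonoidHom (JZero N) σ) m (x : JZero N)).symm.trans ?_
    rw [(Submodule.mem_torsionBy_iff _ _).1 x.2, map_zero])⟩
  one_smul x := Subtype.ext (one_smul GG (x : JZero N))
  mul_smul σ τ x := Subtype.ext (mul_smul σ τ (x : JZero N))
  smul_zero σ := Subtype.ext (smul_zero σ)
  smul_add σ x y := Subtype.ext (smul_add σ (x : JZero N) (y : JZero N))

/-- **The `ℓ`-power torsion of `J₀(N)` is finite flat for `ℓ ∤ N`.** -/
theorem exists_hopfOrder_jZero (N : ℕ) [NeZero N] (hℓN : ¬ ℓ ∣ N) (hA : A.LiesOverPrime ℓ) (k : ℕ) :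
    letI := torsionByAction N ((ℓ : ℤ) ^ k)
    Nonempty (HopfOrder ℓ (Submodule.torsionBy ℤ (JZero N) ((ℓ : ℤ) ^ k))) := by
  letI := torsionByAction N ((ℓ : ℤ) ^ k)
  have hl : ℓ.Prime := Fact.out
  haveI : IsAlgClosed (ResidueField A) := FrobTrace.isAlgClosed_residueField A
  obtain ⟨N₂, N', h12, h23, hN', haux, ⟨d, hd, hdl⟩, ⟨e, he⟩, -⟩ := exists_levels hl hℓN
  haveI : NeZero N' := ⟨fun h => hN' (h ▸ dvd_zero ℓ)⟩
  haveI : NeZero N₂ := ⟨fun h => NeZero.ne N' (by simpa [h] using h23)⟩
  have hk : ∀ {n : ℕ}, ¬ ℓ ∣ n → (n : ResidueField A) ≠ 0 := natCast_ne_zero_residue hA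
  have hk' : (N' : ResidueField A) ≠ 0 := hk hN'
  have hk₂ : (N₂ : ResidueField A) ≠ 0 := hk fun h => hN' (h.trans h23)
  haveI := isFunctionField_full (ResidueField A) N rfl (hk hℓN)
  haveI := isFunctionField_full (ResidueField A) N₂ rfl hk₂
  haveI := isFunctionField_full (ResidueField A) N' rfl hk'
  have hM : (modularModel residue_surjective N₂ hk₂).Smooth :=
    smooth_of_dvd residue_surjective hk₂ h23 hk' hd (hk hdl)
      (GoodModel.goodLevel hA N' haux hN')
  obtain ⟨-, hpsi, -⟩ := exists_tower residue_surjective (hk hℓN) h12 hk₂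
  obtain ⟨a, b, hba, heq⟩ := exists_transfer (IntermediateField.inclusion (X0Bar_mono h12))
  have hcompat : ∀ (σ : GG) (y : X0Bar N), IntermediateField.inclusion (X0Bar_mono h12)
      (arithmeticGalois (modularFunctionFieldFull N) σ • y) =
        arithmeticGalois (modularFunctionFieldFull N₂) σ •
          IntermediateField.inclusion (X0Bar_mono h12) y := fun σ y => Subtype.ext (by
    rw [IntermediateField.coe_inclusion, coe_arithmeticGalois_smul, coe_arithmeticGalois_smul,
      IntermediateField.coe_inclusion])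
  refine exists_hopfOrder_transfer (J' := JZero N₂) (card_torsion_pow (ℓ := ℓ) N)
    (fun T hT hfin => ?_) a b (e := e) (fun x => ?_) (fun σ => (heq _ _ (hcompat σ)).1)
    (fun σ => (heq _ _ (hcompat σ)).2) k fun σ x => rfl
  · haveI := hfin
    exact exists_hopfOrder_of_smooth hA N₂ hk₂ hM T hT
  · rw [hba x]
    congr 1
    exact Nat.eq_of_mul_eq_mul_left (dedekindPsi_pos N) (hpsi.trans he)

end FLTAgent.FlatModel
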