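import Fermat.Agent.FlatModel.Jacobian
import Fermat.Agent.Specialization.Modular
import Fermat.Agent.FrobTrace.Global
import Fermat.Prelude.Def_ModularCurve_ArithmeticGalois

/-!
# Galois equivariant integral coordinates on the function field of `X₀(N)`

A multiple of the sections by a polynomial in `j` with primitive integer coefficients has
integral `q`-expansions, and its reduction is injective.
-/

set_option autoImplicit false
set_option linter.style.haveILetI false
set_option linter.unusedSectionVars false
set_option synthInstance.maxHeartbeats 400000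
set_option maxHeartbeats 1000000

noncomputable section

open IsLocalRing Polynomial IntermediateField

namespace FLTAgent.FlatModel

open AlgebraicCurve FLTAgent.Curves FLTAgent.Specialization ModularCurve

local notation "QQb" => AlgebraicClosure ℚ
local notation "GG" => (AlgebraicClosure ℚ ≃ₐ[ℚ] AlgebraicClosure ℚ)

/-- Every polynomial over `ℚ̄` divides one with primitive integer coefficients. -/
theorem exists_primitive_multiple {Q : QQb[X]} (hQ : Q ≠ 0) :
    ∃ P : ℤ[X], P.IsPrimitive ∧ Q ∣ P.map (Int.castRingHom QQb) := by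
  classical
  have hint : ∀ r : QQb, IsIntegral ℚ r := fun r =>
    ((AlgebraicClosure.isAlgebraic ℚ).isAlgebraic r).isIntegral
  set P₀ : ℚ[X] := (Q.roots.map fun r => minpoly ℚ r).prod
  have hP₀ : P₀ ≠ 0 := Multiset.prod_ne_zero fun h => by
    obtain ⟨r, -, hr⟩ := Multiset.mem_map.1 h
    exact minpoly.ne_zero (hint r) hr
  have hdvd : Q ∣ P₀.map (algebraMap ℚ QQb) := by
    rw [(IsAlgClosed.splits Q).eq_prod_roots, Polynomial.map_multiset_prod,
      Multiset.map_map]
    refine (IsUnit.mul_left_dvd (isUnit_C.2 (leadingCoeff_ne_zero.2 hQ).isUnit)).2 ?_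
    refine Multiset.prod_dvd_prod_of_dvd _ _ fun r _ => ?_
    rw [Function.comp_apply, dvd_iff_isRoot, IsRoot.def, eval_map, ← aeval_def, minpoly.aeval]
  obtain ⟨c, hc, hP⟩ := IsLocalization.integerNormalization_spec (nonZeroDivisors ℤ) P₀
  have hc0 : c ≠ 0 := nonZeroDivisors.ne_zero hc
  set P₁ := IsLocalization.integerNormalization (nonZeroDivisors ℤ) P₀
  have hP₁ : P₁ ≠ 0 := fun h => hP₀ (by
    rw [h, Polynomial.map_zero] at hP
    rcases smul_eq_zero.1 hP.symm with h' | h'
    · exact absurd h' hc0
    · exact h')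
  refine ⟨P₁.primPart, P₁.isPrimitive_primPart, ?_⟩
  have hcont : ((P₁.content : ℤ) : QQb) ≠ 0 := Int.cast_ne_zero.2 (mt content_eq_zero_iff.1 hP₁)
  refine (IsUnit.dvd_mul_left (isUnit_C.2 hcont.isUnit)).1 ?_
  have h1 : (P₁.map (Int.castRingHom QQb)) =
      C ((P₁.content : ℤ) : QQb) * P₁.primPart.map (Int.castRingHom QQb) := by
    conv_lhs => rw [P₁.eq_C_content_mul_primPart, Polynomial.map_mul, map_C]
    rfl
  have h2 : P₁.map (Int.castRingHom QQb) = C (c : QQb) * P₀.map (algebraMap ℚ QQb) := by
    rw [RingHom.ext_int (Int.castRingHom QQb) ((algebraMap ℚ QQb).comp (algebraMap ℤ ℚ)),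
      ← Polynomial.map_map, hP]
    ext n
    simp [zsmul_eq_mul]
  rw [← h1, h2]
  exact hdvd.mul_left _

theorem map_ne_zero_of_isPrimitive {k : Type*} [Field k] {P : ℤ[X]} (hP : P.IsPrimitive) :
    P.map (Int.castRingHom k) ≠ 0 := fun h => by
  set g := ringChar k
  have hg : C (g : ℤ) ∣ P := (C_dvd_iff_dvd_coeff _ _).2 fun n => by
    have h1 := congrArg (fun p : k[X] => p.coeff n) h
    simp only [coeff_map, coeff_zero, eq_intCast] at h1
    exact (CharP.intCast_eq_zero_iff k g _).1 h1
  rcases Int.isUnit_iff.1 (hP _ hg) with h1 | h1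
  · exact CharP.ringChar_ne_one (R := k) (by omega)
  · omega

variable {L k : Type*} [Field L] [Field k] {A : ValuationSubring L} {π : A →+* k}

/-- A basis lifting monomials in given lifts of generators. -/
theorem exists_lift_basis_mem {F Ω : Type*} [Field F] [Field Ω] [Algebra L F] [Algebra k Ω]
    (R : Reduction π F Ω) {Kb : IntermediateField k Ω} (E : IntermediateField Kb Ω)
    [FiniteDimensional Kb E] {S : Set Ω} {T : Submonoid F}
    (hS : ∀ s ∈ S, ∃ f ∈ T, R.Res f s) (hE : E = IntermediateField.adjoin Kb S) :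
    ∃ (u : Fin (Module.finrank Kb E) → F) (w : Fin (Module.finrank Kb E) → Ω),
      (∀ i, u i ∈ T) ∧ (∀ i, R.Res (u i) (w i)) ∧ LinearIndependent Kb w := by
  have hsub : ∀ s ∈ S, s ∈ E := fun s hs => hE ▸ IntermediateField.subset_adjoin Kb S hs
  have halg : ∀ s ∈ S, IsAlgebraic Kb s := fun s hs => by
    have := Algebra.IsAlgebraic.isAlgebraic (R := Kb) (⟨s, hsub s hs⟩ : E)
    exact this.algebraMap
  have hspan : Submodule.span Kb (Submonoid.closure S : Set Ω) =
      Subalgebra.toSubmodule E.toSubalgebra := by
    rw [hE, IntermediateField.adjoin_toSubalgebra_of_isAlgebraic halg, Algebra.adjoin_eq_span]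
  have hfin : Module.finrank Kb (Submodule.span Kb (Submonoid.closure S : Set Ω)) =
      Module.finrank Kb E := by
    rw [hspan]; rfl
  haveI : FiniteDimensional Kb (Submodule.span Kb (Submonoid.closure S : Set Ω)) := by
    rw [hspan]; exact ‹FiniteDimensional Kb E›
  obtain ⟨w, hw, -, hwi⟩ :=
    Submodule.exists_fun_fin_finrank_span_eq Kb (Submonoid.closure S : Set Ω)
  have hlift : ∀ s ∈ Submonoid.closure S, ∃ f ∈ T, R.Res f s := fun s hs => by
    induction hs using Submonoid.closure_induction with
    | mem s hs => exact hS s hs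
    | one => exact ⟨1, T.one_mem, R.res_one⟩
    | mul a b _ _ ha hb =>
        obtain ⟨f, hfT, hf⟩ := ha
        obtain ⟨g, hgT, hg⟩ := hb
        exact ⟨f * g, T.mul_mem hfT hgT, hf.mul hg⟩
  choose u huT hu using fun i => hlift _ (hw i)
  exact ⟨fun i => u (Fin.cast hfin.symm i), fun i => w (Fin.cast hfin.symm i), fun i => huT _,
    fun i => hu _, hwi.comp _ (Fin.cast_injective _)⟩

section Span

variable {F Ω : Type*} [Field F] [Field Ω] [Algebra L F] [Algebra k Ω] {R : Reduction π F Ω}

/-- A multiple with integral coordinates on the products of powers of the coordinate and lifts. -/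
theorem exists_coord_pow (hπ : Function.Surjective π) {x : F} {xb : Ω} (hx : R.Res x xb)
    (hxb : Transcendental k xb) {ι : Type*} {u : ι → F} {w : ι → Ω}
    (huw : ∀ i, R.Res (u i) (w i)) (hw : LinearIndependent k⟮xb⟯ w) {Q S : L[X]} {n₀ : ℕ} {f : F}
    (hf : aeval x Q * f ∈ Submodule.span L
      (Set.range fun z : Fin (n₀ + 1) × ι => x ^ (z.1 : ℕ) * u z.2)) {g : Ω}
    (hres : R.Res (aeval x (Q * S) * f) g) :
    ∃ (s : Finset (ℕ × ι)) (c : s → A),
      aeval x (Q * S) * f = ∑ z : s, algebraMap L F (c z) * (x ^ (z : ℕ × ι).1 * u (z : ℕ × ι).2) ∧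
      g = ∑ z : s, algebraMap k Ω (π (c z)) * (xb ^ (z : ℕ × ι).1 * w (z : ℕ × ι).2) := by
  classical
  set v : ℕ × ι → F := fun z => x ^ z.1 * u z.2 with hv
  set vb : ℕ × ι → Ω := fun z => xb ^ z.1 * w z.2
  have hvb : LinearIndependent k vb := by
    have hxK : LinearIndependent k fun i : ℕ => (AdjoinSimple.gen k xb) ^ i := by
      refine LinearIndependent.of_comp (k⟮xb⟯.val.toLinearMap) ?_
      have h := (Polynomial.basisMonomials k).linearIndependent.map' (aeval xb).toLinearMap
        (LinearMap.ker_eq_bot.2 (transcendental_iff_injective.1 hxb))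
      simpa [Function.comp_def] using h
    have := linearIndependent_smul hxK hw
    simpa [vb, IntermediateField.smul_def] using this
  have hmem : aeval x (Q * S) * f ∈ Submodule.span L (Set.range v) := by
    rw [mul_comm Q S, map_mul, mul_assoc]
    refine (Submodule.span_le (p := (Submodule.span L (Set.range v)).comap
      (LinearMap.mulLeft L (aeval x S)))).2 ?_ hf
    rintro _ ⟨⟨a, i⟩, rfl⟩
    show aeval x S * (x ^ (a : ℕ) * u i) ∈ Submodule.span L (Set.range v)
    rw [← mul_assoc, show aeval x S * x ^ (a : ℕ) = aeval x (S * X ^ (a : ℕ)) by simp,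
      aeval_eq_sum_range, Finset.sum_mul]
    refine Submodule.sum_mem _ fun b _ => ?_
    rw [smul_mul_assoc]
    exact Submodule.smul_mem _ _ (Submodule.subset_span ⟨(b, i), rfl⟩)
  obtain ⟨c, hc⟩ := Finsupp.mem_span_range_iff_exists_finsupp.1 hmem
  have hmem' : aeval x (Q * S) * f ∈
      Submodule.span L (Set.range (v ∘ ((↑) : c.support → ℕ × ι))) := by
    rw [← hc, Finsupp.sum]
    exact Submodule.sum_mem _ fun z hz =>
      Submodule.smul_mem _ _ (Submodule.subset_span ⟨⟨z, hz⟩, rfl⟩)
  obtain ⟨b, hb, hbb⟩ := Reduction.exists_coord_res hπ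
    (v := v ∘ ((↑) : c.support → ℕ × ι)) (w := vb ∘ ((↑) : c.support → ℕ × ι))
    (fun z => (hx.pow _).mul (huw _)) (hvb.comp _ Subtype.val_injective) hmem' hres
  refine ⟨c.support, b, hb.trans ?_, hbb.trans ?_⟩ <;>
    exact Finset.sum_congr rfl fun z _ => Algebra.smul_def _ _

end Span

/-- The multiple has an integral series, lifting the reduced series. -/
theorem exists_series_multiple (hπ : Function.Surjective π)
    {E : IntermediateField L (LaurentSeries L)} {x : E} {xb : LaurentSeries k}
    (hx : (laurentReduction π E).Res x xb) (hxb : Transcendental k xb) {ι : Type*} {u : ι → E}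
    {w : ι → LaurentSeries k} (huw : ∀ i, (laurentReduction π E).Res (u i) (w i))
    (hw : LinearIndependent k⟮xb⟯ w) (hxs : ∃ y, coeffMap A.subtype y = (x : LaurentSeries L))
    (hus : ∀ i, ∃ y, coeffMap A.subtype y = (u i : LaurentSeries L)) {Q S : L[X]} {n₀ : ℕ}
    {f : E} (hf : aeval x Q * f ∈ Submodule.span L
      (Set.range fun z : Fin (n₀ + 1) × ι => x ^ (z.1 : ℕ) * u z.2)) {g : LaurentSeries k}
    (hres : (laurentReduction π E).Res (aeval x (Q * S) * f) g) :
    ∃ Y, coeffMap A.subtype Y = ((aeval x (Q * S) * f : E) : LaurentSeries L) ∧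
      coeffMap π Y = g := by
  obtain ⟨s, c, hc, -⟩ := exists_coord_pow hπ hx hxb huw hw hf hres
  set T : Subring E := ((coeffMap A.subtype).range).comap E.val.toRingHom
  have hT : aeval x (Q * S) * f ∈ T := by
    rw [hc]
    refine sum_mem fun z _ => mul_mem ⟨HahnSeries.single 0 (c z), ?_⟩
      (mul_mem (pow_mem (hxs : x ∈ T) _) (hus _ : u _ ∈ T))
    rw [coeffMap_single_zero]
    exact (algebraMap_laurentSeries_eq_single L ((c z : A) : L)).symm
  obtain ⟨Y, hY⟩ := hT
  have hY' : coeffMap A.subtype Y = ((aeval x (Q * S) * f : E) : LaurentSeries L) := hY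
  refine ⟨Y, hY', ?_⟩
  have hm : coeffMap A.subtype Y ∈ E := hY'.symm ▸ SetLike.coe_mem _
  have h := laurentReduction_res (π := π) hm
  rw [show (⟨_, hm⟩ : E) = aeval x (Q * S) * f from Subtype.ext hY'] at h
  exact h.unique hres

section Series

variable (N : ℕ) [NeZero N] {A : ValuationSubring QQb}

/-- Elements with integral series. -/
def integralSeries : Subring (X0Bar N) :=
  ((coeffMap A.subtype).range).comap (X0Bar N).val.toRingHom

variable {N}

theorem mem_integralSeries {f : X0Bar N} :
    f ∈ integralSeries (A := A) N ↔ ∃ y, coeffMap A.subtype y = (f : LaurentSeries QQb) :=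
  Iff.rfl

theorem coeff_algebraMap_mul {K : Type*} [Field K] (a : K) (y : LaurentSeries K) (n : ℤ) :
    ((algebraMap K (LaurentSeries K) a) * y).coeff n = a * y.coeff n := by
  rw [algebraMap_laurentSeries_eq_single, HahnSeries.coeff_single_zero_mul]

variable [IsAlgClosed (ResidueField A)] (hN : (N : ResidueField A) ≠ 0)
  [IsFunctionField (ResidueField A) (modularFunctionFieldFullC (ResidueField A) N)]

/-- **Equivariant integral coordinates.** -/
theorem exists_eqCoords (m : ℕ) : Nonempty (EqCoords (modularModel residue_surjective N hN)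
    (arithmeticGalois (modularFunctionFieldFull N)) m) := by
  classical
  set k := ResidueField A
  set M := modularModel residue_surjective N hN
  set R := laurentReduction (residue A) (X0Bar N)
  set x : X0Bar N := ⟨_, jq_mem_X0Bar (A := A) N⟩
  have hle : k⟮jqModC k⟯ ≤ modularFunctionFieldFullC k N := jField_le_full k N rfl
  haveI : FiniteDimensional k⟮jqModC k⟯ (IntermediateField.extendScalars hle) :=
    Module.finite_of_finrank_pos (by
      rw [finrank_extendScalars_full k N rfl hN]; exact dedekindPsi_pos N)
  have hxb : Transcendental k (jqModC k) := transcendental_jq k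
  have hxL : Transcendental QQb x := transcendental_coe (by
    show Transcendental QQb (coeffMap A.subtype (jqModC A))
    rw [coeffMap_jqModC]; exact transcendental_jq QQb)
  have hE : IntermediateField.extendScalars hle =
      IntermediateField.adjoin k⟮jqModC k⟯ (divisorExpansionsC k N) := by
    apply IntermediateField.restrictScalars_injective k
    rw [IntermediateField.extendScalars_restrictScalars,
      IntermediateField.restrictScalars_adjoin, IntermediateField.adjoin_union,
      IntermediateField.adjoin_self]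
    exact (sup_eq_right.2 hle).symm
  obtain ⟨u, w, huT, huw, hw⟩ := exists_lift_basis_mem R (IntermediateField.extendScalars hle)
    (T := (integralSeries (A := A) N).toSubmonoid) (S := divisorExpansionsC k N)
    (fun s hs => by
      obtain ⟨d, hne, hd, rfl⟩ := hs
      haveI := hne
      refine ⟨⟨_, gen_mem (A := A) N hd⟩, ⟨_, rfl⟩, ?_⟩
      have h := laurentReduction_res (π := residue A) (gen_mem (A := A) N hd)
      rwa [coeffMap_gen (residue A)] at h) hE
  haveI := finiteDimensional_adjoin (K := QQb) hxL
  have hu : LinearIndependent QQb⟮x⟯ u :=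
    Reduction.linearIndependent_of_res
      (Reduction.lineReduction_compat (res_jq N) hxb residue_surjective) huw
      (Reduction.lineReduction_total (res_jq N) hxb residue_surjective) hw
  haveI : Nonempty (Fin (Module.finrank k⟮jqModC k⟯ (IntermediateField.extendScalars hle))) :=
    ⟨⟨0, by rw [finrank_extendScalars_full k N rfl hN]; exact dedekindPsi_pos N⟩⟩
  have hspan := hu.span_eq_top_of_card_eq_finrank (by
    rw [Fintype.card_fin, finrank_jq_X0Bar, finrank_extendScalars_full k N rfl hN])
  obtain ⟨Q, n₀, hQ0, hQ⟩ := Reduction.exists_common_denominator hspan hxL (polesSpace M m)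
  obtain ⟨P, hP, S, hS⟩ := exists_primitive_multiple hQ0
  -- the multiplier
  set yd : LaurentSeries A := aeval (jqModC A) P
  set d : X0Bar N := aeval x (P.map (Int.castRingHom QQb))
  have hd : coeffMap A.subtype yd = (d : LaurentSeries QQb) := by
    show coeffMap A.subtype (aeval (jqModC A) P) = (X0Bar N).val.toRingHom (aeval x (P.map _))
    rw [aeval_def, aeval_def, eval₂_map, hom_eval₂, hom_eval₂]
    exact congrArg₂ (fun f z => eval₂ f z P) (RingHom.ext_int _ _) rfl
  have hdb : coeffMap (residue A) yd ≠ 0 := fun h0 => hxb ⟨_, map_ne_zero_of_isPrimitive hP, by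
    rw [← h0]
    show _ = coeffMap (residue A) (aeval (jqModC A) P)
    rw [aeval_def, aeval_def, eval₂_map, hom_eval₂, coeffMap_jqModC]
    exact congrArg₂ (fun f z => eval₂ f z P) (RingHom.ext_int _ _) rfl⟩
  let coord : X0Bar N →ₗ[QQb] (ℤ → QQb) :=
    { toFun := fun f n => ((d : LaurentSeries QQb) * (f : LaurentSeries QQb)).coeff n
      map_add' := fun f g => funext fun n => by simp [mul_add]
      map_smul' := fun a f => funext fun n => by
        rw [RingHom.id_apply, Pi.smul_apply, smul_eq_mul, Algebra.smul_def, MulMemClass.coe_mul,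
          mul_left_comm]
        exact coeff_algebraMap_mul a _ n }
  let coordb : modularFunctionFieldFullC k N →ₗ[k] (ℤ → k) :=
    { toFun := fun g n => (coeffMap (residue A) yd * (g : LaurentSeries k)).coeff n
      map_add' := fun f g => funext fun n => by simp [mul_add]
      map_smul' := fun a f => funext fun n => by
        rw [RingHom.id_apply, Pi.smul_apply, smul_eq_mul, Algebra.smul_def, MulMemClass.coe_mul,
          mul_left_comm]
        exact coeff_algebraMap_mul a _ n }
  have hxi : x ∈ integralSeries (A := A) N := ⟨_, rfl⟩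
  refine ⟨⟨⟨coord, coordb, fun g₁ g₂ h => ?_, fun f g hf hres n => ?_⟩, fun σ f n => ?_⟩⟩
  · exact Subtype.ext (mul_left_cancel₀ hdb (HahnSeries.ext h))
  · have hdS : d = aeval x (Q * S) := by rw [← hS]
    have hyd : coeffMap A.subtype yd ∈ X0Bar N := hd ▸ d.2
    have hres' : R.Res (aeval x (Q * S) * f)
        (coeffMap (residue A) yd * (g : LaurentSeries k)) := by
      refine Reduction.Res.mul ?_ ((modularModel_res residue_surjective N hN).1 hres)
      have h := laurentReduction_res (π := residue A) hyd
      rwa [show (⟨_, hyd⟩ : X0Bar N) = aeval x (Q * S) from hdS ▸ Subtype.ext hd] at h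
    obtain ⟨Y, hY, hYb⟩ := exists_series_multiple residue_surjective (res_jq N) hxb huw hw
      hxi (fun i => huT i) (hQ f hf) hres'
    rw [← hdS, MulMemClass.coe_mul] at hY
    exact ⟨Y.coeff n, congrArg (fun s : LaurentSeries QQb => s.coeff n) hY,
      congrArg (fun s : LaurentSeries k => s.coeff n) hYb⟩
  · have hdσ : coeffMap (σ : QQb →+* QQb) (d : LaurentSeries QQb) = d := by
      rw [← hd, coeffMap_coeffMap]
      show coeffMap _ (aeval (jqModC A) P) = coeffMap _ (aeval (jqModC A) P)
      rw [aeval_def, hom_eval₂, hom_eval₂, coeffMap_jqModC, coeffMap_jqModC]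
      exact congrArg₂ (fun f z => eval₂ f z P) (RingHom.ext_int _ _) rfl
    show ((d : LaurentSeries QQb) * _).coeff n = σ (((d : LaurentSeries QQb) * _).coeff n)
    rw [coe_arithmeticGalois_smul]
    conv_lhs => rw [← hdσ, ← map_mul]
    rfl

theorem smul_jq (σ : GG) : arithmeticGalois (modularFunctionFieldFull N) σ •
    (modularModel residue_surjective N hN).x = (modularModel residue_surjective N hN).x := by
  refine Subtype.ext ?_
  rw [coe_arithmeticGalois_smul]
  show coeffMap _ (coeffMap A.subtype (jqModC A)) = coeffMap A.subtype (jqModC A)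
  rw [coeffMap_jqModC, coeffMap_jqModC]

theorem isArith_galois : IsArith (arithmeticGalois (modularFunctionFieldFull N)) :=
  fun σ a => arithmeticRingAut_algebraMap _ σ a

end Series

end FLTAgent.FlatModel
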