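import Fermat.Prelude.Def_GaloisRep_Flat
import Mathlib.RingTheory.Localization.FractionRing
import Mathlib.RingTheory.PrincipalIdealDomain
import Mathlib.FieldTheory.Galois.Infinite
import Mathlib.FieldTheory.IsAlgClosed.AlgebraicClosure

/-!
# The ring `ℤ_(ℓ)` inside `ℚ`
-/

set_option autoImplicit false

noncomputable section

namespace FLTAgent.FlatModel

local notation "QQb" => AlgebraicClosure ℚ
local notation "GG" => (AlgebraicClosure ℚ ≃ₐ[ℚ] AlgebraicClosure ℚ)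

/-- `ℤ_(ℓ)`. -/
abbrev Rl (ℓ : ℕ) : Subring ℚ := GaloisRep.ratLocalizedAt ℓ

variable {ℓ : ℕ} [hl : Fact ℓ.Prime]

omit hl in
theorem mem_Rl {q : ℚ} : q ∈ Rl ℓ ↔ q.den.Coprime ℓ := Iff.rfl

omit hl in
theorem natCast_mem (n : ℕ) : ((n : ℚ)) ∈ Rl ℓ := by simp [mem_Rl]

theorem exists_eq_pow_mul (q : ℚ) (hq : q ≠ 0) :
    ∃ (k : ℤ) (u : (Rl ℓ)ˣ), q = (ℓ : ℚ) ^ k * (((u : Rl ℓ)) : ℚ) := by
  obtain ⟨a, na, hna, hnum⟩ := Nat.exists_eq_pow_mul_and_not_dvd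
    (Int.natAbs_ne_zero.2 (Rat.num_ne_zero.2 hq)) ℓ hl.out.ne_one
  obtain ⟨b, nb, hnb, hden⟩ := Nat.exists_eq_pow_mul_and_not_dvd q.den_nz ℓ hl.out.ne_one
  have hna0 : na ≠ 0 := fun h => hna (h ▸ dvd_zero _)
  have hnb0 : nb ≠ 0 := fun h => hnb (h ▸ dvd_zero _)
  set u : ℚ := (q.num.sign : ℚ) * ((na : ℚ) / nb) with hu
  have hs : (q.num.sign : ℚ) ≠ 0 := by simpa using Rat.num_ne_zero.2 hq
  have key : ∀ (x y : ℕ) (z : ℤ), y ≠ 0 → ¬ ℓ ∣ y → (z : ℚ) * ((x : ℚ) / y) ∈ Rl ℓ := by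
    intro x y z hy hndvd
    refine (Rl ℓ).mul_mem (intCast_mem _ z) ?_
    rw [mem_Rl]
    have h1 : (((x : ℚ) / y).den) ∣ y := by
      have := Rat.den_dvd (x : ℤ) (y : ℤ)
      simp only [Rat.divInt_eq_div, Int.cast_natCast] at this
      exact_mod_cast this
    exact Nat.Coprime.coprime_dvd_left h1
      (((hl.out.coprime_iff_not_dvd).2 hndvd).symm)
  have hu1 : u ∈ Rl ℓ := key na nb _ hnb0 hnb
  have hu2 : u⁻¹ ∈ Rl ℓ := by
    have : u⁻¹ = ((q.num.sign : ℤ) : ℚ) * ((nb : ℚ) / na) := by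
      have hsq : (q.num.sign : ℚ) * q.num.sign = 1 := by
        rcases lt_or_gt_of_ne (Rat.num_ne_zero.2 hq) with h | h
        · simp [Int.sign_eq_neg_one_of_neg h]
        · simp [Int.sign_eq_one_of_pos h]
      refine inv_eq_of_mul_eq_one_left ?_
      rw [hu]
      field_simp
      linear_combination hsq
    rw [this]
    exact key nb na _ hna0 hna
  have hu0 : u ≠ 0 := mul_ne_zero hs (div_ne_zero (Nat.cast_ne_zero.2 hna0) (Nat.cast_ne_zero.2 hnb0))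
  refine ⟨(a : ℤ) - b, ⟨⟨u, hu1⟩, ⟨u⁻¹, hu2⟩, Subtype.ext (mul_inv_cancel₀ hu0),
    Subtype.ext (inv_mul_cancel₀ hu0)⟩, ?_⟩
  have hl0 : (ℓ : ℚ) ≠ 0 := Nat.cast_ne_zero.2 hl.out.ne_zero
  have e1 : (q.num : ℚ) = (q.num.sign : ℚ) * (q.num.natAbs : ℕ) := by
    conv_lhs => rw [← Int.sign_mul_natAbs q.num]
    rw [Int.cast_mul, Int.cast_natCast]
  calc q = (q.num : ℚ) / q.den := (Rat.num_div_den q).symm
    _ = _ := by
      rw [e1, hnum, hden, zpow_sub₀ hl0, zpow_natCast, zpow_natCast]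
      show _ = (ℓ : ℚ) ^ a / (ℓ : ℚ) ^ b * u
      rw [hu]
      push_cast
      field_simp

theorem exists_denom (q : ℚ) : ∃ n : ℕ, (ℓ : ℚ) ^ n * q ∈ Rl ℓ := by
  rcases eq_or_ne q 0 with rfl | hq
  · exact ⟨0, by simp⟩
  obtain ⟨k, u, rfl⟩ := exists_eq_pow_mul (ℓ := ℓ) q hq
  refine ⟨(-k).toNat, ?_⟩
  rw [← mul_assoc, ← zpow_natCast, ← zpow_add₀ (Nat.cast_ne_zero.2 hl.out.ne_zero)]
  obtain ⟨m, hm⟩ := Int.eq_ofNat_of_zero_le (show (0 : ℤ) ≤ ((-k).toNat : ℤ) + k by omega)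
  rw [hm, zpow_natCast]
  exact mul_mem (pow_mem (natCast_mem ℓ) _) (u : Rl ℓ).2

instance isFractionRingRl : IsFractionRing (Rl ℓ) ℚ := by
  refine IsFractionRing.of_field _ _ fun q => ?_
  obtain ⟨n, hn⟩ := exists_denom (ℓ := ℓ) q
  refine ⟨⟨_, hn⟩, ⟨_, pow_mem (natCast_mem (ℓ := ℓ) ℓ) n⟩, ?_⟩
  have : (ℓ : ℚ) ^ n ≠ 0 := pow_ne_zero _ (Nat.cast_ne_zero.2 hl.out.ne_zero)
  show q = (ℓ : ℚ) ^ n * q / (ℓ : ℚ) ^ n
  field_simp

instance isPrincipalRl : IsPrincipalIdealRing (Rl ℓ) := by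
  classical
  refine ⟨fun I => ?_⟩
  set π : Rl ℓ := ⟨ℓ, natCast_mem ℓ⟩ with hπ
  have key : ∀ x : Rl ℓ, x ≠ 0 → ∃ (n : ℕ) (u : (Rl ℓ)ˣ), x = π ^ n * u := by
    intro x hx
    obtain ⟨k, u, hk⟩ := exists_eq_pow_mul (ℓ := ℓ) (x : ℚ) (fun h => hx (Subtype.ext h))
    rcases le_or_gt 0 k with h | h
    · obtain ⟨n, rfl⟩ := Int.eq_ofNat_of_zero_le h
      exact ⟨n, u, Subtype.ext (by rw [hk, zpow_natCast]; simp [hπ])⟩
    · exfalso
      obtain ⟨n, hn⟩ := Int.eq_ofNat_of_zero_le (show (0 : ℤ) ≤ -k - 1 by omega)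
      have h1 : (1 : ℚ) / ℓ ∈ Rl ℓ := by
        have h2 : (x : ℚ) * (((u⁻¹ : (Rl ℓ)ˣ) : Rl ℓ) : ℚ) * (ℓ : ℚ) ^ n ∈ Rl ℓ :=
          mul_mem (mul_mem x.2 (Subtype.mem _)) (pow_mem (natCast_mem ℓ) n)
        have hu : ((u : Rl ℓ) : ℚ) * (((u⁻¹ : (Rl ℓ)ˣ) : Rl ℓ) : ℚ) = 1 :=
          congrArg Subtype.val u.mul_inv
        rw [hk, mul_assoc ((ℓ : ℚ) ^ k), hu, mul_one, ← zpow_natCast,
          ← zpow_add₀ (Nat.cast_ne_zero.2 hl.out.ne_zero), show k + (n : ℤ) = -1 by omega,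
          zpow_neg_one] at h2
        rwa [one_div]
      rw [mem_Rl, one_div, Rat.inv_natCast_den_of_pos hl.out.pos] at h1
      exact hl.out.ne_one ((Nat.coprime_self ℓ).1 h1)
  by_cases h0 : I = ⊥
  · exact ⟨0, by simp [h0]⟩
  obtain ⟨x, hxI, hx0⟩ := Submodule.exists_mem_ne_zero_of_ne_bot h0
  have hex : ∃ n, π ^ n ∈ I := by
    obtain ⟨n, u, rfl⟩ := key x hx0
    exact ⟨n, (Ideal.mul_unit_mem_iff_mem I u.isUnit).1 hxI⟩
  refine ⟨π ^ Nat.find hex, le_antisymm (fun y hy => ?_) ?_⟩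
  · rcases eq_or_ne y 0 with rfl | hy0
    · exact zero_mem _
    obtain ⟨n, u, rfl⟩ := key y hy0
    have hn : Nat.find hex ≤ n := Nat.find_min' hex ((Ideal.mul_unit_mem_iff_mem I u.isUnit).1 hy)
    exact Ideal.mem_span_singleton.2 ((pow_dvd_pow π hn).mul_right _)
  · exact (Ideal.span_singleton_le_iff_mem I).2 (Nat.find_spec hex)

theorem smul_eq_algebraMap_mul (r : Rl ℓ) (x : QQb) : r • x = algebraMap ℚ QQb (r : ℚ) * x := by
  rw [Algebra.smul_def, IsScalarTower.algebraMap_apply (Rl ℓ) ℚ QQb r]; rfl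

theorem galois_smul_Rl (σ : GG) (r : Rl ℓ) (x : QQb) : σ (r • x) = r • σ x := by
  rw [smul_eq_algebraMap_mul, smul_eq_algebraMap_mul, map_mul, σ.commutes]

/-- A `Galois`-fixed algebraic number is rational. -/
theorem exists_rat_of_fixed {x : QQb} (h : ∀ σ : GG, σ x = x) : ∃ q : ℚ, algebraMap ℚ QQb q = x := by
  haveI : Algebra.IsAlgebraic ℚ QQb := AlgebraicClosure.isAlgebraic ℚ
  haveI : IsAlgClosure ℚ QQb := ⟨inferInstance, inferInstance⟩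
  haveI : Normal ℚ QQb := IsAlgClosure.normal ℚ _
  haveI : IsGalois ℚ QQb := {}
  exact IntermediateField.mem_bot.1 ((InfiniteGalois.mem_bot_iff_fixed x).2 h)

end FLTAgent.FlatModel
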