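import Fermat.Agent.Frobenius.Exists
import Fermat.Agent.Frobenius.Global
import Fermat.Prelude.Def_GaloisRep_LocalConditions
import Fermat.Agent.LocalEC.Galois
import Fermat.Agent.FrobTrace.Global

/-!
# Elements arbitrarily divisible by `ℓ` at a place over `ℓ`, and discreteness on bounded degree
-/

set_option autoImplicit false
set_option linter.style.haveILetI false
set_option linter.unusedSectionVars false

noncomputable section

namespace FLTAgent.FlatModel

open Polynomial

local notation "QQb" => AlgebraicClosure ℚ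

variable {ℓ : ℕ} [Fact ℓ.Prime] {A : ValuationSubring QQb}

theorem valuation_natCast_lt_one (hA : A.LiesOverPrime ℓ) : A.valuation (ℓ : QQb) < 1 :=
  (A.valuation_lt_one_iff (ℓ : A)).1 (by
    rw [← IsLocalRing.residue_eq_zero_iff, map_natCast]
    haveI := FrobTrace.charP_residueField hA
    exact CharP.cast_eq_zero _ ℓ)

/-- The value of a rational number is a power of the value of `ℓ`. -/
theorem valuation_ratCast (hA : A.LiesOverPrime ℓ) {c : ℚ} (hc : c ≠ 0) :
    A.valuation (c : QQb) = A.valuation (ℓ : QQb) ^ padicValRat ℓ c := by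
  have hl : ℓ.Prime := Fact.out
  have hnat : ∀ n : ℕ, n ≠ 0 → A.valuation (n : QQb) = A.valuation (ℓ : QQb) ^ padicValNat ℓ n := by
    intro n hn
    obtain ⟨e, n', hn', rfl⟩ := Nat.exists_eq_pow_mul_and_not_dvd hn ℓ hl.ne_one
    have h0 : n' ≠ 0 := fun h => hn' (h ▸ dvd_zero ℓ)
    have hval : padicValNat ℓ (ℓ ^ e * n') = e := by
      rw [padicValNat.mul (pow_ne_zero _ hl.ne_zero) h0, padicValNat.prime_pow,
        padicValNat.eq_zero_of_not_dvd hn', add_zero]
    have h1 : A.valuation (n' : QQb) = 1 := by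
      refine le_antisymm ((A.valuation_le_one_iff _).2 (natCast_mem A n')) (not_lt.1 fun h => hn' ?_)
      haveI := FrobTrace.charP_residueField hA
      rw [← CharP.cast_eq_zero_iff (IsLocalRing.ResidueField A) ℓ, ← map_natCast
        (IsLocalRing.residue A), IsLocalRing.residue_eq_zero_iff]
      exact (A.valuation_lt_one_iff (n' : A)).2 (by simpa using h)
    rw [hval, Nat.cast_mul, map_mul, h1, mul_one, Nat.cast_pow, map_pow]
  rw [padicValRat_def, zpow_sub₀ ((_root_.map_ne_zero _).2 (Nat.cast_ne_zero.2 hl.ne_zero)), zpow_natCast,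
    zpow_natCast]
  conv_lhs => rw [← Rat.num_div_den c]
  rw [Rat.cast_div, map_div₀, Rat.cast_natCast, hnat _ c.den_nz]
  congr 1
  rw [Rat.cast_intCast, padicValInt, ← hnat _ (Int.natAbs_ne_zero.2 (Rat.num_ne_zero.2 hc))]
  rcases Int.natAbs_eq c.num with h | h
  · conv_lhs => rw [h]
    rw [Int.cast_natCast]
  · conv_lhs => rw [h]
    rw [Int.cast_neg, Valuation.map_neg, Int.cast_natCast]

/-- On elements of bounded degree the values are discrete. -/
theorem valuation_pow_le (hA : A.LiesOverPrime ℓ) (K : IntermediateField ℚ QQb)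
    [FiniteDimensional ℚ K] {u : QQb} (hu : u ∈ K) (h : A.valuation u < 1) :
    A.valuation u ^ Module.finrank ℚ K ≤ A.valuation (ℓ : QQb) := by
  classical
  rcases eq_or_ne u 0 with rfl | hu0
  · rw [map_zero, zero_pow Module.finrank_pos.ne']; exact zero_le
  set v := A.valuation u
  have hv0 : v ≠ 0 := (_root_.map_ne_zero _).2 hu0
  have hint : IsIntegral ℚ u := ((AlgebraicClosure.isAlgebraic ℚ).isAlgebraic u).isIntegral
  set P := minpoly ℚ u
  have hdeg : P.natDegree ≤ Module.finrank ℚ K := by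
    rw [← show minpoly ℚ (⟨u, hu⟩ : K) = P from
      (minpoly.algebraMap_eq (algebraMap K QQb).injective (⟨u, hu⟩ : K)).symm]
    exact minpoly.natDegree_le _
  have hne : P ≠ 0 := minpoly.ne_zero hint
  obtain ⟨i, hi, hmax⟩ := P.support.exists_max_image (fun i => A.valuation ((P.coeff i : QQb) * u ^ i))
    (Polynomial.support_nonempty.2 hne)
  have hsum : ∑ j ∈ P.support, (P.coeff j : QQb) * u ^ j = 0 := by
    have h := minpoly.aeval ℚ u
    rw [aeval_def, eval₂_eq_sum, sum_def] at h
    exact h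
  obtain ⟨j, hj, hji, hej⟩ : ∃ j ∈ P.support, j ≠ i ∧
      A.valuation ((P.coeff j : QQb) * u ^ j) = A.valuation ((P.coeff i : QQb) * u ^ i) := by
    by_contra! hcon
    have h1 := Valuation.map_sum_eq_of_lt A.valuation hi
      (f := fun j => (P.coeff j : QQb) * u ^ j) fun j hj => by
        rw [Finset.mem_sdiff, Finset.mem_singleton] at hj
        exact lt_of_le_of_ne (hmax j hj.1) (hcon j hj.1 hj.2)
    rw [hsum, map_zero] at h1
    exact (_root_.map_ne_zero _).2 (mul_ne_zero (Rat.cast_ne_zero.2 (mem_support_iff.1 hi))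
      (pow_ne_zero _ hu0)) h1.symm
  have key : ∀ a b, a ∈ P.support → b ∈ P.support → a < b →
      A.valuation ((P.coeff a : QQb) * u ^ a) = A.valuation ((P.coeff b : QQb) * u ^ b) →
      v ^ Module.finrank ℚ K ≤ A.valuation (ℓ : QQb) := by
    intro a b ha hb hab he
    have hab' : b ≤ Module.finrank ℚ K := (le_natDegree_of_mem_supp _ hb).trans hdeg
    have hl0 : A.valuation (ℓ : QQb) ≠ 0 :=
      (_root_.map_ne_zero _).2 (Nat.cast_ne_zero.2 (Fact.out : ℓ.Prime).ne_zero)
    rw [map_mul, map_mul, map_pow, map_pow, valuation_ratCast hA (mem_support_iff.1 ha),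
      valuation_ratCast hA (mem_support_iff.1 hb)] at he
    set s : ℤ := padicValRat ℓ (P.coeff a) - padicValRat ℓ (P.coeff b)
    have hs : v ^ (b - a) = A.valuation (ℓ : QQb) ^ s := by
      have : A.valuation (ℓ : QQb) ^ padicValRat ℓ (P.coeff b) * v ^ (b - a) =
          A.valuation (ℓ : QQb) ^ padicValRat ℓ (P.coeff a) := by
        refine mul_right_cancel₀ (pow_ne_zero a hv0) ?_
        rw [mul_assoc, ← pow_add, Nat.sub_add_cancel hab.le, he]
      rw [zpow_sub₀ hl0, ← this, mul_div_cancel_left₀ _ (zpow_ne_zero _ hl0)]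
    have hl1 := valuation_natCast_lt_one hA
    have hs0 : 1 ≤ s := by
      by_contra! hcon
      have h1 : (1 : A.ValueGroup) ≤ A.valuation (ℓ : QQb) ^ s := by
        obtain ⟨m, hm⟩ : ∃ m : ℕ, s = -(m : ℤ) := ⟨(-s).toNat, by omega⟩
        rw [hm, zpow_neg, zpow_natCast]
        exact (one_le_inv₀ (pow_pos (pos_iff_ne_zero.2 hl0) _)).2 (pow_le_one₀ zero_le hl1.le)
      rw [← hs] at h1
      exact (not_lt.2 h1) (pow_lt_one₀ zero_le h (by omega))
    refine (pow_le_pow_right_of_le_one' h.le (by omega : b - a ≤ Module.finrank ℚ K)).trans ?_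
    rw [hs]
    obtain ⟨m, hm⟩ : ∃ m : ℕ, s = (m : ℤ) := ⟨s.toNat, by omega⟩
    rw [hm, zpow_natCast]
    exact pow_le_of_le_one zero_le hl1.le (by omega)
  rcases Nat.lt_or_gt_of_ne hji with h1 | h1
  · exact key j i hj hi h1 hej
  · exact key i j hi hj h1 hej.symm

/-- An element divisible by every power of `ℓ` is zero. -/
theorem eq_zero_of_forall_valuation_le (hA : A.LiesOverPrime ℓ) {u : QQb}
    (h : ∀ k : ℕ, A.valuation u ≤ A.valuation (ℓ : QQb) ^ k) : u = 0 := by
  by_contra hu0
  have hl1 := valuation_natCast_lt_one hA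
  have hl0 : A.valuation (ℓ : QQb) ≠ 0 :=
    (_root_.map_ne_zero _).2 (Nat.cast_ne_zero.2 (Fact.out : ℓ.Prime).ne_zero)
  set K := IntermediateField.adjoin ℚ ({u} : Set QQb)
  haveI : FiniteDimensional ℚ K := IntermediateField.adjoin.finiteDimensional
    ((AlgebraicClosure.isAlgebraic ℚ).isAlgebraic u).isIntegral
  set e := Module.finrank ℚ K
  have hv0 : A.valuation u ≠ 0 := (_root_.map_ne_zero _).2 hu0
  obtain ⟨t, hv, ht⟩ : ∃ t : ℕ, A.valuation u < 1 ∧ A.valuation (ℓ : QQb) ^ t ≤ A.valuation u := by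
    have hv : A.valuation u < 1 := lt_of_le_of_lt ((h 1).trans_eq (pow_one _)) hl1
    -- a nonzero rational is a multiple of `u`
    set P := minpoly ℚ u
    have hint : IsIntegral ℚ u := ((AlgebraicClosure.isAlgebraic ℚ).isAlgebraic u).isIntegral
    have h0 : P.coeff 0 ≠ 0 := minpoly.coeff_zero_ne_zero hint hu0
    have hsum : ∑ j ∈ P.support, (P.coeff j : QQb) * u ^ j = 0 := by
      have h := minpoly.aeval ℚ u
      rw [aeval_def, eval₂_eq_sum, sum_def] at h
      exact h
    rw [← Finset.add_sum_erase _ _ (mem_support_iff.2 h0), pow_zero, mul_one,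
      add_eq_zero_iff_eq_neg] at hsum
    obtain ⟨M, hM⟩ : ∃ M : ℕ, ∀ j ∈ P.support, -padicValRat ℓ (P.coeff j) ≤ (M : ℤ) := by
      obtain ⟨M, hM⟩ := (P.support.image fun j => (-padicValRat ℓ (P.coeff j)).toNat).bddAbove
      exact ⟨M, fun j hj => le_trans (Int.self_le_toNat _)
        (Int.ofNat_le.2 (hM (Finset.mem_image_of_mem _ hj)))⟩
    have hle : A.valuation (P.coeff 0 : QQb) * A.valuation (ℓ : QQb) ^ M ≤ A.valuation u := by
      rw [hsum, Valuation.map_neg, ← map_pow, ← map_mul, Finset.sum_mul]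
      refine Valuation.map_sum_le _ fun j hj => ?_
      obtain ⟨hj0, hj⟩ := Finset.mem_erase.1 hj
      obtain ⟨j', rfl⟩ := Nat.exists_eq_add_of_le (Nat.one_le_iff_ne_zero.2 hj0)
      rw [map_mul, map_mul, map_pow, map_pow, valuation_ratCast hA (mem_support_iff.1 hj),
        mul_right_comm, pow_add, pow_one]
      refine le_trans (mul_le_mul' ?_ (mul_le_mul' le_rfl (pow_le_one₀ zero_le hv.le)))
        (by rw [one_mul, mul_one])
      rw [← zpow_natCast, ← zpow_add₀ hl0]
      obtain ⟨m, hm⟩ : ∃ m : ℕ, padicValRat ℓ (P.coeff (1 + j')) + (M : ℤ) = (m : ℤ) :=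
        ⟨_, (Int.toNat_of_nonneg (by have := hM _ hj; omega)).symm⟩
      rw [hm, zpow_natCast]
      exact pow_le_one₀ zero_le hl1.le
    rw [valuation_ratCast hA h0] at hle
    refine ⟨(padicValRat ℓ (P.coeff 0)).toNat + M, hv, le_trans ?_ hle⟩
    rw [pow_add]
    refine mul_le_mul' ?_ le_rfl
    rw [← zpow_natCast]
    exact zpow_le_zpow_right_of_le_one₀ (pos_iff_ne_zero.2 hl0) hl1.le (Int.self_le_toNat _)
  have h1 := ht.trans (h (t + 1))
  rw [pow_succ] at h1
  exact (not_lt.2 h1) (mul_lt_of_lt_one_right (pow_pos (pos_iff_ne_zero.2 hl0) _) hl1)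

end FLTAgent.FlatModel
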