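import Fermat.Agent.FlatModel.Chart
import Fermat.Agent.FlatModel.SepValuation
import Fermat.Agent.FlatModel.Modular
import Fermat.Agent.Divisible.FiniteFixed
import Fermat.Agent.Kronecker.BoundedDefect

/-!
# The rational classes of `J₀(N)` are `ℓ`-adically separated modulo torsion
-/

set_option autoImplicit false
set_option linter.style.haveILetI false
set_option linter.unusedSectionVars false
set_option synthInstance.maxHeartbeats 400000
set_option maxHeartbeats 1000000

noncomputable section

open scoped Pointwise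
open IsLocalRing

namespace FLTAgent.FlatModel

open AlgebraicCurve FLTAgent.Curves FLTAgent.Specialization ModularCurve

local notation "QQb" => AlgebraicClosure ℚ
local notation "GG" => (AlgebraicClosure ℚ ≃ₐ[ℚ] AlgebraicClosure ℚ)

section General

variable {A : ValuationSubring QQb} [IsAlgClosed (ResidueField A)] [IsAlgClosed QQb]
variable {F Fb : Type*} [Field F] [Field Fb] [Algebra QQb F] [Algebra (ResidueField A) Fb]
  [IsFunctionField QQb F] [IsFunctionField (ResidueField A) Fb]
variable {M : Model (residue A) F Fb} {ρ : GG →* SemilinearAut QQb F}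

/-- In the kernel of reduction a rational class divisible by all powers of `ℓ` is zero. -/
theorem eq_zero_of_divisible_kernel {ℓ : ℕ} [Fact ℓ.Prime] (hA : A.LiesOverPrime ℓ) (hM : M.Smooth)
    (hρ : IsArith ρ) (hx : ∀ σ, ρ σ • M.x = M.x) (hcoords : ∀ m, Nonempty (EqCoords M ρ m))
    (hfixdiv : ∀ D : Divisor QQb F, ∃ K : IntermediateField ℚ QQb, FiniteDimensional ℚ K ∧
      ∀ σ : GG, (∀ a ∈ K, σ a = a) → ρ σ • D = D)
    {z : Pic0 QQb F} (hz : ∀ k : ℕ, ∃ w, redHom hM w = 0 ∧ (∀ σ, ρ σ • w = w) ∧ ℓ ^ k • w = z) :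
    z = 0 := by
  classical
  obtain ⟨ι, _, u, K, hK, hlt, hrat, hadd, hsep⟩ :=
    exists_kernel_chart hA hM hρ hx hcoords hfixdiv
  haveI := hK
  set e := Module.finrank ℚ K
  have he : 0 < e := Module.finrank_pos
  obtain ⟨z₀, hz₀, -, hz₀'⟩ := hz 0
  rw [pow_zero, one_smul] at hz₀'
  subst hz₀'
  refine hsep _ hz₀ fun q => eq_zero_of_forall_valuation_le hA fun k => ?_
  have hl1 := (valuation_natCast_lt_one hA).le
  set c := A.valuation (ℓ : QQb)
  -- a single bound for all the coordinates
  obtain ⟨w, hw, hwfix, hwk⟩ := hz (k * e)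
  haveI : Nonempty ι := ⟨q⟩
  obtain ⟨q₀, -, hmax⟩ := Finset.univ.exists_max_image (fun r => A.valuation (u r w))
    Finset.univ_nonempty
  set μ := A.valuation (u q₀ w)
  have hμ1 : μ ≤ 1 := (hlt w hw q₀).le
  have hμe : μ ^ e ≤ c := valuation_pow_le hA K (hrat w hw hwfix q₀) (hlt w hw q₀)
  have hb : ∀ r, A.valuation (u r w) ≤ μ := fun r => hmax r (Finset.mem_univ r)
  -- multiples
  have hu0 : ∀ r, A.valuation (u r (0 : Pic0 QQb F)) ≤ 0 := fun r => by
    have h := hadd 0 0 (map_zero _) (map_zero _)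
    by_contra hne
    obtain ⟨r₁, -, hm₁⟩ := Finset.univ.exists_max_image (fun r => A.valuation (u r (0 : Pic0 QQb F)))
      Finset.univ_nonempty
    have h1 := h _ _ (hlt 0 (map_zero _) r₁).le (hlt 0 (map_zero _) r₁).le
      (fun r => hm₁ r (Finset.mem_univ r)) (fun r => hm₁ r (Finset.mem_univ r)) r₁
    rw [add_zero, sub_self, zero_sub, Valuation.map_neg] at h1
    have hlt1 := hlt 0 (map_zero _) r₁
    rcases eq_or_ne (A.valuation (u r₁ (0 : Pic0 QQb F))) 0 with h2 | h2
    · exact hne (h2 ▸ hm₁ r (Finset.mem_univ r))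
    · exact (not_lt.2 h1) (mul_lt_of_lt_one_right (pos_iff_ne_zero.2 h2) hlt1)
  have hmul : ∀ (y : Pic0 QQb F) (ν : A.ValueGroup), redHom hM y = 0 → ν ≤ 1 →
      (∀ r, A.valuation (u r y) ≤ ν) → ∀ (n : ℕ) (r : ι),
        A.valuation (u r (n • y)) ≤ ν ∧ A.valuation (u r (n • y) - n * u r y) ≤ ν * ν := by
    intro y ν hy hν hyν n
    induction n with
    | zero =>
      intro r
      rw [zero_nsmul]
      refine ⟨(hu0 r).trans zero_le, ?_⟩
      rw [Nat.cast_zero, zero_mul, sub_zero]
      exact (hu0 r).trans zero_le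
    | succ n ih =>
      intro r
      have hny : redHom hM (n • y) = 0 := by rw [map_nsmul, hy, smul_zero]
      have h := hadd _ _ hny hy ν ν hν hν (fun r => (ih r).1) hyν r
      rw [succ_nsmul]
      refine ⟨?_, ?_⟩
      · rw [show u r (n • y + y) = (u r (n • y + y) - u r (n • y) - u r y) +
          (u r (n • y) + u r y) by ring]
        exact Valuation.map_add_le _ (h.trans (mul_le_of_le_one_right' hν))
          (Valuation.map_add_le _ (ih r).1 (hyν r))
      · rw [show u r (n • y + y) - ((n + 1 : ℕ) : QQb) * u r y =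
          (u r (n • y + y) - u r (n • y) - u r y) + (u r (n • y) - n * u r y) by
            push_cast; ring]
        exact Valuation.map_add_le _ h (ih r).2
  -- multiplication by `ℓ` shrinks
  set ν := max c μ
  have hν1 : ν ≤ 1 := max_le hl1 hμ1
  have hνe : ν ^ e ≤ c := by
    rcases max_choice c μ with h | h <;> simp only [ν, h]
    · exact pow_le_of_le_one zero_le hl1 he.ne'
    · exact hμe
  have hiter : ∀ n r, A.valuation (u r (ℓ ^ n • w)) ≤ ν ^ (n + 1) := by
    intro n
    induction n with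
    | zero => intro r; rw [pow_zero, one_smul, pow_one]; exact (hb r).trans (le_max_right _ _)
    | succ n ih =>
      intro r
      have hny : redHom hM (ℓ ^ n • w) = 0 := by rw [map_nsmul, hw, smul_zero]
      have h := (hmul _ _ hny (pow_le_one₀ zero_le hν1) ih ℓ r).2
      rw [pow_succ' ℓ n, mul_smul, show u r (ℓ • ℓ ^ n • w) =
        (u r (ℓ • ℓ ^ n • w) - ℓ * u r (ℓ ^ n • w)) + ℓ * u r (ℓ ^ n • w) by ring]
      refine Valuation.map_add_le _ (h.trans ?_) ?_
      · rw [pow_succ _ (n + 1)]
        exact mul_le_mul' le_rfl (pow_le_of_le_one zero_le hν1 (by omega))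
      · rw [map_mul, pow_succ' ν (n + 1)]
        exact mul_le_mul' (le_max_left _ _) (ih r)
  refine (hwk ▸ hiter (k * e) q).trans ?_
  rw [pow_succ, mul_comm k e, pow_mul]
  exact (mul_le_of_le_one_right' hν1).trans (pow_le_pow_left₀ zero_le hνe k)

end General

/-- Reduction of classes through a smooth model is the reduction of `J₀(N)`. -/
theorem redHom_eq_reductionModL {ℓ : ℕ} [Fact ℓ.Prime] {A : ValuationSubring QQb}
    (hA : A.LiesOverPrime ℓ) (N : ℕ) [NeZero N] (hℓN : ¬ ℓ ∣ N)
    [IsAlgClosed (ResidueField A)] (hN : (N : ResidueField A) ≠ 0)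
    [IsFunctionField (ResidueField A) (modularFunctionFieldFullC (ResidueField A) N)]
    (hM : (modularModel residue_surjective N hN).Smooth) (y : JZero N) :
    redHom hM y = reductionModL A N y := by
  have h : ReductionInputsModL A N :=
    reductionInputsModL hA (fun M _ h1 h2 => GoodModel.goodLevel hA M h1 h2) N hℓN
  obtain ⟨D, rfl⟩ := Pic0.mk_surjective y
  rw [reductionModL_mk h]
  refine congrArg Pic0.mk (Subtype.ext ?_)
  rw [coe_reductionDegZeroAlong]
  set r := placeReductionModL h
  have hr := isPlaceReductionModL_placeReductionModL h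
  refine Kronecker.eq_of_principal_of_bounded (Model.divMap hM)
    (Finsupp.mapDomain.addMonoidHom r) 1 (fun P Q => ?_) (fun P Q => ?_) (fun E hE => ?_)
    (Divisor.mem_degZero.1 D.2)
  · rw [Model.divMap_single]; exact_mod_cast Kronecker.abs_single_apply_le _ _
  · rw [Finsupp.mapDomain.addMonoidHom_apply, Finsupp.mapDomain_single]
    exact_mod_cast Kronecker.abs_single_apply_le _ _
  · have hE' := principalGeneratedByIntegral hA N hℓN hE
    clear hE
    induction hE' using AddSubgroup.closure_induction with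
    | zero => rw [map_zero, map_zero]
    | add E E' _ _ hE hE' => rw [map_add, map_add, hE, hE']
    | neg E _ hE => rw [map_neg, map_neg, hE]
    | mem E hE =>
      obtain ⟨y, hy, hyk, hne, hEy⟩ := hE
      have hED : E = divOf QQb (⟨_, hy⟩ : X0Bar N) := Finsupp.ext fun P => by rw [hEy, divOf_apply]
      rw [Finsupp.mapDomain.addMonoidHom_apply]
      refine Finsupp.ext fun Q => ?_
      rw [hr.2 y hy hyk hne E hEy Q, hED,
        Model.divMap_divOf hM (modularModel_res_series residue_surjective N hN hy hyk)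
          (fun h0 => hne (congrArg Subtype.val h0)), divOf_apply]

/-- Fixed points of a semilinear automorphism on classes. -/
def fixedClasses {K E : Type*} [Field K] [Field E] [Algebra K E] (Φ : SemilinearAut K E) :
    AddSubgroup (Pic0 K E) :=
  (DistribSMul.toAddMonoidHom (Pic0 K E) Φ).eqLocus (AddMonoidHom.id _)

/-- **`ℓ`-adic separatedness.** A rational class divisible by every power of `ℓ ∤ N` among
rational classes is torsion. -/
theorem isTorsion_of_divisible (N : ℕ) [NeZero N] {ℓ : ℕ} [Fact ℓ.Prime] (hℓN : ¬ ℓ ∣ N)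
    {z : JZero N} (hz : ∀ k : ℕ, ∃ w : JZero N, (∀ σ : GG, σ • w = w) ∧ ℓ ^ k • w = z) :
    ∃ m : ℕ, 0 < m ∧ m • z = 0 := by
  have hl : ℓ.Prime := Fact.out
  obtain ⟨A, hA⟩ := Frobenius.exists_liesOverPrime ℓ hl
  haveI : IsAlgClosed (ResidueField A) := FrobTrace.isAlgClosed_residueField A
  obtain ⟨N₂, N', h12, h23, hN', haux, ⟨d, hd, hdl⟩, ⟨e, he⟩, -⟩ := exists_levels hl hℓN
  haveI : NeZero N' := ⟨fun h => hN' (h ▸ dvd_zero ℓ)⟩
  haveI : NeZero N₂ := ⟨fun h => NeZero.ne N' (by simpa [h] using h23)⟩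
  have hk : ∀ {n : ℕ}, ¬ ℓ ∣ n → (n : ResidueField A) ≠ 0 := natCast_ne_zero_residue hA
  have hk' : (N' : ResidueField A) ≠ 0 := hk hN'
  have hℓN₂ : ¬ ℓ ∣ N₂ := fun h => hN' (h.trans h23)
  have hk₂ : (N₂ : ResidueField A) ≠ 0 := hk hℓN₂
  haveI := isFunctionField_full (ResidueField A) N rfl (hk hℓN)
  haveI := isFunctionField_full (ResidueField A) N₂ rfl hk₂
  haveI := isFunctionField_full (ResidueField A) N' rfl hk'
  have hM : (modularModel residue_surjective N₂ hk₂).Smooth :=
    smooth_of_dvd residue_surjective hk₂ h23 hk' hd (hk hdl)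
      (GoodModel.goodLevel hA N' haux hN')
  obtain ⟨-, hpsi, -⟩ := exists_tower residue_surjective (hk hℓN) h12 hk₂
  obtain ⟨a, b, hba, heq⟩ := exists_transfer (IntermediateField.inclusion (X0Bar_mono h12))
  have hcompat : ∀ (σ : GG) (y : X0Bar N), IntermediateField.inclusion (X0Bar_mono h12)
      (arithmeticGalois (modularFunctionFieldFull N) σ • y) =
        arithmeticGalois (modularFunctionFieldFull N₂) σ •
          IntermediateField.inclusion (X0Bar_mono h12) y := fun σ y => Subtype.ext (by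
    rw [IntermediateField.coe_inclusion, coe_arithmeticGalois_smul, coe_arithmeticGalois_smul,
      IntermediateField.coe_inclusion])
  have hafix : ∀ w : JZero N, (∀ σ : GG, σ • w = w) → ∀ σ : GG, σ • a w = a w := fun w hw σ => by
    rw [galois_smul_pic0_def, ← (heq _ _ (hcompat σ)).1 w, ← galois_smul_pic0_def, hw]
  -- the rational classes of the special fibre are finite
  obtain ⟨τ, hτ⟩ := Frobenius.exists_isFrobeniusAt (V := A) ℓ hl hA
  haveI := FrobTrace.charP_residueField hA
  let φ := Kronecker.residueAut A ⟨τ, hτ.mem_decompositionSubgroup⟩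
  have hφ : ∀ x, φ x = x ^ ℓ := fun x => hτ.smul_residue_eq x
  set Φ := Kronecker.specialAut N₂ φ
  haveI : Finite (fixedClasses Φ) := by
    have h := Divisible.finite_fixed N₂ hℓN₂ A hA φ hφ 1 one_pos
    rw [pow_one] at h
    exact (h.subset fun x hx => hx).to_subtype
  set m := Nat.card (fixedClasses Φ)
  have hred : ∀ w : JZero N₂, (∀ σ : GG, σ • w = w) → redHom hM (m • w) = 0 := fun w hw => by
    have hfixed : reductionModL A N₂ w ∈ fixedClasses Φ := by
      show Φ • reductionModL A N₂ w = reductionModL A N₂ w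
      rw [← Kronecker.reductionModL_smul_of_frobenius
        (reductionInputsModL hA (fun M _ h1 h2 => GoodModel.goodLevel hA M h1 h2) N₂ hℓN₂)
        hτ φ hφ, hw]
    have h1 : m • (⟨_, hfixed⟩ : fixedClasses Φ) = 0 := card_nsmul_eq_zero'
    rw [map_nsmul, redHom_eq_reductionModL hA N₂ hℓN₂]
    exact congrArg Subtype.val h1
  have hz₂ : m • a z = 0 := by
    refine eq_zero_of_divisible_kernel hA hM isArith_galois (smul_jq hk₂) (exists_eqCoords hk₂)
      (fun D => EigenReps.exists_fixing_divisor N₂ D) fun k => ?_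
    obtain ⟨w, hw, hwk⟩ := hz k
    refine ⟨m • a w, hred _ (hafix w hw), fun σ => ?_, ?_⟩
    · show σ • (m • a w) = m • a w
      rw [← EigenReps.nsmul_galois_smul, hafix w hw σ]
    · rw [smul_comm, ← map_nsmul, hwk]
  refine ⟨m * ℓ ^ e, Nat.mul_pos Nat.card_pos (pow_pos hl.pos e), ?_⟩
  have h2 := congrArg b hz₂
  rw [map_zero, map_nsmul, hba] at h2
  rw [mul_smul, ← h2]
  congr 2
  exact (Nat.eq_of_mul_eq_mul_left (dedekindPsi_pos N) (hpsi.trans he)).symm

end FLTAgent.FlatModel
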